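import Mathlib

namespace Fermat.Agent.Lib.ModJ

open UpperHalfPlane ModularForm Complex MatrixGroups CongruenceSubgroup Filter Topology
open scoped Manifold

/-- The analytic `j`-function `E₄³/Δ` on the upper half plane. -/
noncomputable def jFun (z : ℍ) : ℂ := E₄ z ^ 3 / ModularForm.discriminant z

theorem jFun_def (z : ℍ) : jFun z = E₄ z ^ 3 / ModularForm.discriminant z := rfl

theorem jFun_sub_1728 (z : ℍ) : jFun z - 1728 = E₆ z ^ 2 / ModularForm.discriminant z := by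
  have h := discriminant_eq_E₄_cube_sub_E₆_sq z
  have hne := discriminant_ne_zero z
  rw [jFun, div_sub' hne, div_left_inj' hne]
  rw [h]; ring

/-- Transformation law for level one forms, in a convenient form. -/
theorem levelOne_smul {k : ℤ} (f : ModularForm 𝒮ℒ k) (γ : SL(2, ℤ)) (z : ℍ) :
    f (γ • z) = (((γ 1 0 : ℤ) : ℂ) * z + ((γ 1 1 : ℤ) : ℂ)) ^ k * f z := by
  have h := SlashInvariantForm.slash_action_eqn' f
    (γ := Matrix.SpecialLinearGroup.mapGL ℝ γ) (MonoidHom.mem_range.mpr ⟨γ, rfl⟩) z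
  have e : γ • z = (Matrix.SpecialLinearGroup.mapGL ℝ γ) • z := rfl
  rw [e, h]
  simp

theorem cuspLevelOne_smul {k : ℤ} (f : CuspForm 𝒮ℒ k) (γ : SL(2, ℤ)) (z : ℍ) :
    f (γ • z) = (((γ 1 0 : ℤ) : ℂ) * z + ((γ 1 1 : ℤ) : ℂ)) ^ k * f z := by
  have h := SlashInvariantForm.slash_action_eqn' f
    (γ := Matrix.SpecialLinearGroup.mapGL ℝ γ) (MonoidHom.mem_range.mpr ⟨γ, rfl⟩) z
  have e : γ • z = (Matrix.SpecialLinearGroup.mapGL ℝ γ) • z := rfl
  rw [e, h]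
  simp

theorem denom_ne_zero' (γ : SL(2, ℤ)) (z : ℍ) :
    (((γ 1 0 : ℤ) : ℂ) * z + ((γ 1 1 : ℤ) : ℂ)) ≠ 0 := by
  have := UpperHalfPlane.denom_ne_zero (Matrix.SpecialLinearGroup.mapGL ℝ γ) z
  simpa [UpperHalfPlane.denom] using this

theorem discriminant_smul (γ : SL(2, ℤ)) (z : ℍ) :
    ModularForm.discriminant (γ • z) =
      (((γ 1 0 : ℤ) : ℂ) * z + ((γ 1 1 : ℤ) : ℂ)) ^ (12 : ℤ) * ModularForm.discriminant z := by
  have := cuspLevelOne_smul CuspForm.discriminant γ z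
  simpa [CuspForm.coe_discriminant] using this

theorem jFun_smul (γ : SL(2, ℤ)) (z : ℍ) : jFun (γ • z) = jFun z := by
  have h4 := levelOne_smul E₄ γ z
  have h12 := discriminant_smul γ z
  have hd := denom_ne_zero' γ z
  have hne := discriminant_ne_zero z
  rw [jFun, jFun, h4, h12]
  rw [div_eq_div_iff (mul_ne_zero (zpow_ne_zero _ hd) hne) hne]
  have e1 : (((γ 1 0 : ℤ) : ℂ) * z + ((γ 1 1 : ℤ) : ℂ)) ^ (12 : ℤ)
      = ((((γ 1 0 : ℤ) : ℂ) * z + ((γ 1 1 : ℤ) : ℂ)) ^ (4 : ℤ)) ^ 3 := by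
    rw [← zpow_natCast, ← zpow_mul]; norm_num
  rw [e1]; ring

end Fermat.Agent.Lib.ModJ
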