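import Mathlib

/-!
# Item 68 (S24), piece F4: Hermite decomposition

For `d > 0` and `γ ∈ SL(2,ℤ)` there are `δ ∈ SL(2,ℤ)` and natural numbers `A, B, D` with
`A D = d`, `B < D` and `[d, 0; 0, 1] γ = δ [A, B; 0, D]` (integer matrices).
For `d = N`: `A = N ↔ D = 1 ↔ γ ∈ Γ₀(N)`.
-/

set_option autoImplicit false

namespace Fermat.Agent.Lib.ModJ

open Matrix.SpecialLinearGroup CongruenceSubgroup
open scoped MatrixGroups

/-- Entry form of the Hermite decomposition, with `B` not yet reduced. -/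
theorem hermite_aux (g : SL(2, ℤ)) (d : ℤ) (hd : 0 < d) :
    ∃ (g' : SL(2, ℤ)) (a' b' d' : ℤ), 0 < a' ∧ 0 < d' ∧ a' * d' = d ∧
      d * g 0 0 = g' 0 0 * a' ∧
      d * g 0 1 = g' 0 0 * b' + g' 0 1 * d' ∧
      g 1 0 = g' 1 0 * a' ∧
      g 1 1 = g' 1 0 * b' + g' 1 1 * d' := by
  have hdet : g 0 0 * g 1 1 - g 0 1 * g 1 0 = 1 := by
    have h := g.det_coe
    rwa [Matrix.det_fin_two] at h
  set M00 : ℤ := d * g 0 0 with hM00
  set M10 : ℤ := g 1 0 with hM10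
  set M01 : ℤ := d * g 0 1 with hM01
  set M11 : ℤ := g 1 1 with hM11
  have hne : ¬ (M00 = 0 ∧ M10 = 0) := by
    rintro ⟨h1, h2⟩
    have hg00 : g 0 0 = 0 := by
      rcases mul_eq_zero.mp h1 with h | h
      · exact absurd h hd.ne'
      · exact h
    rw [hg00, h2] at hdet
    simp at hdet
  have he_pos : 0 < Int.gcd M00 M10 := by
    rw [Int.gcd_pos_iff]
    by_contra h
    simp only [not_or, not_not] at h
    exact hne h
  have hcop : IsCoprime (M00 / (Int.gcd M00 M10 : ℤ)) (M10 / (Int.gcd M00 M10 : ℤ)) := by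
    rw [Int.isCoprime_iff_gcd_eq_one]
    exact Int.gcd_div_gcd_div_gcd he_pos
  obtain ⟨g', hg0, hg1⟩ := hcop.exists_SL2_col 0
  have hx : M00 = (M00 / (Int.gcd M00 M10 : ℤ)) * (Int.gcd M00 M10 : ℤ) :=
    (Int.ediv_mul_cancel (Int.gcd_dvd_left ..)).symm
  have hy : M10 = (M10 / (Int.gcd M00 M10 : ℤ)) * (Int.gcd M00 M10 : ℤ) :=
    (Int.ediv_mul_cancel (Int.gcd_dvd_right ..)).symm
  set e : ℤ := (Int.gcd M00 M10 : ℤ) with he
  have he_pos' : 0 < e := by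
    rw [he]
    exact_mod_cast he_pos
  rw [← hg0] at hx
  rw [← hg1] at hy
  have hdet' : g' 0 0 * g' 1 1 - g' 0 1 * g' 1 0 = 1 := by
    have h := g'.det_coe
    rwa [Matrix.det_fin_two] at h
  have hMdet : M00 * M11 - M10 * M01 = d := by
    rw [hM00, hM11, hM10, hM01]
    linear_combination d * hdet
  have h1 : e * (g' 0 0 * M11 - g' 1 0 * M01) = d := by
    rw [← hMdet]
    linear_combination (-M11) * hx + M01 * hy
  refine ⟨g', e, g' 1 1 * M01 - g' 0 1 * M11, g' 0 0 * M11 - g' 1 0 * M01, he_pos', ?_, h1,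
    hx, ?_, hy, ?_⟩
  · have h2 : 0 < e * (g' 0 0 * M11 - g' 1 0 * M01) := by
      rw [h1]; exact hd
    by_contra hcon
    have hle : g' 0 0 * M11 - g' 1 0 * M01 ≤ 0 := not_lt.mp hcon
    have := mul_nonpos_of_nonneg_of_nonpos he_pos'.le hle
    linarith
  · linear_combination (-M01) * hdet'
  · linear_combination (-M11) * hdet'

/-- `T^k = [1, k; 0, 1]`. -/
def shiftT (k : ℤ) : SL(2, ℤ) := ⟨!![1, k; 0, 1], by simp [Matrix.det_fin_two_of]⟩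

/-- **Hermite decomposition**, entry form: `[d, 0; 0, 1] γ = δ [A, B; 0, D]` with `A D = d`,
`0 ≤ B < D`. -/
theorem hermite_entries (γ : SL(2, ℤ)) (d : ℕ) (hd : 0 < d) :
    ∃ (δ : SL(2, ℤ)) (A B D : ℕ), A * D = d ∧ B < D ∧
      (d : ℤ) * γ 0 0 = δ 0 0 * A ∧
      (d : ℤ) * γ 0 1 = δ 0 0 * B + δ 0 1 * D ∧
      γ 1 0 = δ 1 0 * A ∧
      γ 1 1 = δ 1 0 * B + δ 1 1 * D := by
  obtain ⟨g', a', b', d', ha', hd', had, h00, h01, h10, h11⟩ :=
    hermite_aux γ (d : ℤ) (by exact_mod_cast hd)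
  -- reduce `b'` modulo `d'`
  set k : ℤ := b' / d' with hk
  set B : ℤ := b' % d' with hB
  have hB0 : 0 ≤ B := Int.emod_nonneg _ hd'.ne'
  have hBd : B < d' := Int.emod_lt_of_pos _ hd'
  have hb : b' = d' * k + B := (Int.mul_ediv_add_emod b' d').symm
  let δ : SL(2, ℤ) := g' * shiftT k
  have hδ : (δ : Matrix (Fin 2) (Fin 2) ℤ) =
      (g' : Matrix (Fin 2) (Fin 2) ℤ) * !![1, k; 0, 1] := by
    show ((g' * shiftT k : SL(2, ℤ)) : Matrix (Fin 2) (Fin 2) ℤ) = _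
    rw [Matrix.SpecialLinearGroup.coe_mul]
    rfl
  have hδ00 : δ 0 0 = g' 0 0 := by
    rw [hδ]; simp [Matrix.mul_apply, Fin.sum_univ_two]
  have hδ01 : δ 0 1 = g' 0 0 * k + g' 0 1 := by
    rw [hδ]; simp [Matrix.mul_apply, Fin.sum_univ_two]
  have hδ10 : δ 1 0 = g' 1 0 := by
    rw [hδ]; simp [Matrix.mul_apply, Fin.sum_univ_two]
  have hδ11 : δ 1 1 = g' 1 0 * k + g' 1 1 := by
    rw [hδ]; simp [Matrix.mul_apply, Fin.sum_univ_two]
  refine ⟨δ, a'.toNat, B.toNat, d'.toNat, ?_, ?_, ?_, ?_, ?_, ?_⟩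
  · have : ((a'.toNat * d'.toNat : ℕ) : ℤ) = (d : ℤ) := by
      push_cast
      rw [Int.toNat_of_nonneg ha'.le, Int.toNat_of_nonneg hd'.le, had]
    exact_mod_cast this
  · have : ((B.toNat : ℕ) : ℤ) < ((d'.toNat : ℕ) : ℤ) := by
      rw [Int.toNat_of_nonneg hB0, Int.toNat_of_nonneg hd'.le]
      exact hBd
    exact_mod_cast this
  · rw [Int.toNat_of_nonneg ha'.le, hδ00]
    exact h00
  · rw [Int.toNat_of_nonneg hB0, Int.toNat_of_nonneg hd'.le, hδ00, hδ01, h01, hb]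
    ring
  · rw [Int.toNat_of_nonneg ha'.le, hδ10]
    exact h10
  · rw [Int.toNat_of_nonneg hB0, Int.toNat_of_nonneg hd'.le, hδ10, hδ11, h11, hb]
    ring

/-- **Hermite decomposition (F4)** as an identity of integer matrices. -/
theorem hermite (γ : SL(2, ℤ)) (d : ℕ) (hd : 0 < d) :
    ∃ (δ : SL(2, ℤ)) (A B D : ℕ), A * D = d ∧ B < D ∧
      !![(d : ℤ), 0; 0, 1] * (γ : Matrix (Fin 2) (Fin 2) ℤ) =
        (δ : Matrix (Fin 2) (Fin 2) ℤ) * !![(A : ℤ), (B : ℤ); 0, (D : ℤ)] := by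
  obtain ⟨δ, A, B, D, hAD, hBD, h00, h01, h10, h11⟩ := hermite_entries γ d hd
  refine ⟨δ, A, B, D, hAD, hBD, ?_⟩
  ext i j
  fin_cases i <;> fin_cases j <;>
    simp [Matrix.mul_apply, Fin.sum_univ_two, h00, h01, h10, h11]

/-- In a Hermite decomposition of `[N, 0; 0, 1] γ`: `A = N ↔ γ ∈ Γ₀(N)`. -/
theorem hermite_A_eq_iff {N : ℕ} (γ δ : SL(2, ℤ)) (A D : ℕ) (hAD : A * D = N)
    (h00 : (N : ℤ) * γ 0 0 = δ 0 0 * A) (h10 : γ 1 0 = δ 1 0 * A) :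
    A = N ↔ γ ∈ Gamma0 N := by
  have hdet' : δ 0 0 * δ 1 1 - δ 0 1 * δ 1 0 = 1 := by
    have h := δ.det_coe
    rwa [Matrix.det_fin_two] at h
  rw [Gamma0_mem]
  constructor
  · intro hA
    rw [h10, hA]
    simp
  · intro hγ
    have hdvd : (N : ℤ) ∣ γ 1 0 := (ZMod.intCast_zmod_eq_zero_iff_dvd _ _).mp hγ
    -- `N ∣ δ 0 0 * A` and `N ∣ δ 1 0 * A`, and `δ 0 0`, `δ 1 0` are coprime
    have h1 : (N : ℤ) ∣ δ 0 0 * A := ⟨γ 0 0, h00.symm⟩
    have h2 : (N : ℤ) ∣ δ 1 0 * A := by rwa [← h10]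
    have h3 : (N : ℤ) ∣ (A : ℤ) := by
      have : (A : ℤ) = δ 1 1 * (δ 0 0 * A) - δ 0 1 * (δ 1 0 * A) := by
        linear_combination (-(A : ℤ)) * hdet'
      rw [this]
      exact dvd_sub (Dvd.dvd.mul_left h1 _) (Dvd.dvd.mul_left h2 _)
    have h4 : N ∣ A := by exact_mod_cast h3
    have h5 : A ∣ N := ⟨D, hAD.symm⟩
    exact Nat.dvd_antisymm h5 h4

/-- In a Hermite decomposition with `A D = N`: `D = 1 ↔ A = N`. -/
theorem hermite_D_eq_one_iff {N : ℕ} (hN : 0 < N) (A D : ℕ) (hAD : A * D = N) :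
    D = 1 ↔ A = N := by
  constructor
  · rintro rfl
    simpa using hAD
  · intro hA
    subst hA
    have hA0 : 0 < A := hN
    have : A * D = A * 1 := by rw [hAD, mul_one]
    exact Nat.eq_of_mul_eq_mul_left hA0 this

end Fermat.Agent.Lib.ModJ
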