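import Mathlib

/-!
# Item 68 (S24), block B3, part 1: convergent `q`-series on the upper half plane

`HasQ h f S` : the function `f : ℍ → ℂ` is the sum of the power series `S` in `q_h = exp(2πiτ/h)`.
Closure under ring operations, uniqueness, substitution `q ↦ c q^k`.
-/

set_option autoImplicit false

noncomputable section

open UpperHalfPlane Function Complex
open scoped Manifold

namespace Fermat.Agent.Lib.ModJ

local notation "𝕢" => Periodic.qParam

/-- `f` is the sum of the power series `S` in the variable `q_h(τ) = exp(2πiτ/h)`. -/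
def HasQ (h : ℝ) (f : ℍ → ℂ) (S : PowerSeries ℂ) : Prop :=
  ∀ τ : ℍ, HasSum (fun m : ℕ ↦ S.coeff m * 𝕢 h τ ^ m) (f τ)

variable {h : ℝ} {f g : ℍ → ℂ} {S T : PowerSeries ℂ}

theorem HasQ.congr (hf : HasQ h f S) (hfg : ∀ τ, f τ = g τ) : HasQ h g S := by
  intro τ
  rw [← hfg τ]
  exact hf τ

theorem hasQ_of_periodic (hh : 0 < h) (hfper : Periodic (f ∘ ofComplex) h)
    (hfhol : MDifferentiable 𝓘(ℂ) 𝓘(ℂ) f) (hfbdd : IsBoundedAtImInfty f) :
    HasQ h f (qExpansion h f) := by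
  intro τ
  simpa using hasSum_qExpansion hh hfper hfhol hfbdd τ

theorem hasQ_zero : HasQ h (fun _ => 0) 0 := by
  intro τ
  simp

theorem hasQ_C (c : ℂ) : HasQ h (fun _ => c) (PowerSeries.C c) := by
  intro τ
  have := hasSum_ite_eq (0 : ℕ) c
  refine this.congr_fun ?_
  intro m
  by_cases hm : m = 0
  · subst hm; simp
  · simp [PowerSeries.coeff_C, hm]

theorem hasQ_one : HasQ h (fun _ => 1) 1 := by
  simpa using hasQ_C (h := h) 1

theorem HasQ.add (hf : HasQ h f S) (hg : HasQ h g T) : HasQ h (fun τ => f τ + g τ) (S + T) := by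
  intro τ
  simpa [add_mul] using (hf τ).add (hg τ)

theorem HasQ.neg (hf : HasQ h f S) : HasQ h (fun τ => - f τ) (-S) := by
  intro τ
  simpa using (hf τ).neg

theorem HasQ.sub (hf : HasQ h f S) (hg : HasQ h g T) : HasQ h (fun τ => f τ - g τ) (S - T) := by
  intro τ
  simpa [sub_mul] using (hf τ).sub (hg τ)

theorem HasQ.const_mul (c : ℂ) (hf : HasQ h f S) :
    HasQ h (fun τ => c * f τ) (PowerSeries.C c * S) := by
  intro τ
  simpa [mul_assoc] using (hf τ).mul_left c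

theorem HasQ.mul (hf : HasQ h f S) (hg : HasQ h g T) : HasQ h (fun τ => f τ * g τ) (S * T) := by
  intro τ
  have h1 := (hf τ).summable.norm
  have h2 := (hg τ).summable.norm
  have h3 := tsum_mul_tsum_eq_tsum_sum_antidiagonal_of_summable_norm h1 h2
  have h4 := summable_norm_sum_mul_antidiagonal_of_summable_norm h1 h2
  have h5 : ∀ n : ℕ, ∑ kl ∈ Finset.HasAntidiagonal.antidiagonal n,
      (S.coeff kl.1 * 𝕢 h τ ^ kl.1) * (T.coeff kl.2 * 𝕢 h τ ^ kl.2)
      = (S * T).coeff n * 𝕢 h τ ^ n := by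
    intro n
    rw [PowerSeries.coeff_mul, Finset.sum_mul]
    refine Finset.sum_congr rfl fun kl hkl => ?_
    have hkl' : kl.1 + kl.2 = n := Finset.HasAntidiagonal.mem_antidiagonal.mp hkl
    rw [← hkl', pow_add]
    ring
  simp only [h5] at h3 h4
  show HasSum _ (f τ * g τ)
  rw [← (hf τ).tsum_eq, ← (hg τ).tsum_eq, h3]
  exact (h4.of_norm).hasSum

theorem HasQ.pow (hf : HasQ h f S) (n : ℕ) : HasQ h (fun τ => f τ ^ n) (S ^ n) := by
  induction n with
  | zero => simpa using hasQ_one (h := h)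
  | succ n ih => simpa [pow_succ] using ih.mul hf

theorem hasQ_X : HasQ h (fun τ => 𝕢 h τ) PowerSeries.X := by
  intro τ
  have := hasSum_ite_eq (1 : ℕ) (𝕢 h τ)
  refine this.congr_fun ?_
  intro m
  by_cases hm : m = 1
  · subst hm; simp
  · simp [PowerSeries.coeff_X, hm]

/-- The sum of a convergent `q`-series as a function on the unit disc. -/
theorem HasQ.hasSum_ball (hh : 0 < h) (hf : HasQ h f S) {q : ℂ} (hq : ‖q‖ < 1) :
    HasSum (fun m : ℕ ↦ S.coeff m * q ^ m) (∑' m : ℕ, S.coeff m * q ^ m) := by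
  rcases eq_or_ne q 0 with rfl | hq0
  · have : Summable (fun m : ℕ ↦ S.coeff m * (0 : ℂ) ^ m) := by
      refine summable_of_ne_finset_zero (s := {0}) ?_
      intro m hm
      have : m ≠ 0 := by simpa using hm
      simp [this]
    exact this.hasSum
  · have h1 := Periodic.im_invQParam_pos_of_norm_lt_one hh hq hq0
    have := hf ⟨Periodic.invQParam h q, h1⟩
    have e : 𝕢 h ((⟨Periodic.invQParam h q, h1⟩ : ℍ) : ℂ) = q :=
      Periodic.qParam_right_inv hh.ne' hq0
    simp only [e] at this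
    exact this.summable.hasSum

theorem HasQ.hasFPowerSeriesOnBall (hh : 0 < h) (hf : HasQ h f S) :
    HasFPowerSeriesOnBall (fun q => ∑' m : ℕ, S.coeff m * q ^ m)
      (.ofScalars ℂ fun m => S.coeff m) 0 1 := by
  constructor
  · refine le_of_forall_lt_imp_le_of_dense fun r hr ↦ ?_
    lift r to NNReal using hr.ne_top
    apply FormalMultilinearSeries.le_radius_of_summable
    have hr' : ‖((r : ℝ) : ℂ)‖ < 1 := by
      simpa using hr
    simpa [smul_eq_mul, norm_mul, mul_comm, mul_left_comm, mul_assoc] using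
      (hf.hasSum_ball hh hr').summable.norm
  · simp
  · intro y hy
    rw [← ENNReal.coe_one, Metric.eball_coe, NNReal.coe_one, mem_ball_zero_iff] at hy
    simpa [mul_comm] using hf.hasSum_ball hh hy

/-- value of `f` through the series sum -/
theorem HasQ.eq_tsum (hf : HasQ h f S) (τ : ℍ) : f τ = ∑' m : ℕ, S.coeff m * 𝕢 h τ ^ m :=
  (hf τ).tsum_eq.symm

/-- **Uniqueness**: a convergent `q`-series with sum `0` is `0`. -/
theorem HasQ.eq_zero (hh : 0 < h) (hf : HasQ h (fun _ => 0) S) : S = 0 := by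
  have h1 := hf.hasFPowerSeriesOnBall hh
  have hval : ∀ q : ℂ, ‖q‖ < 1 → q ≠ 0 → (∑' m : ℕ, S.coeff m * q ^ m) = 0 := by
    intro q hq hq0
    have h1 := Periodic.im_invQParam_pos_of_norm_lt_one hh hq hq0
    have := hf ⟨Periodic.invQParam h q, h1⟩
    have e : 𝕢 h ((⟨Periodic.invQParam h q, h1⟩ : ℍ) : ℂ) = q :=
      Periodic.qParam_right_inv hh.ne' hq0
    simp only [e] at this
    exact this.tsum_eq
  have hcont := h1.hasFPowerSeriesAt.continuousAt
  have hev : ∀ᶠ q in nhdsWithin (0 : ℂ) {0}ᶜ, (∑' m : ℕ, S.coeff m * q ^ m) = 0 := by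
    have : Metric.ball (0 : ℂ) 1 ∈ nhds (0 : ℂ) := Metric.ball_mem_nhds 0 one_pos
    filter_upwards [nhdsWithin_le_nhds this, self_mem_nhdsWithin] with q hq hq0
    exact hval q (by simpa using hq) hq0
  have h0 : (∑' m : ℕ, S.coeff m * (0 : ℂ) ^ m) = 0 := by
    have ht : Filter.Tendsto (fun q : ℂ => ∑' m : ℕ, S.coeff m * q ^ m)
        (nhdsWithin (0 : ℂ) {0}ᶜ) (nhds (∑' m : ℕ, S.coeff m * (0 : ℂ) ^ m)) :=
      hcont.tendsto.mono_left nhdsWithin_le_nhds
    have ht' : Filter.Tendsto (fun q : ℂ => ∑' m : ℕ, S.coeff m * q ^ m)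
        (nhdsWithin (0 : ℂ) {0}ᶜ) (nhds 0) :=
      (tendsto_const_nhds).congr' (hev.mono fun q hq => hq.symm)
    exact tendsto_nhds_unique ht ht'
  have hzero : ∀ᶠ q in nhds (0 : ℂ), (∑' m : ℕ, S.coeff m * q ^ m) = 0 := by
    filter_upwards [Metric.ball_mem_nhds (0 : ℂ) one_pos] with q hq
    rcases eq_or_ne q 0 with rfl | hq0
    · exact h0
    · exact hval q (by simpa using hq) hq0
  have h2 : HasFPowerSeriesAt (fun _ : ℂ => (0 : ℂ)) (.ofScalars ℂ fun m => S.coeff m) 0 :=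
    h1.hasFPowerSeriesAt.congr hzero
  have h3 := h2.eq_zero
  ext m
  have h4 := congr_arg (FormalMultilinearSeries.coeff · m) h3
  simp only [FormalMultilinearSeries.coeff_ofScalars] at h4
  rw [h4]
  simp [FormalMultilinearSeries.coeff]

theorem HasQ.unique (hh : 0 < h) (hf : HasQ h f S) (hg : HasQ h f T) : S = T := by
  have := (hf.sub hg).congr (g := fun _ => 0) (fun τ => by simp)
  exact sub_eq_zero.mp (this.eq_zero hh)

theorem HasQ.eq_zero_iff (hh : 0 < h) (hf : HasQ h f S) : S = 0 ↔ ∀ τ, f τ = 0 := by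
  constructor
  · rintro rfl τ
    exact (hf τ).unique (hasQ_zero τ)
  · intro h0
    exact (hf.congr h0).eq_zero hh


variable {h' : ℝ}

/-! ### Substitution `q ↦ c q^k` -/

/-- The power series `S(c X^k)`. -/
def expandC (c : ℂ) (k : ℕ) (S : PowerSeries ℂ) : PowerSeries ℂ :=
  PowerSeries.mk fun n => if k ∣ n then S.coeff (n / k) * c ^ (n / k) else 0

theorem coeff_expandC_mul (c : ℂ) {k : ℕ} (hk : 0 < k) (S : PowerSeries ℂ) (m : ℕ) :
    (expandC c k S).coeff (k * m) = S.coeff m * c ^ m := by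
  simp [expandC, Nat.mul_div_cancel_left m hk]

theorem coeff_expandC_of_not_dvd (c : ℂ) {k : ℕ} (S : PowerSeries ℂ) {n : ℕ} (hn : ¬ k ∣ n) :
    (expandC c k S).coeff n = 0 := by
  simp [expandC, hn]

theorem HasQ.comp {c : ℂ} {k : ℕ} (hk : 0 < k) (hf : HasQ h f S) (γ : ℍ → ℍ)
    (hγ : ∀ τ, 𝕢 h (γ τ) = c * 𝕢 h' τ ^ k) :
    HasQ h' (fun τ => f (γ τ)) (expandC c k S) := by
  intro τ
  have h1 := hf (γ τ)
  rw [hγ τ] at h1
  have hinj : Function.Injective (fun m : ℕ => k * m) :=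
    fun a b hab => Nat.eq_of_mul_eq_mul_left hk hab
  rw [← hinj.hasSum_iff]
  · refine h1.congr_fun ?_
    intro m
    simp only [Function.comp_apply]
    rw [coeff_expandC_mul c hk, mul_pow, pow_mul]
    ring
  · intro n hn
    have : ¬ k ∣ n := by
      rintro ⟨m, rfl⟩
      exact hn ⟨m, rfl⟩
    rw [coeff_expandC_of_not_dvd c S this, zero_mul]

/-! ### Inverses -/

theorem HasQ.differentiableOn (hh : 0 < h) (hf : HasQ h f S) :
    DifferentiableOn ℂ (fun q => ∑' m : ℕ, S.coeff m * q ^ m) (Metric.ball 0 1) := by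
  have h1 := (hf.hasFPowerSeriesOnBall hh).analyticOnNhd
  have : Metric.eball (0 : ℂ) 1 = Metric.ball 0 1 := by
    rw [← ENNReal.ofReal_one, Metric.eball_ofReal]
  rw [this] at h1
  exact h1.differentiableOn

theorem HasQ.tsum_zero (S : PowerSeries ℂ) :
    (∑' m : ℕ, S.coeff m * (0 : ℂ) ^ m) = S.coeff 0 := by
  rw [tsum_eq_single 0]
  · simp
  · intro m hm
    simp [hm]

theorem HasQ.tsum_qParam (hf : HasQ h f S) (τ : ℍ) :
    (∑' m : ℕ, S.coeff m * 𝕢 h τ ^ m) = f τ := (hf τ).tsum_eq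

theorem HasQ.tsum_ne_zero (hh : 0 < h) (hf : HasQ h f S) (hf0 : ∀ τ, f τ ≠ 0)
    (hS : S.coeff 0 ≠ 0) {q : ℂ} (hq : ‖q‖ < 1) : (∑' m : ℕ, S.coeff m * q ^ m) ≠ 0 := by
  rcases eq_or_ne q 0 with rfl | hq0
  · rwa [HasQ.tsum_zero]
  · have h1 := Periodic.im_invQParam_pos_of_norm_lt_one hh hq hq0
    have := hf.tsum_qParam ⟨Periodic.invQParam h q, h1⟩
    have e : 𝕢 h ((⟨Periodic.invQParam h q, h1⟩ : ℍ) : ℂ) = q :=
      Periodic.qParam_right_inv hh.ne' hq0
    simp only [e] at this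
    rw [this]
    exact hf0 _

/-- A differentiable function on the unit disc gives a convergent `q`-series. -/
theorem hasQ_of_differentiableOn (hh : 0 < h) {F : ℂ → ℂ}
    (hF : DifferentiableOn ℂ F (Metric.ball 0 1)) :
    HasQ h (fun τ => F (𝕢 h τ))
      (PowerSeries.mk fun n => ((n.factorial : ℂ))⁻¹ * iteratedDeriv n F 0) := by
  intro τ
  have hq : 𝕢 h τ ∈ Metric.ball (0 : ℂ) 1 := by
    simpa using Periodic.norm_qParam_lt_one hh τ.im_pos
  have := Complex.hasSum_taylorSeries_on_ball hF hq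
  refine this.congr_fun ?_
  intro m
  simp only [PowerSeries.coeff_mk, sub_zero, smul_eq_mul]
  ring

theorem HasQ.inv (hh : 0 < h) (hf : HasQ h f S) (hf0 : ∀ τ, f τ ≠ 0) (hS : S.coeff 0 ≠ 0) :
    ∃ T : PowerSeries ℂ, S * T = 1 ∧ HasQ h (fun τ => (f τ)⁻¹) T := by
  have hd : DifferentiableOn ℂ (fun q => (∑' m : ℕ, S.coeff m * q ^ m)⁻¹) (Metric.ball 0 1) :=
    (hf.differentiableOn hh).inv (fun q hq => hf.tsum_ne_zero hh hf0 hS (by simpa using hq))
  have hT := hasQ_of_differentiableOn hh hd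
  have hT' : HasQ h (fun τ => (f τ)⁻¹) _ := hT.congr (fun τ => by
    show (∑' m : ℕ, S.coeff m * 𝕢 h τ ^ m)⁻¹ = (f τ)⁻¹
    rw [hf.tsum_qParam])
  refine ⟨_, ?_, hT'⟩
  have h1 := (hf.mul hT').congr (g := fun _ => 1) (fun τ => mul_inv_cancel₀ (hf0 τ))
  exact h1.unique hh hasQ_one

end Fermat.Agent.Lib.ModJ
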