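import Mathlib
import Fermat.Prelude.Def_ModularCurve_X0
import Fermat.Prelude.Def_ModularCurve_LaurentCoeff
import Fermat.Agent.Lib.ModJ.QSeries

/-!
# Item 68 (S24), block B3, part 2: convergent Laurent `q`-series

`HasQL h f L` : the function `f : ℍ → ℂ` is the sum of the Laurent series `L` in
`q_h = exp(2πiτ/h)`.
-/

set_option autoImplicit false

noncomputable section

open UpperHalfPlane Function Complex
open scoped Manifold

namespace Fermat.Agent.Lib.ModJ

local notation "𝕢" => Periodic.qParam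

/-- `f` is the sum of the Laurent series `L` in the variable `q_h(τ) = exp(2πiτ/h)`:
`q^M f` is the sum of a power series `S` with `X^M L = S`. -/
def HasQL (h : ℝ) (f : ℍ → ℂ) (L : LaurentSeries ℂ) : Prop :=
  ∃ (M : ℕ) (S : PowerSeries ℂ), HasQ h (fun τ => 𝕢 h τ ^ M * f τ) S ∧
    HahnSeries.single (M : ℤ) (1 : ℂ) * L = HahnSeries.ofPowerSeries ℤ ℂ S

variable {h h' : ℝ} {f g : ℍ → ℂ} {L L' : LaurentSeries ℂ} {S : PowerSeries ℂ}

theorem single_ne_zero' (M : ℤ) : HahnSeries.single M (1 : ℂ) ≠ 0 := by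
  simp

theorem ofPowerSeries_X_pow (k : ℕ) :
    HahnSeries.ofPowerSeries ℤ ℂ (PowerSeries.X ^ k) = HahnSeries.single (k : ℤ) (1 : ℂ) := by
  rw [map_pow, HahnSeries.ofPowerSeries_X, HahnSeries.single_pow]
  simp

theorem HasQ.hasQL (hf : HasQ h f S) : HasQL h f (HahnSeries.ofPowerSeries ℤ ℂ S) := by
  refine ⟨0, S, hf.congr (fun τ => by simp), ?_⟩
  simp

theorem HasQL.congr (hf : HasQL h f L) (hfg : ∀ τ, f τ = g τ) : HasQL h g L := by
  obtain ⟨M, S, h1, h2⟩ := hf
  exact ⟨M, S, h1.congr (fun τ => by rw [hfg τ]), h2⟩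

theorem hasQL_zero : HasQL h (fun _ => 0) 0 := by
  simpa using (hasQ_zero (h := h)).hasQL

theorem hasQL_C (c : ℂ) : HasQL h (fun _ => c) (HahnSeries.C c) := by
  simpa using (hasQ_C (h := h) c).hasQL

theorem hasQL_one : HasQL h (fun _ => 1) 1 := by
  simpa using (hasQ_one (h := h)).hasQL

theorem HasQL.mul (hf : HasQL h f L) (hg : HasQL h g L') :
    HasQL h (fun τ => f τ * g τ) (L * L') := by
  obtain ⟨M, S, h1, h2⟩ := hf
  obtain ⟨M', S', h1', h2'⟩ := hg
  refine ⟨M + M', S * S', (h1.mul h1').congr (fun τ => ?_), ?_⟩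
  · simp only
    ring
  · rw [map_mul, ← h2, ← h2']
    have : HahnSeries.single ((M + M' : ℕ) : ℤ) (1 : ℂ)
        = HahnSeries.single (M : ℤ) (1 : ℂ) * HahnSeries.single (M' : ℤ) (1 : ℂ) := by
      rw [HahnSeries.single_mul_single]
      simp
    rw [this]
    ring

/-- auxiliary: raise the exponent `M` by `k`. -/
theorem HasQL.raise {M : ℕ} (h1 : HasQ h (fun τ => 𝕢 h τ ^ M * f τ) S)
    (h2 : HahnSeries.single (M : ℤ) (1 : ℂ) * L = HahnSeries.ofPowerSeries ℤ ℂ S) (k : ℕ) :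
    HasQ h (fun τ => 𝕢 h τ ^ (M + k) * f τ) (PowerSeries.X ^ k * S) ∧
    HahnSeries.single ((M + k : ℕ) : ℤ) (1 : ℂ) * L
      = HahnSeries.ofPowerSeries ℤ ℂ (PowerSeries.X ^ k * S) := by
  constructor
  · refine ((hasQ_X.pow k).mul h1).congr (fun τ => ?_)
    ring
  · rw [map_mul, ofPowerSeries_X_pow, ← h2, ← mul_assoc, HahnSeries.single_mul_single]
    have e : ((M + k : ℕ) : ℤ) = (k : ℤ) + (M : ℤ) := by push_cast; ring
    rw [e, one_mul]

theorem HasQL.add (hf : HasQL h f L) (hg : HasQL h g L') :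
    HasQL h (fun τ => f τ + g τ) (L + L') := by
  obtain ⟨M, S, h1, h2⟩ := hf
  obtain ⟨M', S', h1', h2'⟩ := hg
  obtain ⟨a1, a2⟩ := HasQL.raise h1 h2 M'
  obtain ⟨b1, b2⟩ := HasQL.raise h1' h2' M
  rw [Nat.add_comm M' M] at b1 b2
  refine ⟨M + M', _, (a1.add b1).congr (fun τ => ?_), ?_⟩
  · simp only
    ring
  · rw [map_add, ← a2, ← b2]
    ring

theorem HasQL.neg (hf : HasQL h f L) : HasQL h (fun τ => - f τ) (-L) := by
  obtain ⟨M, S, h1, h2⟩ := hf
  refine ⟨M, -S, h1.neg.congr (fun τ => by simp), ?_⟩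
  rw [map_neg, ← h2]
  ring

theorem HasQL.sub (hf : HasQL h f L) (hg : HasQL h g L') :
    HasQL h (fun τ => f τ - g τ) (L - L') := by
  simpa [sub_eq_add_neg] using hf.add hg.neg

theorem HasQL.pow (hf : HasQL h f L) (n : ℕ) : HasQL h (fun τ => f τ ^ n) (L ^ n) := by
  induction n with
  | zero => simpa using hasQL_one (h := h)
  | succ n ih => simpa [pow_succ] using ih.mul hf

/-- **Uniqueness**: if `L` sums to `f`, then `L = 0` iff `f = 0`. -/
theorem HasQL.eq_zero_iff (hh : 0 < h) (hf : HasQL h f L) : L = 0 ↔ ∀ τ, f τ = 0 := by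
  obtain ⟨M, S, h1, h2⟩ := hf
  have hS : S = 0 ↔ L = 0 := by
    constructor
    · rintro rfl
      rw [map_zero] at h2
      exact (mul_eq_zero.mp h2).resolve_left (single_ne_zero' _)
    · rintro rfl
      rw [mul_zero] at h2
      exact HahnSeries.ofPowerSeries_injective (by rw [← h2, map_zero])
  rw [← hS, h1.eq_zero_iff hh]
  refine forall_congr' fun τ => ?_
  have : 𝕢 h τ ^ M ≠ 0 := pow_ne_zero _ (Periodic.qParam_ne_zero _)
  simp [this]

theorem HasQL.unique (hh : 0 < h) (hf : HasQL h f L) (hg : HasQL h f L') : L = L' := by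
  have := (hf.sub hg).eq_zero_iff hh
  exact sub_eq_zero.mp (this.mpr (fun τ => by simp))

theorem HasQL.unique_fun (hh : 0 < h) (hf : HasQL h f L) (hg : HasQL h g L) (τ : ℍ) :
    f τ = g τ := by
  have := (hf.sub hg).eq_zero_iff hh
  exact sub_eq_zero.mp (this.mp (sub_self L) τ)

/-- `q⁻¹` -/
theorem hasQL_inv_q : HasQL h (fun τ => (𝕢 h τ)⁻¹) (HahnSeries.single (-1 : ℤ) (1 : ℂ)) := by
  refine ⟨1, 1, hasQ_one.congr (fun τ => ?_), ?_⟩
  · have : 𝕢 h τ ≠ 0 := Periodic.qParam_ne_zero _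
    simp [this]
  · rw [HahnSeries.single_mul_single]
    simp

/-! ### Substitution `q ↦ q^k` -/

theorem ofPowerSeries_expandC_one (k : ℕ) [NeZero k] (S : PowerSeries ℂ) :
    HahnSeries.ofPowerSeries ℤ ℂ (expandC 1 k S)
      = ModularCurve.qExpand ℂ k (HahnSeries.ofPowerSeries ℤ ℂ S) := by
  have hk : 0 < k := Nat.pos_of_ne_zero (NeZero.ne k)
  ext n
  by_cases hn : (k : ℤ) ∣ n
  · obtain ⟨m, rfl⟩ := hn
    rw [ModularCurve.qExpand_coeff_mul]
    rcases lt_or_ge m 0 with hm | hm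
    · rw [ModularCurve.ofPowerSeries_coeff_of_neg _ hm,
        ModularCurve.ofPowerSeries_coeff_of_neg _ (by
          have : (0 : ℤ) < k := by exact_mod_cast hk
          exact mul_neg_of_pos_of_neg this hm)]
    · lift m to ℕ using hm
      rw [show (k : ℤ) * (m : ℤ) = ((k * m : ℕ) : ℤ) by push_cast; ring,
        HahnSeries.ofPowerSeries_apply_coeff, HahnSeries.ofPowerSeries_apply_coeff,
        coeff_expandC_mul 1 hk]
      simp
  · rw [ModularCurve.qExpand_coeff_of_not_dvd _ _ hn]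
    rcases lt_or_ge n 0 with hm | hm
    · rw [ModularCurve.ofPowerSeries_coeff_of_neg _ hm]
    · lift n to ℕ using hm
      rw [HahnSeries.ofPowerSeries_apply_coeff, coeff_expandC_of_not_dvd]
      intro hkn
      exact hn (by exact_mod_cast hkn)

theorem HasQL.comp (k : ℕ) [NeZero k] (hf : HasQL h f L) (γ : ℍ → ℍ)
    (hγ : ∀ τ, 𝕢 h (γ τ) = 𝕢 h' τ ^ k) :
    HasQL h' (fun τ => f (γ τ)) (ModularCurve.qExpand ℂ k L) := by
  have hk : 0 < k := Nat.pos_of_ne_zero (NeZero.ne k)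
  obtain ⟨M, S, h1, h2⟩ := hf
  refine ⟨k * M, expandC 1 k S, ?_, ?_⟩
  · have := h1.comp (c := 1) hk γ (by simpa using hγ)
    refine this.congr (fun τ => ?_)
    simp only
    rw [hγ τ, ← pow_mul]
  · rw [ofPowerSeries_expandC_one, ← h2, map_mul, ModularCurve.qExpand_single]
    push_cast
    rfl

end Fermat.Agent.Lib.ModJ
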