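import Mathlib
import Fermat.Prelude.Def_ModularCurve_X0
import Fermat.Prelude.Def_ModularCurve_LaurentCoeff
import Fermat.Agent.Lib.ModJ.Basic
import Fermat.Agent.Lib.ModJ.QLaurent

/-!
# Item 68 (S24), block B3, part 3: the formal `jq` is the `q`-expansion of `jFun`
-/

set_option autoImplicit false

noncomputable section

open UpperHalfPlane Function Complex ModularForm EisensteinSeries Filter Topology
open scoped Manifold

namespace Fermat.Agent.Lib.ModJ

local notation "𝕢" => Periodic.qParam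

/-- coefficients `ℤ → ℂ` -/
abbrev toC (S : PowerSeries ℤ) : PowerSeries ℂ := S.map (Int.castRingHom ℂ)

/-- The formal Eisenstein series of the prelude is the `q`-expansion of `E₄`. -/
theorem hasQ_E4 : HasQ 1 (fun τ => E₄ τ) (toC ModularCurve.eisenstein4) := by
  have h1 : ∀ τ : ℍ, HasSum (fun m ↦ (qExpansion 1 E₄).coeff m * 𝕢 1 τ ^ m) (E₄ τ) :=
    fun τ => ModularForm.hasSum_qExpansion (f := E₄) one_pos one_mem_strictPeriods_SL τ
  intro τ
  refine (h1 τ).congr_fun ?_
  intro m
  congr 1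
  rw [E_qExpansion_coeff _ ⟨2, rfl⟩ m, PowerSeries.coeff_map, ModularCurve.eisenstein4,
    PowerSeries.coeff_mk]
  by_cases hm : m = 0
  · simp [hm]
  · simp only [hm, if_false]
    rw [show bernoulli 4 = -1 / 30 by decide +kernel]
    simp [ArithmeticFunction.sigma_apply]
    norm_num

/-! ### The product bridge: analytic `∏ (1 - q^(n+1))` versus the formal `etaProd` -/

/-- iterated derivatives of complex differentiable functions are differentiable -/
theorem differentiableOn_iteratedDeriv {U : Set ℂ} (hU : IsOpen U) {F : ℂ → ℂ}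
    (hF : DifferentiableOn ℂ F U) (k : ℕ) : DifferentiableOn ℂ (iteratedDeriv k F) U := by
  induction k with
  | zero => simpa using hF
  | succ k ih =>
    rw [iteratedDeriv_succ]
    exact ih.deriv hU

/-- Lemma A: iterated derivatives pass to locally uniform limits. -/
theorem tendstoLocallyUniformlyOn_iteratedDeriv {ι : Type*} {φ : Filter ι} {U : Set ℂ}
    (hU : IsOpen U) {F : ι → ℂ → ℂ} {G : ℂ → ℂ}
    (hFG : TendstoLocallyUniformlyOn F G φ U) (hF : ∀ i, DifferentiableOn ℂ (F i) U) (k : ℕ) :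
    TendstoLocallyUniformlyOn (fun i => iteratedDeriv k (F i)) (iteratedDeriv k G) φ U := by
  induction k with
  | zero => simpa using hFG
  | succ k ih =>
    have := ih.deriv (Eventually.of_forall fun i => differentiableOn_iteratedDeriv hU (hF i) k) hU
    simpa only [iteratedDeriv_succ, Function.comp_def] using this

/-- Lemma B: Taylor coefficients of a polynomial function. -/
theorem iteratedDeriv_polynomial (P : Polynomial ℂ) (k : ℕ) :
    iteratedDeriv k (fun q => P.eval q) = fun q => (Polynomial.derivative^[k] P).eval q := by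
  induction k generalizing P with
  | zero => simp
  | succ k ih =>
    rw [iteratedDeriv_succ', Function.iterate_succ_apply]
    have : deriv (fun q => P.eval q) = fun q => (Polynomial.derivative P).eval q := by
      funext q
      exact Polynomial.deriv P
    rw [this, ih]

theorem iteratedDeriv_polynomial_zero (P : Polynomial ℂ) (k : ℕ) :
    iteratedDeriv k (fun q => P.eval q) 0 = (k.factorial : ℂ) * P.coeff k := by
  rw [iteratedDeriv_polynomial]
  show Polynomial.eval 0 _ = _
  rw [← Polynomial.coeff_zero_eq_eval_zero, Polynomial.coeff_iterate_derivative]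
  simp [Nat.descFactorial_self]


/-- the finite partial products as polynomials -/
def etaPoly (s : Finset ℕ) : Polynomial ℤ := ∏ n ∈ s, (1 - Polynomial.X ^ (n + 1))

theorem etaPoly_eval (s : Finset ℕ) (q : ℂ) :
    ((etaPoly s).map (Int.castRingHom ℂ)).eval q = ∏ n ∈ s, (1 - q ^ (n + 1)) := by
  simp [etaPoly, Polynomial.eval_prod, Polynomial.map_prod]

theorem etaPoly_coe (s : Finset ℕ) :
    ((etaPoly s : Polynomial ℤ) : PowerSeries ℤ) = ∏ n ∈ s, (1 - PowerSeries.X ^ (n + 1)) := by
  rw [etaPoly, ← Polynomial.coeToPowerSeries.ringHom_apply, map_prod]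
  refine Finset.prod_congr rfl fun n _ => ?_
  simp [Polynomial.coeToPowerSeries.ringHom_apply]

open scoped PowerSeries.WithPiTopology in
/-- Lemma C: coefficients of the partial products converge to those of `etaProd`. -/
theorem tendsto_coeff_etaPoly (k : ℕ) :
    Tendsto (fun s : Finset ℕ => (((etaPoly s).coeff k : ℤ) : ℂ)) atTop
      (𝓝 ((ModularCurve.etaProd.coeff k : ℤ) : ℂ)) := by
  have h1 : HasProd (fun n : ℕ => (1 : PowerSeries ℤ) - PowerSeries.X ^ (n + 1))
      ModularCurve.etaProd :=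
    (PowerSeries.WithPiTopology.multipliable_one_sub_X_pow ℤ).hasProd
  have h2 := ((PowerSeries.WithPiTopology.continuous_coeff ℤ k).tendsto _).comp h1
  have h3 : Continuous (fun n : ℤ => (n : ℂ)) := continuous_of_discreteTopology
  have h4 := (h3.tendsto _).comp h2
  refine h4.congr ?_
  intro s
  simp only [Function.comp_apply]
  rw [← etaPoly_coe, Polynomial.coeff_coe]

/-- Taylor coefficients of the analytic product `∏ (1 - q^(n+1))` are those of the formal one. -/
theorem iteratedDeriv_tprod_one_sub_pow (k : ℕ) :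
    iteratedDeriv k (fun q : ℂ => ∏' n : ℕ, (1 - q ^ (n + 1))) 0
      = (k.factorial : ℂ) * ((ModularCurve.etaProd.coeff k : ℤ) : ℂ) := by
  have hloc : TendstoLocallyUniformlyOn (fun (s : Finset ℕ) (q : ℂ) => ∏ n ∈ s, (1 - q ^ (n + 1)))
      (fun q : ℂ => ∏' n : ℕ, (1 - q ^ (n + 1))) atTop (Metric.ball (0 : ℂ) 1) :=
    hasProdLocallyUniformlyOn_iff_tendstoLocallyUniformlyOn.mp
      multipliableLocallyUniformlyOn_one_sub_pow.hasProdLocallyUniformlyOn
  have hdiff : ∀ s : Finset ℕ,
      DifferentiableOn ℂ (fun q : ℂ => ∏ n ∈ s, (1 - q ^ (n + 1))) (Metric.ball (0 : ℂ) 1) := by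
    intro s
    have : (fun q : ℂ => ∏ n ∈ s, (1 - q ^ (n + 1)))
        = fun q => ((etaPoly s).map (Int.castRingHom ℂ)).eval q := by
      funext q
      rw [etaPoly_eval]
    rw [this]
    exact (Polynomial.differentiable _).differentiableOn
  have hd := tendstoLocallyUniformlyOn_iteratedDeriv Metric.isOpen_ball hloc hdiff k
  have hpt := hd.tendsto_at (Metric.mem_ball_self one_pos)
  have hF : ∀ s : Finset ℕ, iteratedDeriv k (fun q : ℂ => ∏ n ∈ s, (1 - q ^ (n + 1))) 0
      = (k.factorial : ℂ) * (((etaPoly s).coeff k : ℤ) : ℂ) := by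
    intro s
    have : (fun q : ℂ => ∏ n ∈ s, (1 - q ^ (n + 1)))
        = fun q => ((etaPoly s).map (Int.castRingHom ℂ)).eval q := by
      funext q
      rw [etaPoly_eval]
    rw [this, iteratedDeriv_polynomial_zero, Polynomial.coeff_map]
    simp
  simp only [hF] at hpt
  exact tendsto_nhds_unique hpt ((tendsto_coeff_etaPoly k).const_mul _)

theorem hasQ_etaProd :
    HasQ 1 (fun τ => ∏' n : ℕ, (1 - 𝕢 1 τ ^ (n + 1))) (ModularCurve.etaProd.map (Int.castRingHom ℂ)) := by
  have h1 := hasQ_of_differentiableOn (h := 1) one_pos differentiableOn_tprod_one_sub_pow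
  convert h1 using 1
  ext k
  rw [PowerSeries.coeff_map, PowerSeries.coeff_mk, iteratedDeriv_tprod_one_sub_pow]
  have : (k.factorial : ℂ) ≠ 0 := by exact_mod_cast Nat.factorial_ne_zero k
  simp only [eq_intCast]
  field_simp


/-! ### `Δ/q`, its inverse and `j` -/

theorem hasQ_eta24 :
    HasQ 1 (fun τ => (∏' n : ℕ, (1 - 𝕢 1 τ ^ (n + 1))) ^ 24) (toC ModularCurve.dedekindEtaUnit) := by
  have := hasQ_etaProd.pow 24
  simpa [toC, ModularCurve.dedekindEtaUnit] using this

theorem tprod_ne_zero (τ : ℍ) : (∏' n : ℕ, (1 - 𝕢 1 τ ^ (n + 1))) ≠ 0 :=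
  eta_tprod_ne_zero τ.2

theorem toC_unit_mul_inv :
    toC ModularCurve.dedekindEtaUnit * toC ModularCurve.dedekindEtaUnitInv = 1 := by
  rw [toC, toC, ← map_mul, ModularCurve.dedekindEtaUnit_mul_inv, map_one]

theorem hasQ_eta24_inv :
    HasQ 1 (fun τ => ((∏' n : ℕ, (1 - 𝕢 1 τ ^ (n + 1))) ^ 24)⁻¹)
      (toC ModularCurve.dedekindEtaUnitInv) := by
  have hS : (toC ModularCurve.dedekindEtaUnit).coeff 0 ≠ 0 := by
    rw [toC, PowerSeries.coeff_map, PowerSeries.coeff_zero_eq_constantCoeff,
      ModularCurve.constantCoeff_dedekindEtaUnit]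
    simp
  obtain ⟨T, hT, hQ⟩ := hasQ_eta24.inv one_pos (fun τ => pow_ne_zero _ (tprod_ne_zero τ)) hS
  have : T = toC ModularCurve.dedekindEtaUnitInv := by
    calc T = T * (toC ModularCurve.dedekindEtaUnit * toC ModularCurve.dedekindEtaUnitInv) := by
          rw [toC_unit_mul_inv, mul_one]
      _ = (toC ModularCurve.dedekindEtaUnit * T) * toC ModularCurve.dedekindEtaUnitInv := by ring
      _ = toC ModularCurve.dedekindEtaUnitInv := by rw [hT, one_mul]
  rwa [this] at hQ

theorem discriminant_eq (τ : ℍ) :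
    ModularForm.discriminant τ = 𝕢 1 τ * (∏' n : ℕ, (1 - 𝕢 1 τ ^ (n + 1))) ^ 24 := by
  rw [discriminant_eq_q_prod]
  congr 1
  exact (multipliable_one_sub_pow (Periodic.norm_qParam_lt_one one_pos τ.im_pos)).tprod_pow 24

/-- `q · j` is the sum of the power series `jNum`. -/
theorem hasQ_jNum : HasQ 1 (fun τ => 𝕢 1 τ * jFun τ) (toC ModularCurve.jNum) := by
  have h1 := (hasQ_E4.pow 3).mul hasQ_eta24_inv
  have e : toC ModularCurve.jNum
      = toC ModularCurve.eisenstein4 ^ 3 * toC ModularCurve.dedekindEtaUnitInv := by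
    simp [toC, ModularCurve.jNum]
  rw [e]
  refine h1.congr (fun τ => ?_)
  have hq : 𝕢 1 τ ≠ 0 := Periodic.qParam_ne_zero _
  have hp := pow_ne_zero 24 (tprod_ne_zero τ)
  rw [jFun, discriminant_eq]
  field_simp

/-- The prelude's formal `jq`, with complex coefficients. -/
def jqC : LaurentSeries ℂ := ModularCurve.coeffEmb ℂ ModularCurve.jq

theorem jqC_eq : jqC = HahnSeries.single (-1 : ℤ) (1 : ℂ)
    * HahnSeries.ofPowerSeries ℤ ℂ (toC ModularCurve.jNum) := by
  rw [jqC, ModularCurve.jq, map_mul, ModularCurve.coeffEmb, ModularCurve.coeffMap_single, map_one]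
  congr 1
  ext n
  rw [ModularCurve.coeffMap_coeff]
  rcases lt_or_ge n 0 with hn | hn
  · rw [ModularCurve.ofPowerSeries_coeff_of_neg _ hn,
      ModularCurve.ofPowerSeries_coeff_of_neg _ hn, map_zero]
  · lift n to ℕ using hn
    rw [HahnSeries.ofPowerSeries_apply_coeff, HahnSeries.ofPowerSeries_apply_coeff,
      ModularCurve.jNumQ, toC, PowerSeries.coeff_map, PowerSeries.coeff_map]
    simp

/-- **B3, core**: the prelude's formal `jq` is the `q`-expansion of the analytic `j`-function. -/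
theorem hasQL_jFun : HasQL 1 jFun jqC := by
  rw [jqC_eq]
  refine (hasQL_inv_q.mul hasQ_jNum.hasQL).congr (fun τ => ?_)
  have hq : 𝕢 1 τ ≠ 0 := Periodic.qParam_ne_zero _
  field_simp


/-! ### Scaling `z ↦ d z` -/

/-- multiplication by a positive integer on the upper half plane -/
def pnatSMul (d : ℕ+) (z : ℍ) : ℍ :=
  ⟨((d : ℕ) : ℂ) * z, by
    have h1 : (0 : ℝ) < ((d : ℕ) : ℝ) := by exact_mod_cast d.pos
    have : (((d : ℕ) : ℂ) * (z : ℂ)).im = ((d : ℕ) : ℝ) * z.im := by
      simp [Complex.mul_im]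
    rw [this]
    exact mul_pos h1 z.im_pos⟩

@[simp]
theorem coe_pnatSMul (d : ℕ+) (z : ℍ) : ((pnatSMul d z : ℍ) : ℂ) = ((d : ℕ) : ℂ) * z := rfl

theorem qParam_pnatSMul (d : ℕ+) (z : ℍ) : 𝕢 1 (pnatSMul d z) = 𝕢 1 z ^ (d : ℕ) := by
  simp only [Periodic.qParam, coe_pnatSMul, ← Complex.exp_nat_mul]
  congr 1
  push_cast
  ring

/-- the function `z ↦ j(d z)` -/
def jFunD (d : ℕ+) (z : ℍ) : ℂ := jFun (pnatSMul d z)

/-- the formal series `jq(q^d)` with complex coefficients -/
def jqCD (d : ℕ+) : LaurentSeries ℂ := ModularCurve.qExpand ℂ (d : ℕ) jqC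

theorem hasQL_jFunD (d : ℕ+) : HasQL 1 (jFunD d) (jqCD d) :=
  hasQL_jFun.comp (d : ℕ) (pnatSMul d) (qParam_pnatSMul d)

theorem coeffMap_qExpand {R S : Type*} [CommRing R] [CommRing S] (φ : R →+* S) (d : ℕ) [NeZero d]
    (x : LaurentSeries R) :
    ModularCurve.coeffMap φ (ModularCurve.qExpand R d x)
      = ModularCurve.qExpand S d (ModularCurve.coeffMap φ x) := by
  ext n
  rw [ModularCurve.coeffMap_coeff]
  by_cases hn : (d : ℤ) ∣ n
  · obtain ⟨m, rfl⟩ := hn
    rw [ModularCurve.qExpand_coeff_mul, ModularCurve.qExpand_coeff_mul,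
      ModularCurve.coeffMap_coeff]
  · rw [ModularCurve.qExpand_coeff_of_not_dvd _ _ hn,
      ModularCurve.qExpand_coeff_of_not_dvd _ _ hn, map_zero]

theorem jqCD_eq (d : ℕ+) :
    jqCD d = ModularCurve.coeffEmb ℂ (ModularCurve.qExpand ℚ (d : ℕ) ModularCurve.jq) := by
  rw [jqCD, jqC, ModularCurve.coeffEmb, coeffMap_qExpand]

/-- base change of coefficients along `σ : K → ℂ` -/
theorem coeffMap_coeffEmb' {K : Type*} [Field K] [Algebra ℚ K] (σ : K →+* ℂ)
    (x : LaurentSeries ℚ) :
    ModularCurve.coeffMap σ (ModularCurve.coeffEmb K x) = ModularCurve.coeffEmb ℂ x := by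
  rw [ModularCurve.coeffEmb, ModularCurve.coeffMap_coeffMap]
  exact ModularCurve.coeffMap_congr (Subsingleton.elim _ _) x

theorem coeffMap_injective {R S : Type*} [CommRing R] [CommRing S] (φ : R →+* S)
    (hφ : Function.Injective φ) : Function.Injective (ModularCurve.coeffMap φ) := by
  intro x y hxy
  ext n
  apply hφ
  have := congrArg (fun z => z.coeff n) hxy
  simpa using this

end Fermat.Agent.Lib.ModJ
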