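import Mathlib
import Fermat.Agent.Lib.ModJ.Basic
import Fermat.Agent.Lib.ModJ.QExpJ
import Fermat.Agent.Lib.ModJ.Hermite

/-!
# Item 68 (S24), piece F5: `q^{1/N}`-expansions of `j(d γ z)` and distinctness

* `twistExpand c k L = L(c t^k)` for Laurent series, `HasQL.comp_twist`;
* `hasQL_jFunD_smul`: `z ↦ j(d (γ z))` has the `q_N`-expansion `jq(ζ_D^B t^{N A / D})`, where
  `[d, 0; 0, 1] γ = δ [A, B; 0, D]` is the Hermite decomposition;
* `mem_Gamma0_of_jFunD_smul_eq`: if `j(N (γ z)) = j(N z)` for all `z`, then `γ ∈ Γ₀(N)`.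
-/

set_option autoImplicit false

noncomputable section

open UpperHalfPlane Function Complex CongruenceSubgroup
open scoped Manifold MatrixGroups

namespace Fermat.Agent.Lib.ModJ

local notation "𝕢" => Periodic.qParam

/-! ### The substitution `t ↦ c t^k` on Laurent series -/

/-- `L(c t^k)`: the coefficient of `t^(k m)` is `L_m c^m`. -/
def twistExpand (c : ℂ) (k : ℕ) (L : LaurentSeries ℂ) : LaurentSeries ℂ where
  coeff n := if (k : ℤ) ∣ n then L.coeff (n / k) * c ^ (n / k) else 0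
  isPWO_support' := by
    have hmono : Monotone (fun m : ℤ => (k : ℤ) * m) :=
      fun a b hab => mul_le_mul_of_nonneg_left hab (by positivity)
    refine (L.isPWO_support.image_of_monotone hmono).mono (fun n hn => ?_)
    simp only [Function.mem_support, ne_eq] at hn
    by_cases hdvd : (k : ℤ) ∣ n
    · rw [if_pos hdvd] at hn
      refine ⟨n / k, ?_, Int.mul_ediv_cancel' hdvd⟩
      simp only [HahnSeries.mem_support, ne_eq]
      intro h0
      exact hn (by rw [h0, zero_mul])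
    · rw [if_neg hdvd] at hn
      exact absurd rfl hn

theorem coeff_twistExpand (c : ℂ) (k : ℕ) (L : LaurentSeries ℂ) (n : ℤ) :
    (twistExpand c k L).coeff n =
      if (k : ℤ) ∣ n then L.coeff (n / k) * c ^ (n / k) else 0 := rfl

theorem coeff_twistExpand_mul (c : ℂ) {k : ℕ} (hk : 0 < k) (L : LaurentSeries ℂ) (m : ℤ) :
    (twistExpand c k L).coeff ((k : ℤ) * m) = L.coeff m * c ^ m := by
  have hk' : (k : ℤ) ≠ 0 := by exact_mod_cast hk.ne'
  rw [coeff_twistExpand, if_pos (dvd_mul_right _ _), Int.mul_ediv_cancel_left _ hk']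

theorem coeff_twistExpand_of_not_dvd (c : ℂ) (k : ℕ) (L : LaurentSeries ℂ) {n : ℤ}
    (hn : ¬ (k : ℤ) ∣ n) : (twistExpand c k L).coeff n = 0 := by
  rw [coeff_twistExpand, if_neg hn]

theorem twistExpand_one (k : ℕ) [NeZero k] (L : LaurentSeries ℂ) :
    twistExpand 1 k L = ModularCurve.qExpand ℂ k L := by
  have hk : 0 < k := Nat.pos_of_ne_zero (NeZero.ne k)
  ext n
  by_cases hn : (k : ℤ) ∣ n
  · obtain ⟨m, rfl⟩ := hn
    rw [coeff_twistExpand_mul 1 hk, ModularCurve.qExpand_coeff_mul]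
    simp
  · rw [coeff_twistExpand_of_not_dvd _ _ _ hn, ModularCurve.qExpand_coeff_of_not_dvd _ _ hn]

variable {h h' : ℝ} {f : ℍ → ℂ} {L : LaurentSeries ℂ}

/-- Substitution `q ↦ c q^k` in a convergent Laurent `q`-series. -/
theorem HasQL.comp_twist {c : ℂ} (hc : c ≠ 0) {k : ℕ} (hk : 0 < k) (hf : HasQL h f L)
    (γ : ℍ → ℍ) (hγ : ∀ τ, 𝕢 h (γ τ) = c * 𝕢 h' τ ^ k) :
    HasQL h' (fun τ => f (γ τ)) (twistExpand c k L) := by
  obtain ⟨M, S, h1, h2⟩ := hf
  refine ⟨k * M, PowerSeries.C (c ^ M)⁻¹ * expandC c k S, ?_, ?_⟩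
  · have h3 := (h1.comp hk γ hγ).const_mul (c ^ M)⁻¹
    refine h3.congr (fun τ => ?_)
    simp only
    rw [hγ τ, mul_pow, ← pow_mul]
    have : c ^ M ≠ 0 := pow_ne_zero _ hc
    field_simp
  · ext n
    -- coefficient of the left hand side
    have hL : ∀ m : ℤ, L.coeff (m - M) = (HahnSeries.ofPowerSeries ℤ ℂ S).coeff m := by
      intro m
      rw [← h2]
      have := HahnSeries.coeff_single_mul_add (r := (1 : ℂ)) (x := L) (a := m - M) (b := (M : ℤ))
      rw [one_mul] at this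
      rw [← this]
      congr 1
      ring
    have hlhs : (HahnSeries.single ((k * M : ℕ) : ℤ) (1 : ℂ) * twistExpand c k L).coeff n =
        (twistExpand c k L).coeff (n - (k * M : ℕ)) := by
      have := HahnSeries.coeff_single_mul_add (r := (1 : ℂ)) (x := twistExpand c k L)
        (a := n - ((k * M : ℕ) : ℤ)) (b := ((k * M : ℕ) : ℤ))
      rw [one_mul] at this
      rw [← this]
      congr 1
      ring
    rw [hlhs]
    by_cases hn : (k : ℤ) ∣ n
    · obtain ⟨m, rfl⟩ := hn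
      have e1 : (k : ℤ) * m - ((k * M : ℕ) : ℤ) = (k : ℤ) * (m - M) := by push_cast; ring
      rw [e1, coeff_twistExpand_mul c hk, hL]
      rcases lt_or_ge m 0 with hm | hm
      · have hkm : (k : ℤ) * m < 0 := mul_neg_of_pos_of_neg (by exact_mod_cast hk) hm
        rw [ModularCurve.ofPowerSeries_coeff_of_neg _ hm,
          ModularCurve.ofPowerSeries_coeff_of_neg _ hkm, zero_mul]
      · lift m to ℕ using hm
        rw [show (k : ℤ) * (m : ℤ) = ((k * m : ℕ) : ℤ) by push_cast; ring,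
          HahnSeries.ofPowerSeries_apply_coeff, HahnSeries.ofPowerSeries_apply_coeff,
          PowerSeries.coeff_C_mul, coeff_expandC_mul c hk, zpow_sub₀ hc]
        simp only [zpow_natCast]
        field_simp
    · have hn' : ¬ (k : ℤ) ∣ n - ((k * M : ℕ) : ℤ) := by
        intro hdiv
        apply hn
        have : (k : ℤ) ∣ ((k * M : ℕ) : ℤ) := ⟨M, by push_cast; ring⟩
        have := dvd_add hdiv this
        simpa using this
      rw [coeff_twistExpand_of_not_dvd _ _ _ hn']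
      rcases lt_or_ge n 0 with hm | hm
      · rw [ModularCurve.ofPowerSeries_coeff_of_neg _ hm]
      · lift n to ℕ using hm
        rw [HahnSeries.ofPowerSeries_apply_coeff, PowerSeries.coeff_C_mul,
          coeff_expandC_of_not_dvd c S (by intro hkn; exact hn (by exact_mod_cast hkn)), mul_zero]

/-! ### The affine map `z ↦ (A z + B) / D` -/

/-- `z ↦ (A z + B) / D` on the upper half plane. -/
def affH (A B D : ℕ) (hA : 0 < A) (hD : 0 < D) (z : ℍ) : ℍ :=
  ⟨((A : ℂ) * z + B) / D, by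
    have hA' : (0 : ℝ) < A := by exact_mod_cast hA
    have hD' : (0 : ℝ) < D := by exact_mod_cast hD
    have e : (((A : ℂ) * z + B) / D).im = (A : ℝ) / (D : ℝ) * z.im := by
      have e1 : ((A : ℂ) * (z : ℂ) + (B : ℂ)) / (D : ℂ) =
          (((A : ℝ) / (D : ℝ) : ℝ) : ℂ) * (z : ℂ) + (((B : ℝ) / (D : ℝ) : ℝ) : ℂ) := by
        have hdC : (D : ℂ) ≠ 0 := by exact_mod_cast hD.ne'
        push_cast
        field_simp
      rw [e1]
      simp
    rw [e]
    exact mul_pos (div_pos hA' hD') z.im_pos⟩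

theorem coe_affH (A B D : ℕ) (hA : 0 < A) (hD : 0 < D) (z : ℍ) :
    ((affH A B D hA hD z : ℍ) : ℂ) = ((A : ℂ) * z + B) / D := rfl

/-- The root of unity `ζ_D^B = exp(2πi B / D)`. -/
def zetaPow (B D : ℕ) : ℂ := Complex.exp (2 * Real.pi * Complex.I * B / D)

theorem zetaPow_ne_zero (B D : ℕ) : zetaPow B D ≠ 0 := Complex.exp_ne_zero _

theorem zetaPow_zero (D : ℕ) : zetaPow 0 D = 1 := by
  simp [zetaPow]

theorem qParam_affH (N : ℕ) (hN : 0 < N) (A B D : ℕ) (hA : 0 < A) (hD : 0 < D)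
    (hdvd : D ∣ N * A) (z : ℍ) :
    𝕢 1 (affH A B D hA hD z) = zetaPow B D * 𝕢 N z ^ (N * A / D) := by
  have hDC : (D : ℂ) ≠ 0 := by exact_mod_cast hD.ne'
  have hNC : (N : ℂ) ≠ 0 := by exact_mod_cast hN.ne'
  have hcast : ((N * A / D : ℕ) : ℂ) = (N : ℂ) * A / D := by
    rw [Nat.cast_div hdvd hDC]
    push_cast
    rfl
  simp only [Periodic.qParam, zetaPow, coe_affH, ← Complex.exp_nat_mul, ← Complex.exp_add]
  congr 1
  rw [hcast]
  push_cast
  field_simp
  ring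

/-- The Hermite decomposition on the level of points of the upper half plane. -/
theorem pnatSMul_smul_eq (d : ℕ+) (γ δ : SL(2, ℤ)) (A B D : ℕ) (hA : 0 < A) (hD : 0 < D)
    (h00 : ((d : ℕ) : ℤ) * γ 0 0 = δ 0 0 * A)
    (h01 : ((d : ℕ) : ℤ) * γ 0 1 = δ 0 0 * B + δ 0 1 * D)
    (h10 : γ 1 0 = δ 1 0 * A)
    (h11 : γ 1 1 = δ 1 0 * B + δ 1 1 * D) (z : ℍ) :
    pnatSMul d (γ • z) = δ • affH A B D hA hD z := by
  apply UpperHalfPlane.ext
  rw [coe_pnatSMul, coe_specialLinearGroup_apply, coe_specialLinearGroup_apply, coe_affH]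
  have hDC : (D : ℂ) ≠ 0 := by exact_mod_cast hD.ne'
  have hden1 := denom_ne_zero' γ z
  have hden2 := denom_ne_zero' δ (affH A B D hA hD z)
  rw [coe_affH] at hden2
  have c00 := congrArg (Int.cast (R := ℂ)) h00
  have c01 := congrArg (Int.cast (R := ℂ)) h01
  have c10 := congrArg (Int.cast (R := ℂ)) h10
  have c11 := congrArg (Int.cast (R := ℂ)) h11
  push_cast at c00 c01 c10 c11
  simp only [algebraMap_int_eq, Int.coe_castRingHom, Complex.ofReal_intCast]
  rw [mul_div_assoc', div_eq_div_iff hden1 hden2]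
  have e1 : ((δ 1 0 : ℤ) : ℂ) * (((A : ℂ) * z + B) / D) + ((δ 1 1 : ℤ) : ℂ) =
      (((γ 1 0 : ℤ) : ℂ) * z + ((γ 1 1 : ℤ) : ℂ)) / D := by
    rw [c10, c11]
    field_simp
    ring
  have e2 : ((δ 0 0 : ℤ) : ℂ) * (((A : ℂ) * z + B) / D) + ((δ 0 1 : ℤ) : ℂ) =
      (((d : ℕ) : ℂ) * (((γ 0 0 : ℤ) : ℂ) * z + ((γ 0 1 : ℤ) : ℂ))) / D := by
    rw [mul_add, ← mul_assoc, c00, c01]
    field_simp
    ring
  rw [e1, e2]
  field_simp

/-! ### Expansions of `j(d γ z)` in `q_N = exp(2πi z / N)` -/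

/-- **F5, expansions.** For a Hermite decomposition `[d, 0; 0, 1] γ = δ [A, B; 0, D]` with `d ∣ N`,
the function `z ↦ j(d (γ z))` is the sum of the Laurent series `jq(ζ_D^B t^{N A / D})` in
`t = q_N`. -/
theorem hasQL_jFunD_smul_of_hermite {N : ℕ} (hN : 0 < N) (d : ℕ+) (hd : (d : ℕ) ∣ N)
    (γ δ : SL(2, ℤ)) (A B D : ℕ) (hAD : A * D = d)
    (h00 : ((d : ℕ) : ℤ) * γ 0 0 = δ 0 0 * A)
    (h01 : ((d : ℕ) : ℤ) * γ 0 1 = δ 0 0 * B + δ 0 1 * D)
    (h10 : γ 1 0 = δ 1 0 * A)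
    (h11 : γ 1 1 = δ 1 0 * B + δ 1 1 * D) :
    HasQL N (fun z => jFunD d (γ • z)) (twistExpand (zetaPow B D) (N * A / D) jqC) := by
  have hA : 0 < A := by
    rcases Nat.eq_zero_or_pos A with h | h
    · rw [h, zero_mul] at hAD
      exact absurd hAD.symm d.pos.ne'
    · exact h
  have hD : 0 < D := by
    rcases Nat.eq_zero_or_pos D with h | h
    · rw [h, mul_zero] at hAD
      exact absurd hAD.symm d.pos.ne'
    · exact h
  have hDN : D ∣ N := Dvd.dvd.trans ⟨A, by rw [← hAD, mul_comm]⟩ hd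
  have hdvd : D ∣ N * A := Dvd.dvd.mul_right hDN A
  have hk : 0 < N * A / D :=
    Nat.div_pos (Nat.le_of_dvd (Nat.mul_pos hN hA) hdvd) hD
  have h1 := HasQL.comp_twist (h' := N) (zetaPow_ne_zero B D) hk hasQL_jFun
    (affH A B D hA hD) (fun τ => qParam_affH N hN A B D hA hD hdvd τ)
  refine h1.congr (fun z => ?_)
  rw [jFunD, pnatSMul_smul_eq d γ δ A B D hA hD h00 h01 h10 h11 z, jFun_smul]

/-- **F5, expansions (existence form).** -/
theorem hasQL_jFunD_smul {N : ℕ} (hN : 0 < N) (d : ℕ+) (hd : (d : ℕ) ∣ N) (γ : SL(2, ℤ)) :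
    ∃ (A B D : ℕ), A * D = d ∧ B < D ∧ (A = d ↔ γ ∈ Gamma0 d) ∧
      HasQL N (fun z => jFunD d (γ • z)) (twistExpand (zetaPow B D) (N * A / D) jqC) := by
  obtain ⟨δ, A, B, D, hAD, hBD, h00, h01, h10, h11⟩ := hermite_entries γ d d.pos
  exact ⟨A, B, D, hAD, hBD, hermite_A_eq_iff γ δ A D hAD h00 h10,
    hasQL_jFunD_smul_of_hermite hN d hd γ δ A B D hAD h00 h01 h10 h11⟩

/-! ### Leading terms -/

theorem coeff_jqC (n : ℤ) : jqC.coeff n = ((ModularCurve.jq.coeff n : ℚ) : ℂ) := by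
  rw [jqC, ModularCurve.coeffEmb, ModularCurve.coeffMap_coeff]
  rfl

theorem coeff_jqC_neg_one : jqC.coeff (-1) = 1 := by
  rw [coeff_jqC, ModularCurve.coeff_jq_neg_one]
  simp

theorem coeff_jqC_of_lt {n : ℤ} (hn : n < -1) : jqC.coeff n = 0 := by
  rw [coeff_jqC, ModularCurve.coeff_jq_of_lt hn]
  simp

/-- The leading coefficient of `jq(c t^k)` is `c⁻¹`, at `t^(-k)`. -/
theorem coeff_twistExpand_jqC_neg (c : ℂ) {k : ℕ} (hk : 0 < k) :
    (twistExpand c k jqC).coeff (-(k : ℤ)) = c⁻¹ := by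
  have := coeff_twistExpand_mul c hk jqC (-1)
  rw [mul_neg_one] at this
  rw [this, coeff_jqC_neg_one, one_mul, zpow_neg_one]

theorem coeff_twistExpand_jqC_of_lt (c : ℂ) {k : ℕ} (hk : 0 < k) {n : ℤ} (hn : n < -(k : ℤ)) :
    (twistExpand c k jqC).coeff n = 0 := by
  by_cases hdvd : (k : ℤ) ∣ n
  · obtain ⟨m, rfl⟩ := hdvd
    rw [coeff_twistExpand_mul c hk]
    have hk' : (0 : ℤ) < k := by exact_mod_cast hk
    have hm : m < -1 := by
      by_contra hcon
      have : -1 ≤ m := not_lt.mp hcon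
      nlinarith
    rw [coeff_jqC_of_lt hm, zero_mul]
  · exact coeff_twistExpand_of_not_dvd _ _ _ hdvd

/-- Two series `jq(c t^k)`, `jq(c' t^k')` with `c, c' ≠ 0` which are equal have `k = k'`. -/
theorem eq_of_twistExpand_jqC_eq {c c' : ℂ} (hc : c ≠ 0) (hc' : c' ≠ 0) {k k' : ℕ} (hk : 0 < k)
    (hk' : 0 < k') (h : twistExpand c k jqC = twistExpand c' k' jqC) : k = k' := by
  have key : ∀ {c c' : ℂ} {k k' : ℕ}, c ≠ 0 → 0 < k → 0 < k' →
      twistExpand c k jqC = twistExpand c' k' jqC → k ≤ k' := by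
    intro c c' k k' hc hk hk' h
    by_contra hlt
    rw [not_le] at hlt
    have h1 := coeff_twistExpand_jqC_neg c hk
    rw [h, coeff_twistExpand_jqC_of_lt c' hk' (by exact_mod_cast (neg_lt_neg_iff.mpr
      (by exact_mod_cast hlt : (k' : ℤ) < k)))] at h1
    exact inv_ne_zero hc h1.symm
  exact le_antisymm (key hc hk hk' h) (key hc' hk' hk h.symm)

/-! ### Distinctness -/

/-- **F5, distinctness.** If `j(N (γ z)) = j(N z)` for all `z`, then `γ ∈ Γ₀(N)`. -/
theorem mem_Gamma0_of_jFunD_smul_eq (N : ℕ+) (γ : SL(2, ℤ))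
    (h : ∀ z : ℍ, jFunD N (γ • z) = jFunD N z) : γ ∈ Gamma0 N := by
  have hN : 0 < (N : ℕ) := N.pos
  obtain ⟨δ, A, B, D, hAD, hBD, h00, h01, h10, h11⟩ := hermite_entries γ N hN
  have hA : 0 < A := by
    rcases Nat.eq_zero_or_pos A with h | h
    · rw [h, zero_mul] at hAD
      exact absurd hAD.symm hN.ne'
    · exact h
  have hD : 0 < D := by
    rcases Nat.eq_zero_or_pos D with h | h
    · rw [h, mul_zero] at hAD
      exact absurd hAD.symm hN.ne'
    · exact h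
  have hDN : D ∣ (N : ℕ) := ⟨A, by rw [← hAD, mul_comm]⟩
  have hdvd : D ∣ (N : ℕ) * A := Dvd.dvd.mul_right hDN A
  have hk : 0 < (N : ℕ) * A / D :=
    Nat.div_pos (Nat.le_of_dvd (Nat.mul_pos hN hA) hdvd) hD
  have e1 := hasQL_jFunD_smul_of_hermite hN N dvd_rfl γ δ A B D hAD h00 h01 h10 h11
  -- the expansion of `j(N z)` itself: `γ = 1`, `A = N`, `B = 0`, `D = 1`
  have e2 := hasQL_jFunD_smul_of_hermite hN N dvd_rfl 1 1 N 0 1 (by simp) (by simp) (by simp)
    (by simp) (by simp)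
  have e1' : HasQL N (fun z => jFunD N z) (twistExpand (zetaPow B D) ((N : ℕ) * A / D) jqC) :=
    e1.congr h
  have e2' : HasQL N (fun z => jFunD N z) (twistExpand (zetaPow 0 1) ((N : ℕ) * N / 1) jqC) :=
    e2.congr (fun z => by simp)
  have hNR : (0 : ℝ) < ((N : ℕ) : ℝ) := by exact_mod_cast hN
  have heq := HasQL.unique hNR e1' e2'
  have hk2 : 0 < (N : ℕ) * N / 1 := by
    rw [Nat.div_one]
    exact Nat.mul_pos hN hN
  have hkk := eq_of_twistExpand_jqC_eq (zetaPow_ne_zero B D) (zetaPow_ne_zero 0 1) hk hk2 heq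
  rw [Nat.div_one] at hkk
  -- `N A / D = N N` and `A D = N` give `D = 1`
  have h3 : (N : ℕ) * A = (N : ℕ) * N * D := by
    rw [← hkk, Nat.div_mul_cancel hdvd]
  have h4 : A = (N : ℕ) * D := by
    have : (N : ℕ) * A = (N : ℕ) * ((N : ℕ) * D) := by rw [h3, mul_assoc]
    exact Nat.eq_of_mul_eq_mul_left hN this
  have h5 : D = 1 := by
    have h6 : (N : ℕ) * (D * D) = (N : ℕ) * 1 := by
      rw [mul_one, ← mul_assoc, ← h4, hAD]
    have h7 : D * D = 1 := Nat.eq_of_mul_eq_mul_left hN h6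
    exact Nat.eq_one_of_mul_eq_one_right h7
  have h8 : A = N := by rw [h4, h5, mul_one]
  exact (hermite_A_eq_iff γ δ A D hAD h00 h10).mp h8

end Fermat.Agent.Lib.ModJ
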