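import Fermat.Agent.Lib.ModJ.Basic

namespace Fermat.Agent.Lib.ModJ

open UpperHalfPlane ModularForm Complex MatrixGroups CongruenceSubgroup Filter Topology
open scoped Manifold

theorem tendsto_levelOne_atImInfty {k : ℤ} (f : ModularForm 𝒮ℒ k) :
    Tendsto f atImInfty (𝓝 ((qExpansion 1 f).coeff 0)) := by
  have han := ModularFormClass.analyticAt_cuspFunction_zero f one_pos one_mem_strictPeriods_SL
  have hc : ContinuousAt (cuspFunction 1 f) 0 := han.continuousAt
  have hq := qParam_tendsto_atImInfty (h := 1) one_pos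
  have h0 : (qExpansion 1 f).coeff 0 = cuspFunction 1 f 0 := by
    simp [qExpansion_coeff]
  rw [h0]
  have := hc.tendsto.comp hq
  refine this.congr fun τ => ?_
  simpa using SlashInvariantFormClass.eq_cuspFunction f τ one_mem_strictPeriods_SL one_ne_zero

theorem tendsto_E₄_atImInfty : Tendsto E₄ atImInfty (𝓝 1) := by
  have := tendsto_levelOne_atImInfty E₄
  rwa [EisensteinSeries.E_qExpansion_coeff_zero _ ⟨2, rfl⟩] at this

theorem tendsto_E₆_atImInfty : Tendsto E₆ atImInfty (𝓝 1) := by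
  have := tendsto_levelOne_atImInfty E₆
  rwa [EisensteinSeries.E_qExpansion_coeff_zero _ ⟨3, rfl⟩] at this

theorem tendsto_discriminant_atImInfty : Tendsto ModularForm.discriminant atImInfty (𝓝 0) :=
  discriminant_isZeroAtImInfty

theorem tendsto_norm_jFun_atImInfty : Tendsto (fun z => ‖jFun z‖) atImInfty atTop := by
  have h4 : Tendsto (fun z => ‖E₄ z ^ 3‖) atImInfty (𝓝 1) := by
    have := (tendsto_E₄_atImInfty.pow 3).norm
    simpa using this
  have hd : Tendsto (fun z => ‖ModularForm.discriminant z‖) atImInfty (𝓝[>] 0) := by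
    rw [tendsto_nhdsWithin_iff]
    refine ⟨by simpa using tendsto_discriminant_atImInfty.norm, Eventually.of_forall fun z => ?_⟩
    simpa using discriminant_ne_zero z
  have := Filter.Tendsto.pos_mul_atTop one_pos h4 hd.inv_tendsto_nhdsGT_zero
  refine this.congr fun z => ?_
  simp [jFun, div_eq_mul_inv]

/-- `jFun`, as a function on `ℂ` (junk outside the upper half plane). -/
noncomputable def jC (w : ℂ) : ℂ := jFun (ofComplex w)

theorem jC_coe (z : ℍ) : jC (z : ℂ) = jFun z := by simp [jC]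

theorem levelOne_differentiableOn {k : ℤ} (f : ModularForm 𝒮ℒ k) :
    DifferentiableOn ℂ (f ∘ ofComplex) {z : ℂ | 0 < z.im} :=
  UpperHalfPlane.mdifferentiable_iff.mp (ModularFormClass.holo f)

theorem discriminant_differentiableOn :
    DifferentiableOn ℂ (ModularForm.discriminant ∘ ofComplex) {z : ℂ | 0 < z.im} := by
  have := UpperHalfPlane.mdifferentiable_iff.mp (CuspFormClass.holo CuspForm.discriminant)
  simpa [CuspForm.coe_discriminant] using this

theorem jC_differentiableOn : DifferentiableOn ℂ jC {z : ℂ | 0 < z.im} := by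
  have h4 := levelOne_differentiableOn E₄
  have hd := discriminant_differentiableOn
  have : jC = fun w => (E₄ ∘ ofComplex) w ^ 3 / (ModularForm.discriminant ∘ ofComplex) w := rfl
  rw [this]
  exact (h4.pow 3).div hd fun w _ => discriminant_ne_zero _

theorem jC_analyticOnNhd : AnalyticOnNhd ℂ jC {z : ℂ | 0 < z.im} :=
  jC_differentiableOn.analyticOnNhd (isOpen_lt continuous_const Complex.continuous_im)

theorem jFun_mdiff : MDiff jFun :=
  UpperHalfPlane.mdifferentiable_iff.mpr jC_differentiableOn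

theorem jFun_continuous : Continuous jFun := jFun_mdiff.continuous

theorem range_jFun_eq : Set.range jFun = jC '' {z : ℂ | 0 < z.im} := by
  ext a
  constructor
  · rintro ⟨z, rfl⟩
    exact ⟨z, z.im_pos, jC_coe z⟩
  · rintro ⟨w, hw, rfl⟩
    exact ⟨⟨w, hw⟩, by simp [jC, ofComplex_apply_of_im_pos hw]⟩

theorem jC_not_const : ¬ ∃ c, ∀ z ∈ {z : ℂ | 0 < z.im}, jC z = c := by
  rintro ⟨c, hc⟩
  have h := tendsto_norm_jFun_atImInfty
  have h2 : ∀ z : ℍ, ‖jFun z‖ = ‖c‖ := fun z => by rw [← jC_coe, hc z z.im_pos]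
  have h3 := (h.eventually (eventually_gt_atTop ‖c‖))
  obtain ⟨z, hz⟩ := h3.exists
  rw [h2] at hz
  exact lt_irrefl _ hz

theorem isOpen_range_jFun : IsOpen (Set.range jFun) := by
  rw [range_jFun_eq]
  rcases jC_analyticOnNhd.is_constant_or_isOpen (convex_halfSpace_im_gt 0).isPreconnected with h | h
  · exact absurd h jC_not_const
  · exact h _ subset_rfl (isOpen_lt continuous_const Complex.continuous_im)

theorem fd_im_ge (z : ℍ) (hz : z ∈ ModularGroup.fd) : 1 / 2 ≤ z.im := by
  obtain ⟨h1, h2⟩ := hz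
  have hre : z.re ^ 2 ≤ 1 / 4 := by
    have := abs_le.mp h2
    nlinarith [this.1, this.2]
  have : 1 ≤ z.re ^ 2 + z.im ^ 2 := by
    have e : Complex.normSq (z : ℂ) = z.re ^ 2 + z.im ^ 2 := by
      rw [Complex.normSq_apply]; simp [sq]
    linarith
  by_contra hcon
  push Not at hcon
  have hpos := z.im_pos
  nlinarith

/-- The truncated fundamental domain as a compact subset of `ℂ`. -/
theorem isCompact_truncFd (Y : ℝ) :
    IsCompact {w : ℂ | |w.re| ≤ 1 / 2 ∧ 1 / 2 ≤ w.im ∧ w.im ≤ Y} := by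
  apply Metric.isCompact_of_isClosed_isBounded
  · have h1 : IsClosed {w : ℂ | |w.re| ≤ 1 / 2} :=
      isClosed_le (continuous_abs.comp Complex.continuous_re) continuous_const
    have h2 : IsClosed {w : ℂ | 1 / 2 ≤ w.im} := isClosed_le continuous_const Complex.continuous_im
    have h3 : IsClosed {w : ℂ | w.im ≤ Y} := isClosed_le Complex.continuous_im continuous_const
    exact h1.inter (h2.inter h3)
  · rw [Metric.isBounded_iff_subset_closedBall (0 : ℂ)]
    refine ⟨1 / 2 + |Y|, fun w hw => ?_⟩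
    obtain ⟨h1, h2, h3⟩ := hw
    rw [mem_closedBall_zero_iff]
    calc ‖w‖ ≤ |w.re| + |w.im| := Complex.norm_le_abs_re_add_abs_im w
      _ ≤ 1 / 2 + |Y| := by
        have : |w.im| ≤ |Y| := by
          rw [abs_of_nonneg (by linarith), abs_of_nonneg (by linarith)]
          exact h3
        linarith

theorem isClosed_range_jFun : IsClosed (Set.range jFun) := by
  rw [← closure_subset_iff_isClosed]
  intro a ha
  -- bound on the imaginary part
  obtain ⟨Y, hY⟩ : ∃ Y : ℝ, ∀ z : ℍ, Y ≤ z.im → ‖a‖ + 1 < ‖jFun z‖ := by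
    have h3 := (tendsto_norm_jFun_atImInfty.eventually (eventually_gt_atTop (‖a‖ + 1)))
    exact (atImInfty_mem _).mp h3
  set K : Set ℂ := {w : ℂ | |w.re| ≤ 1 / 2 ∧ 1 / 2 ≤ w.im ∧ w.im ≤ Y} with hK
  have hKc : IsCompact K := isCompact_truncFd Y
  have hKU : K ⊆ {z : ℂ | 0 < z.im} := fun w hw => by
    have := hw.2.1
    show 0 < w.im
    linarith
  have himc : IsCompact (jC '' K) :=
    hKc.image_of_continuousOn (jC_differentiableOn.continuousOn.mono hKU)
  have hsub : Set.range jFun ∩ Metric.ball a 1 ⊆ jC '' K := by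
    rintro b ⟨⟨z, rfl⟩, hb⟩
    obtain ⟨γ, hγ⟩ := ModularGroup.exists_smul_mem_fd z
    refine ⟨(γ • z : ℍ), ⟨hγ.2, fd_im_ge _ hγ, ?_⟩, ?_⟩
    · by_contra hcon
      push Not at hcon
      have := hY (γ • z) hcon.le
      rw [jFun_smul] at this
      have h1 : ‖jFun z‖ < ‖a‖ + 1 := by
        have := mem_ball_iff_norm.mp hb
        calc ‖jFun z‖ = ‖(jFun z - a) + a‖ := by ring_nf
          _ ≤ ‖jFun z - a‖ + ‖a‖ := norm_add_le _ _
          _ < ‖a‖ + 1 := by linarith
      linarith
    · rw [jC_coe, jFun_smul]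
  have h1 : a ∈ closure (Set.range jFun ∩ Metric.ball a 1) := by
    rw [mem_closure_iff_nhds] at ha ⊢
    intro t ht
    have := ha (t ∩ Metric.ball a 1) (inter_mem ht (Metric.ball_mem_nhds a one_pos))
    obtain ⟨x, hx⟩ := this
    exact ⟨x, hx.1.1, hx.2, hx.1.2⟩
  have h2 := closure_mono hsub h1
  rw [himc.isClosed.closure_eq] at h2
  obtain ⟨w, hw, rfl⟩ := h2
  exact ⟨⟨w, hKU hw⟩, by simp [jC, ofComplex_apply_of_im_pos (hKU hw)]⟩

/-- **B0**: the `j`-function is surjective. -/
theorem jFun_surjective : Function.Surjective jFun := by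
  have h : Set.range jFun = Set.univ :=
    IsClopen.eq_univ ⟨isClosed_range_jFun, isOpen_range_jFun⟩ ⟨jFun UpperHalfPlane.I, ⟨_, rfl⟩⟩
  exact Set.range_eq_univ.mp h

end Fermat.Agent.Lib.ModJ
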