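import Mathlib
import Fermat.Prelude.Def_ModularCurve_X0
import Fermat.Prelude.Def_ModularCurve_LaurentCoeff
import Fermat.Agent.Lib.ModJ.QExpJ

/-!
# Item 68 (S24), block B3 (= F1 of helper8's contract): kernel equality

For a polynomial `P` in variables `X_i` and positive integers `d i`:
`P(jq(q^{d i})) = 0` in `K((q))`  iff  `P(j(d i · z)) = 0` for all `z ∈ ℍ`.
-/

set_option autoImplicit false

noncomputable section

open UpperHalfPlane Function Complex
open scoped Manifold

namespace Fermat.Agent.Lib.ModJ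

local notation "𝕢" => Periodic.qParam

variable {K : Type*} [Field K] [Algebra ℚ K] (σ : K →+* ℂ) {ι : Type*} (d : ι → ℕ+)

/-- the formal generators `jq(q^{d i})` with coefficients in `K` -/
def jqK (K : Type*) [Field K] [Algebra ℚ K] (e : ℕ+) : LaurentSeries K :=
  ModularCurve.coeffEmb K (ModularCurve.qExpand ℚ (e : ℕ) ModularCurve.jq)

theorem coeffMap_jqK (e : ℕ+) : ModularCurve.coeffMap σ (jqK K e) = jqCD e := by
  rw [jqK, coeffMap_coeffEmb', jqCD_eq]

omit [Algebra ℚ K] in
theorem coeffMap_algebraMap' (a : K) :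
    ModularCurve.coeffMap σ (algebraMap K (LaurentSeries K) a) = HahnSeries.C (σ a) := by
  rw [ModularCurve.algebraMap_laurentSeries_eq_single, ModularCurve.coeffMap_single]
  rfl

/-- every polynomial expression in the `j(d i · z)` is the sum of the corresponding
formal expression in the `jq(q^{d i})`. -/
theorem hasQL_eval (P : MvPolynomial ι K) :
    HasQL 1 (fun z => MvPolynomial.eval₂ σ (fun i => jFunD (d i) z) P)
      (ModularCurve.coeffMap σ (MvPolynomial.aeval (fun i => jqK K (d i)) P)) := by
  induction P using MvPolynomial.induction_on with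
  | C a =>
    simp only [MvPolynomial.eval₂_C, MvPolynomial.aeval_C, coeffMap_algebraMap']
    exact hasQL_C (σ a)
  | add p q hp hq =>
    simp only [MvPolynomial.eval₂_add, map_add]
    exact hp.add hq
  | mul_X p i hp =>
    simp only [MvPolynomial.eval₂_mul, MvPolynomial.eval₂_X, map_mul, MvPolynomial.aeval_X,
      coeffMap_jqK]
    exact hp.mul (hasQL_jFunD (d i))

/-- **B3 / F1, kernel equality.** -/
theorem aeval_jqK_eq_zero_iff (P : MvPolynomial ι K) :
    MvPolynomial.aeval (fun i => jqK K (d i)) P = 0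
      ↔ ∀ z : ℍ, MvPolynomial.eval₂ σ (fun i => jFunD (d i) z) P = 0 := by
  rw [← (hasQL_eval σ d P).eq_zero_iff one_pos]
  constructor
  · intro h
    rw [h, map_zero]
  · intro h
    exact coeffMap_injective σ σ.injective (by rw [h, map_zero])

/-- the same with `eval` of the mapped polynomial -/
theorem aeval_jqK_eq_zero_iff' (P : MvPolynomial ι K) :
    MvPolynomial.aeval (fun i => jqK K (d i)) P = 0
      ↔ ∀ z : ℍ, MvPolynomial.eval (fun i => jFunD (d i) z) (MvPolynomial.map σ P) = 0 := by
  rw [aeval_jqK_eq_zero_iff σ d P]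
  simp only [MvPolynomial.eval_map]

/-- a fixed embedding `ℚ̄ → ℂ` -/
def iotaQbar : AlgebraicClosure ℚ →+* ℂ :=
  haveI : Algebra.IsAlgebraic ℚ (AlgebraicClosure ℚ) := AlgebraicClosure.isAlgebraic ℚ
  (IsAlgClosed.lift : AlgebraicClosure ℚ →ₐ[ℚ] ℂ).toRingHom

end Fermat.Agent.Lib.ModJ
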