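import Fermat.Agent.Lib.ModJ.Deriv

namespace Fermat.Agent.Lib.ModJ

open UpperHalfPlane hiding I
open ModularForm Complex MatrixGroups CongruenceSubgroup Filter Topology Derivative
open scoped Manifold

/-- `E₄` as a function on `ℂ`. -/
noncomputable def e4C (w : ℂ) : ℂ := E₄ (ofComplex w)
/-- `E₆` as a function on `ℂ`. -/
noncomputable def e6C (w : ℂ) : ℂ := E₆ (ofComplex w)
/-- `Δ` as a function on `ℂ`. -/
noncomputable def deltaC (w : ℂ) : ℂ := ModularForm.discriminant (ofComplex w)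

theorem isOpen_uhp : IsOpen {z : ℂ | 0 < z.im} := isOpen_lt continuous_const Complex.continuous_im

theorem e4C_analyticAt (z : ℍ) : AnalyticAt ℂ e4C z :=
  ((levelOne_differentiableOn E₄).analyticOnNhd isOpen_uhp) z z.im_pos

theorem e6C_analyticAt (z : ℍ) : AnalyticAt ℂ e6C z :=
  ((levelOne_differentiableOn E₆).analyticOnNhd isOpen_uhp) z z.im_pos

theorem deltaC_analyticAt (z : ℍ) : AnalyticAt ℂ deltaC z :=
  (discriminant_differentiableOn.analyticOnNhd isOpen_uhp) z z.im_pos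

theorem jC_analyticAt (z : ℍ) : AnalyticAt ℂ jC z := jC_analyticOnNhd z z.im_pos

@[simp] theorem e4C_coe (z : ℍ) : e4C z = E₄ z := by simp [e4C]
@[simp] theorem e6C_coe (z : ℍ) : e6C z = E₆ z := by simp [e6C]
@[simp] theorem deltaC_coe (z : ℍ) : deltaC z = ModularForm.discriminant z := by simp [deltaC]

theorem two_pi_I_ne_zero : (2 * Real.pi * I : ℂ) ≠ 0 := by
  simp [Real.pi_ne_zero]

theorem deriv_identity (z : ℍ) :
    3 * deriv e4C z * E₆ z - 2 * E₄ z * deriv e6C z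
      = 2 * Real.pi * I * (1728 * ModularForm.discriminant z) := by
  have h := wFun_eq_discriminant z
  simp only [normalizedDerivOfComplex] at h
  have e4 : deriv (⇑E₄ ∘ ↑ofComplex) (z : ℂ) = deriv e4C z := rfl
  have e6 : deriv (⇑E₆ ∘ ↑ofComplex) (z : ℂ) = deriv e6C z := rfl
  rw [e4, e6] at h
  have hpi := two_pi_I_ne_zero
  rw [← h]
  field_simp

theorem deriv_e4C_ne_zero (z : ℍ) (h : E₄ z = 0) : deriv e4C z ≠ 0 := by
  intro h0
  have := deriv_identity z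
  rw [h, h0] at this
  have hd := discriminant_ne_zero z
  have h2 : 2 * Real.pi * I * (1728 * ModularForm.discriminant z) = 0 := by
    rw [← this]; ring
  exact (mul_ne_zero two_pi_I_ne_zero (mul_ne_zero (by norm_num) hd)) h2

theorem deriv_e6C_ne_zero (z : ℍ) (h : E₆ z = 0) : deriv e6C z ≠ 0 := by
  intro h0
  have := deriv_identity z
  rw [h, h0] at this
  have hd := discriminant_ne_zero z
  have h2 : 2 * Real.pi * I * (1728 * ModularForm.discriminant z) = 0 := by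
    rw [← this]; ring
  exact (mul_ne_zero two_pi_I_ne_zero (mul_ne_zero (by norm_num) hd)) h2

theorem jC_eq_e (w : ℂ) : jC w = e4C w ^ 3 / deltaC w := rfl

theorem jC_sub_1728_eq (w : ℂ) : jC w - 1728 = e6C w ^ 2 / deltaC w := jFun_sub_1728 _

theorem deltaC_ne_zero (w : ℂ) : deltaC w ≠ 0 := discriminant_ne_zero _

theorem deltaC_eq (w : ℂ) : deltaC w = (e4C w ^ 3 - e6C w ^ 2) / 1728 :=
  discriminant_eq_E₄_cube_sub_E₆_sq _

theorem jC_eq_e' : jC = fun w => 1728 * e4C w ^ 3 / (e4C w ^ 3 - e6C w ^ 2) := by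
  funext w
  have h := deltaC_eq w
  have hne := deltaC_ne_zero w
  have hne' : e4C w ^ 3 - e6C w ^ 2 ≠ 0 := by
    intro h0; rw [h0] at h; simp at h; exact hne h
  rw [jC_eq_e, h]
  field_simp

/-- **B2**: the derivative of `j`: `j' = -2πi E₄² E₆ / Δ`. -/
theorem deriv_jC (z : ℍ) :
    deriv jC z = -(2 * Real.pi * I) * E₄ z ^ 2 * E₆ z / ModularForm.discriminant z := by
  have h4 := (e4C_analyticAt z).differentiableAt.hasDerivAt
  have h6 := (e6C_analyticAt z).differentiableAt.hasDerivAt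
  have hΔ := deltaC_eq z
  have hne := deltaC_ne_zero z
  simp only [e4C_coe, e6C_coe, deltaC_coe] at hΔ hne
  have hne' : E₄ z ^ 3 - E₆ z ^ 2 ≠ 0 := by
    intro h0; rw [h0] at hΔ; simp at hΔ; exact hne hΔ
  have hnum := ((h4.pow 3).const_mul (1728 : ℂ))
  have hden := (h4.pow 3).sub (h6.pow 2)
  have hdiv : HasDerivAt (fun w => 1728 * e4C w ^ 3 / (e4C w ^ 3 - e6C w ^ 2)) _ z :=
    hnum.div hden (by simpa using hne')
  have hid := deriv_identity z
  rw [jC_eq_e']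
  rw [hdiv.deriv]
  simp only [e4C_coe, e6C_coe, Pi.pow_apply]
  rw [hΔ]
  field_simp
  rw [hΔ] at hid
  field_simp at hid
  linear_combination (-(E₄ z ^ 2 * E₆ z)) * hid


theorem ST_smul_rho : (ModularGroup.S * ModularGroup.T) • ρ = ρ := by
  rw [ModularGroup.stabilizer_ρ]
  simp

theorem S_smul_I : ModularGroup.S • UpperHalfPlane.I = UpperHalfPlane.I := by
  rw [ModularGroup.stabilizer_I]
  simp

theorem ST_entries : ((ModularGroup.S * ModularGroup.T) 1 0 : ℤ) = 1 ∧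
    ((ModularGroup.S * ModularGroup.T) 1 1 : ℤ) = 1 := by
  constructor <;>
    simp [ModularGroup.coe_S, ModularGroup.coe_T, Matrix.SpecialLinearGroup.coe_mul,
      Matrix.mul_apply, Fin.sum_univ_two]

theorem S_entries : ((ModularGroup.S) 1 0 : ℤ) = 1 ∧ ((ModularGroup.S) 1 1 : ℤ) = 0 := by
  constructor <;> simp [ModularGroup.S]

theorem rho_cube : (ρ : ℂ) ^ 3 = 1 := by
  have h := ρ_sq
  calc (ρ : ℂ) ^ 3 = (ρ : ℂ) * (ρ : ℂ) ^ 2 := by ring
    _ = (ρ : ℂ) * (-ρ - 1) := by rw [h]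
    _ = -(ρ : ℂ) ^ 2 - ρ := by ring
    _ = 1 := by rw [h]; ring

/-- `E₄ ρ = 0`. -/
theorem E₄_rho : E₄ ρ = 0 := by
  have h := levelOne_smul E₄ (ModularGroup.S * ModularGroup.T) ρ
  rw [ST_smul_rho, ST_entries.1, ST_entries.2] at h
  have h2 : ((((1 : ℤ) : ℂ) * (ρ : ℂ) + ((1 : ℤ) : ℂ)) ^ (4 : ℤ)) = (ρ : ℂ) ^ 2 := by
    have e : (((1 : ℤ) : ℂ) * (ρ : ℂ) + ((1 : ℤ) : ℂ)) = -(ρ : ℂ) ^ 2 := by
      rw [ρ_sq]; push_cast; ring
    rw [e]
    have : (-(ρ : ℂ) ^ 2) ^ (4 : ℤ) = (-(ρ : ℂ) ^ 2) ^ (4 : ℕ) := by norm_cast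
    rw [this]
    calc (-(ρ : ℂ) ^ 2) ^ 4 = ((ρ : ℂ) ^ 3) ^ 2 * (ρ : ℂ) ^ 2 := by ring
      _ = (ρ : ℂ) ^ 2 := by rw [rho_cube]; ring
  rw [h2, ρ_sq] at h
  have h3 : (-(ρ : ℂ) - 2) * E₄ ρ = 0 := by linear_combination -h
  rcases mul_eq_zero.mp h3 with h4 | h4
  · exfalso
    have := congrArg Complex.im h4
    simp at this
    exact (ρ.im_pos).ne' this
  · exact h4

/-- `E₆ i = 0`. -/
theorem E₆_I : E₆ UpperHalfPlane.I = 0 := by
  have h := levelOne_smul E₆ ModularGroup.S UpperHalfPlane.I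
  rw [S_smul_I, S_entries.1, S_entries.2] at h
  have h2 : ((((1 : ℤ) : ℂ) * ((UpperHalfPlane.I : ℍ) : ℂ) + ((0 : ℤ) : ℂ)) ^ (6 : ℤ)) = -1 := by
    have e : (((1 : ℤ) : ℂ) * ((UpperHalfPlane.I : ℍ) : ℂ) + ((0 : ℤ) : ℂ)) = Complex.I := by
      simp
    rw [e]
    have : (Complex.I) ^ (6 : ℤ) = Complex.I ^ (6 : ℕ) := by norm_cast
    rw [this]
    calc Complex.I ^ 6 = (Complex.I ^ 2) ^ 3 := by ring
      _ = -1 := by rw [Complex.I_sq]; norm_num
  rw [h2] at h
  have h3 : (2 : ℂ) * E₆ UpperHalfPlane.I = 0 := by linear_combination h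
  rcases mul_eq_zero.mp h3 with h4 | h4
  · norm_num at h4
  · exact h4

theorem jFun_rho : jFun ρ = 0 := by simp [jFun, E₄_rho]

theorem jFun_I : jFun UpperHalfPlane.I = 1728 := by
  have := jFun_sub_1728 UpperHalfPlane.I
  rw [E₆_I] at this
  simp at this
  linear_combination this


/-- **B2 (generic point)**: if `E₄ z ≠ 0` and `E₆ z ≠ 0` then `j - j(z)` has a simple zero at `z`. -/
theorem analyticOrderAt_jC_sub_of_ne (z : ℍ) (h4 : E₄ z ≠ 0) (h6 : E₆ z ≠ 0) :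
    analyticOrderAt (fun w => jC w - jC z) z = 1 := by
  apply (jC_analyticAt z).analyticOrderAt_sub_eq_one_of_deriv_ne_zero
  rw [deriv_jC]
  exact div_ne_zero (mul_ne_zero (mul_ne_zero (neg_ne_zero.mpr two_pi_I_ne_zero)
    (pow_ne_zero _ h4)) h6) (discriminant_ne_zero z)

theorem E₄_ne_zero_of_jFun_ne (z : ℍ) (h0 : jFun z ≠ 0) : E₄ z ≠ 0 := by
  intro h; apply h0; simp [jFun, h]

theorem E₆_ne_zero_of_jFun_ne (z : ℍ) (h1 : jFun z ≠ 1728) : E₆ z ≠ 0 := by
  intro h; apply h1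
  have := jFun_sub_1728 z
  rw [h] at this
  simp at this
  linear_combination this

/-- **B2 (generic point)**: over `a ≠ 0, 1728` the function `j - a` has only simple zeros. -/
theorem analyticOrderAt_jC_sub_generic (z : ℍ) (h0 : jFun z ≠ 0) (h1 : jFun z ≠ 1728) :
    analyticOrderAt (fun w => jC w - jC z) z = 1 :=
  analyticOrderAt_jC_sub_of_ne z (E₄_ne_zero_of_jFun_ne z h0) (E₆_ne_zero_of_jFun_ne z h1)

theorem analyticOrderAt_e4C_of_zero (z : ℍ) (h : E₄ z = 0) : analyticOrderAt e4C z = 1 :=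
  (e4C_analyticAt z).analyticOrderAt_eq_one_of_zero_deriv_ne_zero (by simpa using h)
    (deriv_e4C_ne_zero z h)

theorem analyticOrderAt_e6C_of_zero (z : ℍ) (h : E₆ z = 0) : analyticOrderAt e6C z = 1 :=
  (e6C_analyticAt z).analyticOrderAt_eq_one_of_zero_deriv_ne_zero (by simpa using h)
    (deriv_e6C_ne_zero z h)

theorem analyticOrderAt_deltaC_inv (z : ℍ) : analyticOrderAt (deltaC⁻¹) (z : ℂ) = 0 := by
  rw [((deltaC_analyticAt z).inv (deltaC_ne_zero _)).analyticOrderAt_eq_zero]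
  simpa using discriminant_ne_zero z

/-- At a zero of `E₄`, `j` vanishes to order exactly `3`. -/
theorem analyticOrderAt_jC_of_E₄_zero (z : ℍ) (h : E₄ z = 0) : analyticOrderAt jC z = 3 := by
  have e : jC = e4C ^ 3 * deltaC⁻¹ := by
    funext w; simp [jC_eq_e, div_eq_mul_inv]
  rw [e, analyticOrderAt_mul ((e4C_analyticAt z).pow 3) ((deltaC_analyticAt z).inv (deltaC_ne_zero _)),
    analyticOrderAt_pow (e4C_analyticAt z), analyticOrderAt_e4C_of_zero z h,
    analyticOrderAt_deltaC_inv]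
  rfl

/-- At a zero of `E₆`, `j - 1728` vanishes to order exactly `2`. -/
theorem analyticOrderAt_jC_sub_of_E₆_zero (z : ℍ) (h : E₆ z = 0) :
    analyticOrderAt (fun w => jC w - 1728) z = 2 := by
  have e : (fun w => jC w - 1728) = e6C ^ 2 * deltaC⁻¹ := by
    funext w; simp [jC_sub_1728_eq, div_eq_mul_inv]
  rw [e, analyticOrderAt_mul ((e6C_analyticAt z).pow 2) ((deltaC_analyticAt z).inv (deltaC_ne_zero _)),
    analyticOrderAt_pow (e6C_analyticAt z), analyticOrderAt_e6C_of_zero z h,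
    analyticOrderAt_deltaC_inv]
  rfl

/-- **B2 at `ρ`**: `j` has a zero of order `3` at `ρ`. -/
theorem analyticOrderAt_jC_rho : analyticOrderAt (fun w => jC w - jC ρ) ρ = 3 := by
  have : jC ρ = 0 := by rw [jC_coe, jFun_rho]
  simp only [this, sub_zero]
  exact analyticOrderAt_jC_of_E₄_zero ρ E₄_rho

/-- **B2 at `i`**: `j - 1728` has a zero of order `2` at `i`. -/
theorem analyticOrderAt_jC_I :
    analyticOrderAt (fun w => jC w - jC (UpperHalfPlane.I : ℍ)) (UpperHalfPlane.I : ℍ) = 2 := by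
  have : jC (UpperHalfPlane.I : ℍ) = 1728 := by rw [jC_coe, jFun_I]
  simp only [this]
  exact analyticOrderAt_jC_sub_of_E₆_zero _ E₆_I

end Fermat.Agent.Lib.ModJ
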