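import Mathlib
import Fermat.Agent.Lib.ModJ.Distinct

/-!
# Item 68 (S24), piece C-Inf.3: the rotation `t ↦ c t` of Laurent series

* `rotL c hc : LaurentSeries ℂ ≃+* LaurentSeries ℂ`, coefficient `n ↦ L_n c^n` (`c ≠ 0`);
* `order_rotL`: it preserves the order;
* `HasQL.rot`: if `f` is the sum of `L` in `q_N`, then `z ↦ f (z + 1)` is the sum of
  `rotL ζ_N L`, `ζ_N = exp(2πi/N)`.
-/

set_option autoImplicit false

noncomputable section

open UpperHalfPlane Function Complex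
open scoped Manifold MatrixGroups

namespace Fermat.Agent.Lib.ModJ

local notation "𝕢" => Periodic.qParam

/-- `L(c t)`. -/
def rotFun (c : ℂ) (L : LaurentSeries ℂ) : LaurentSeries ℂ where
  coeff n := L.coeff n * c ^ n
  isPWO_support' := L.isPWO_support.mono (fun n hn => by
    simp only [Function.mem_support, ne_eq] at hn
    simp only [HahnSeries.mem_support, ne_eq]
    intro h
    exact hn (by rw [h, zero_mul]))

@[simp] theorem coeff_rotFun (c : ℂ) (L : LaurentSeries ℂ) (n : ℤ) :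
    (rotFun c L).coeff n = L.coeff n * c ^ n := rfl

theorem support_rotFun_subset (c : ℂ) (L : LaurentSeries ℂ) :
    (rotFun c L).support ⊆ L.support := by
  intro n hn
  simp only [HahnSeries.mem_support, ne_eq, coeff_rotFun] at hn ⊢
  intro h
  exact hn (by rw [h, zero_mul])

theorem rotFun_eq_twistExpand (c : ℂ) (L : LaurentSeries ℂ) :
    rotFun c L = twistExpand c 1 L := by
  ext n
  have := coeff_twistExpand_mul c (k := 1) one_pos L n
  simp only [Nat.cast_one, one_mul] at this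
  rw [this, coeff_rotFun]

theorem rotFun_one (L : LaurentSeries ℂ) : rotFun 1 L = L := by
  ext n
  simp

theorem rotFun_rotFun (c c' : ℂ) (L : LaurentSeries ℂ) :
    rotFun c (rotFun c' L) = rotFun (c' * c) L := by
  ext n
  simp only [coeff_rotFun, mul_zpow]
  ring

theorem rotFun_add (c : ℂ) (x y : LaurentSeries ℂ) :
    rotFun c (x + y) = rotFun c x + rotFun c y := by
  ext n
  simp only [coeff_rotFun, HahnSeries.coeff_add]
  ring

theorem coeff_mul_both' {x y : LaurentSeries ℂ} {a : ℤ} {s t : Set ℤ} (hs : s.IsPWO)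
    (ht : t.IsPWO) (hxs : x.support ⊆ s) (hyt : y.support ⊆ t) :
    (x * y).coeff a = ∑ ij ∈ Finset.antidiagonal hs ht a, x.coeff ij.1 * y.coeff ij.2 := by
  rw [HahnSeries.coeff_mul_left' hs hxs]
  refine Finset.sum_subset (Finset.antidiagonal_mono_right hyt) (fun ij _ hij => ?_)
  have : ij.2 ∉ y.support := by
    intro h2
    apply hij
    rename_i hmem
    rw [Finset.mem_antidiagonal] at hmem ⊢
    exact ⟨hmem.1, h2, hmem.2.2⟩
  have h0 : y.coeff ij.2 = 0 := by
    simpa [HahnSeries.mem_support] using this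
  rw [h0, mul_zero]

theorem rotFun_mul {c : ℂ} (hc : c ≠ 0) (x y : LaurentSeries ℂ) :
    rotFun c (x * y) = rotFun c x * rotFun c y := by
  ext a
  rw [coeff_rotFun, HahnSeries.coeff_mul,
    coeff_mul_both' x.isPWO_support y.isPWO_support (support_rotFun_subset c x)
      (support_rotFun_subset c y), Finset.sum_mul]
  refine Finset.sum_congr rfl (fun ij hij => ?_)
  rw [Finset.mem_antidiagonal] at hij
  rw [coeff_rotFun, coeff_rotFun, ← hij.2.2, zpow_add₀ hc]
  ring

/-- The rotation `t ↦ c t` as a ring automorphism of `ℂ((t))`. -/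
def rotL (c : ℂ) (hc : c ≠ 0) : LaurentSeries ℂ ≃+* LaurentSeries ℂ where
  toFun := rotFun c
  invFun := rotFun c⁻¹
  left_inv L := by
    rw [rotFun_rotFun, mul_inv_cancel₀ hc, rotFun_one]
  right_inv L := by
    rw [rotFun_rotFun, inv_mul_cancel₀ hc, rotFun_one]
  map_mul' x y := rotFun_mul hc x y
  map_add' x y := rotFun_add c x y

@[simp] theorem coeff_rotL (c : ℂ) (hc : c ≠ 0) (L : LaurentSeries ℂ) (n : ℤ) :
    (rotL c hc L).coeff n = L.coeff n * c ^ n := rfl

theorem rotL_apply (c : ℂ) (hc : c ≠ 0) (L : LaurentSeries ℂ) : rotL c hc L = rotFun c L := rfl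

theorem coeff_rotL_eq_zero_iff (c : ℂ) (hc : c ≠ 0) (L : LaurentSeries ℂ) (n : ℤ) :
    (rotL c hc L).coeff n = 0 ↔ L.coeff n = 0 := by
  rw [coeff_rotL, mul_eq_zero, or_iff_left (zpow_ne_zero n hc)]

theorem support_rotL (c : ℂ) (hc : c ≠ 0) (L : LaurentSeries ℂ) :
    (rotL c hc L).support = L.support := by
  ext n
  simp only [HahnSeries.mem_support, ne_eq, coeff_rotL_eq_zero_iff]

/-- The rotation preserves the order. -/
theorem order_rotL (c : ℂ) (hc : c ≠ 0) (L : LaurentSeries ℂ) :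
    (rotL c hc L).order = L.order := by
  by_cases hL : L = 0
  · subst hL
    simp
  have hL' : rotL c hc L ≠ 0 := by
    intro h
    exact hL ((rotL c hc).map_eq_zero_iff.mp h)
  apply le_antisymm
  · refine HahnSeries.order_le_of_coeff_ne_zero ?_
    rw [ne_eq, coeff_rotL_eq_zero_iff, HahnSeries.coeff_order_eq_zero]
    exact hL
  · refine HahnSeries.order_le_of_coeff_ne_zero ?_
    rw [ne_eq, ← coeff_rotL_eq_zero_iff c hc, HahnSeries.coeff_order_eq_zero]
    exact hL'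

/-! ### Translation `z ↦ z + 1` -/

/-- `ζ_N = exp(2πi/N)`. -/
def zetaN (N : ℕ) : ℂ := Complex.exp (2 * Real.pi * Complex.I / N)

theorem zetaN_ne_zero (N : ℕ) : zetaN N ≠ 0 := Complex.exp_ne_zero _

theorem zetaN_eq_zetaPow (N : ℕ) : zetaN N = zetaPow 1 N := by
  simp [zetaN, zetaPow]

theorem zetaN_pow (N : ℕ) (hN : 0 < N) : zetaN N ^ N = 1 := by
  have hNC : (N : ℂ) ≠ 0 := by exact_mod_cast hN.ne'
  rw [zetaN, ← Complex.exp_nat_mul, mul_div_cancel₀ _ hNC]
  exact Complex.exp_two_pi_mul_I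

/-- `z ↦ z + n` on the upper half plane, `n : ℤ`. -/
def shiftH (n : ℤ) (z : ℍ) : ℍ := ⟨(z : ℂ) + n, by simpa using z.im_pos⟩

theorem coe_shiftH (n : ℤ) (z : ℍ) : ((shiftH n z : ℍ) : ℂ) = (z : ℂ) + n := rfl

theorem qParam_shiftH (N : ℕ) (hN : 0 < N) (n : ℤ) (z : ℍ) :
    𝕢 N (shiftH n z) = zetaN N ^ n * 𝕢 N z ^ 1 := by
  have hNC : (N : ℂ) ≠ 0 := by exact_mod_cast hN.ne'
  rw [pow_one, zetaN, ← Complex.exp_int_mul, Periodic.qParam, Periodic.qParam, ← Complex.exp_add,
    coe_shiftH]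
  congr 1
  push_cast
  field_simp
  ring

/-- If `f` is the sum of `L` in `q_N`, then `z ↦ f (z + n)` is the sum of `L(ζ_N^n t)`. -/
theorem HasQL.shift {N : ℕ} (hN : 0 < N) {f : ℍ → ℂ} {L : LaurentSeries ℂ} (hf : HasQL N f L)
    (n : ℤ) :
    HasQL N (fun z => f (shiftH n z)) (rotL (zetaN N ^ n) (zpow_ne_zero n (zetaN_ne_zero N)) L) := by
  have h1 := HasQL.comp_twist (h' := N) (zpow_ne_zero n (zetaN_ne_zero N)) one_pos hf
    (shiftH n) (fun τ => qParam_shiftH N hN n τ)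
  rw [rotL_apply, rotFun_eq_twistExpand]
  exact h1

theorem zetaN_zpow_eq_one_iff {N : ℕ} (hN : 0 < N) (m : ℤ) :
    zetaN N ^ m = 1 ↔ (N : ℤ) ∣ m := by
  have hNC : (N : ℂ) ≠ 0 := by exact_mod_cast hN.ne'
  rw [zetaN, ← Complex.exp_int_mul, Complex.exp_eq_one_iff]
  constructor
  · rintro ⟨k, hk⟩
    refine ⟨k, ?_⟩
    have h2 : (2 * Real.pi * Complex.I : ℂ) ≠ 0 := Complex.two_pi_I_ne_zero
    have h3 : (m : ℂ) = (N : ℂ) * k := by
      field_simp at hk
      linear_combination hk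
    exact_mod_cast h3
  · rintro ⟨k, rfl⟩
    refine ⟨k, ?_⟩
    push_cast
    field_simp

/-- If a Laurent series is invariant under `t ↦ ζ_N^h t`, then `N ∣ h n` for every exponent `n`
occurring in it. -/
theorem dvd_of_rotL_eq {N : ℕ} (hN : 0 < N) {L : LaurentSeries ℂ} (h : ℤ)
    (hL : rotL (zetaN N ^ h) (zpow_ne_zero h (zetaN_ne_zero N)) L = L) {n : ℤ}
    (hn : L.coeff n ≠ 0) : (N : ℤ) ∣ h * n := by
  have h1 := congrArg (fun x : LaurentSeries ℂ => x.coeff n) hL
  simp only [coeff_rotL] at h1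
  have h2 : (zetaN N ^ h) ^ n = 1 := by
    have : L.coeff n * ((zetaN N ^ h) ^ n - 1) = 0 := by
      rw [mul_sub, h1, mul_one, sub_self]
    rcases mul_eq_zero.mp this with h3 | h3
    · exact absurd h3 hn
    · exact sub_eq_zero.mp h3
  rw [← zpow_mul] at h2
  exact (zetaN_zpow_eq_one_iff hN _).mp h2

/-- Width divisibility: if `L ≠ 0` is invariant under `t ↦ ζ_N^h t`, then `N ∣ h · ord L`. -/
theorem dvd_order_of_rotL_eq {N : ℕ} (hN : 0 < N) {L : LaurentSeries ℂ} (hL0 : L ≠ 0) (h : ℤ)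
    (hL : rotL (zetaN N ^ h) (zpow_ne_zero h (zetaN_ne_zero N)) L = L) :
    (N : ℤ) ∣ h * L.order :=
  dvd_of_rotL_eq hN h hL (by rwa [ne_eq, HahnSeries.coeff_order_eq_zero])

/-- `T^n • z = z + n`. -/
theorem T_zpow_smul_eq_shiftH (n : ℤ) (z : ℍ) : (ModularGroup.T ^ n) • z = shiftH n z := by
  apply UpperHalfPlane.ext
  rw [coe_shiftH, coe_specialLinearGroup_apply]
  simp [ModularGroup.coe_T_zpow]

end Fermat.Agent.Lib.ModJ
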