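import Mathlib

/-!
# Item 68 (S24), F6 part 4 (pure field theory): from dependence relations to a degree bound

`F = K(g_i)`, `x ∈ F` transcendental over `K`; if any `n + 1` polynomial expressions in the `g_i`
are linearly dependent over `K[x]`, then `[F : K(x)] ≤ n`.
-/

set_option autoImplicit false

noncomputable section

open IntermediateField

namespace Fermat.Agent.Lib.ModJ

variable {K F : Type*} [Field K] [Field F] [Algebra K F] {ι : Type*}

/-- Step 1: dependence over `K⟮x⟯`. -/
theorem not_linearIndependent_of_dependence (g : ι → F) (x : F) (n : ℕ)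
    (hx : Transcendental K x)
    (hdep : ∀ Q : Fin (n + 1) → MvPolynomial ι K, ∃ p : Fin (n + 1) → Polynomial K, p ≠ 0 ∧
      ∑ k, Polynomial.aeval x (p k) * MvPolynomial.aeval g (Q k) = 0)
    (θ : Fin (n + 1) → F) (hθ : ∀ k, θ k ∈ (MvPolynomial.aeval g : MvPolynomial ι K →ₐ[K] F).range) :
    ¬ LinearIndependent K⟮x⟯ θ := by
  choose Q hQ using hθ
  obtain ⟨p, hp, hsum⟩ := hdep Q
  rw [Fintype.not_linearIndependent_iff]
  refine ⟨fun k => Polynomial.aeval (AdjoinSimple.gen K x) (p k), ?_, ?_⟩
  · rw [← hsum]
    refine Finset.sum_congr rfl (fun k _ => ?_)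
    rw [Algebra.smul_def, ← hQ k]
    congr 1
    rw [← Polynomial.aeval_algebraMap_apply, AdjoinSimple.algebraMap_gen]
  · have : ∃ k, p k ≠ 0 := by
      by_contra h
      push Not at h
      exact hp (funext h)
    obtain ⟨k, hk⟩ := this
    refine ⟨k, fun h0 => ?_⟩
    have h1 : Polynomial.aeval x (p k) = 0 := by
      have := congrArg (algebraMap K⟮x⟯ F) h0
      rwa [← Polynomial.aeval_algebraMap_apply, AdjoinSimple.algebraMap_gen, map_zero] at this
    exact hk ((transcendental_iff.mp hx) (p k) h1)

/-- Step 2: a set in which any `n + 1` elements are linearly dependent spans a space of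
dimension `≤ n`. -/
theorem finrank_span_le_of_dependent {k V : Type*} [Field k] [AddCommGroup V] [Module k V]
    (A : Set V) (n : ℕ)
    (h : ∀ θ : Fin (n + 1) → V, Function.Injective θ → (∀ i, θ i ∈ A) → ¬ LinearIndependent k θ) :
    FiniteDimensional k (Submodule.span k A) ∧ Module.finrank k (Submodule.span k A) ≤ n := by
  classical
  obtain ⟨b, hbA, hspan, hli⟩ := exists_linearIndependent k A
  have hb : b.encard ≤ n := by
    by_contra hlt
    rw [not_le] at hlt
    have h1 : ((n + 1 : ℕ) : ℕ∞) ≤ b.encard := by
      have := Order.add_one_le_of_lt hlt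
      simpa using this
    obtain ⟨t, htb, htcard⟩ := Set.exists_subset_encard_eq h1
    have htfin : t.Finite := Set.finite_of_encard_eq_coe htcard
    have hcard : htfin.toFinset.card = n + 1 := by
      have := htfin.encard_eq_coe_toFinset_card
      rw [htcard] at this
      exact_mod_cast this.symm
    let e : Fin (n + 1) ≃ htfin.toFinset := (Finset.equivFinOfCardEq hcard).symm
    let f : Fin (n + 1) → b := fun i => ⟨(e i : V), htb ((Set.Finite.mem_toFinset htfin).mp (e i).2)⟩
    have hf : Function.Injective f := by
      intro i j hij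
      have : ((e i : V)) = (e j : V) := congrArg (fun z : b => (z : V)) hij
      exact e.injective (Subtype.ext this)
    have hli' : LinearIndependent k (fun i => ((f i : b) : V)) := hli.comp f hf
    refine h (fun i => ((f i : b) : V)) ?_ (fun i => hbA (f i).2) hli'
    intro i j hij
    exact hf (Subtype.ext hij)
  rw [Set.encard_le_coe_iff_finite_ncard_le] at hb
  obtain ⟨hfin, hncard⟩ := hb
  let _ : Fintype b := hfin.fintype
  rw [← hspan]
  refine ⟨FiniteDimensional.span_of_finite k hfin, ?_⟩
  have hli2 : LinearIndepOn k id b := hli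
  rw [finrank_span_set_eq_card hli2]
  rw [Set.ncard_eq_toFinset_card' b] at hncard
  exact hncard

/-- a finite dimensional subalgebra of a field extension is closed under inverses -/
theorem inv_mem_of_finiteDimensional {k E : Type*} [Field k] [Field E] [Algebra k E]
    (S : Subalgebra k E) [FiniteDimensional k S] {z : E} (hz : z ∈ S) : z⁻¹ ∈ S := by
  rcases eq_or_ne z 0 with rfl | hz0
  · simp
  · have hfield : IsField S :=
      isField_of_isIntegral_of_isField' (R := k) (S := S) (Field.toIsField k)
    have hne : (⟨z, hz⟩ : S) ≠ 0 := fun h => hz0 (congrArg Subtype.val h)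
    obtain ⟨w, hw⟩ := hfield.mul_inv_cancel hne
    have h1 : z * (w : E) = 1 := congrArg Subtype.val hw
    have : z⁻¹ = (w : E) := by
      field_simp
      exact h1.symm
    rw [this]
    exact w.2

/-- **Degree bound from dependence relations.** -/
theorem finrank_le_of_dependence (g : ι → F)
    (hgen : IntermediateField.adjoin K (Set.range g) = ⊤) (x : F) (n : ℕ)
    (hx : Transcendental K x)
    (hdep : ∀ Q : Fin (n + 1) → MvPolynomial ι K, ∃ p : Fin (n + 1) → Polynomial K, p ≠ 0 ∧
      ∑ k, Polynomial.aeval x (p k) * MvPolynomial.aeval g (Q k) = 0) :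
    FiniteDimensional K⟮x⟯ F ∧ Module.finrank K⟮x⟯ F ≤ n := by
  classical
  set A : Subalgebra K F := (MvPolynomial.aeval g : MvPolynomial ι K →ₐ[K] F).range with hA
  obtain ⟨hfd, hrank⟩ := finrank_span_le_of_dependent (k := K⟮x⟯) (A : Set F) n
    (fun θ _ hθ => not_linearIndependent_of_dependence g x n hx hdep θ hθ)
  set S : Subalgebra K⟮x⟯ F := Algebra.adjoin K⟮x⟯ (A : Set F) with hS
  have hSV : Subalgebra.toSubmodule S = Submodule.span K⟮x⟯ (A : Set F) := by
    rw [hS, Algebra.adjoin_eq_span]
    congr 1
    exact congrArg (fun M : Submonoid F => (M : Set F))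
      (Submonoid.closure_eq A.toSubsemiring.toSubmonoid)
  have : FiniteDimensional K⟮x⟯ S := by
    have : FiniteDimensional K⟮x⟯ (Subalgebra.toSubmodule S) := by rw [hSV]; exact hfd
    exact this
  have htop : ∀ z : F, z ∈ S := by
    intro z
    have hz : z ∈ IntermediateField.adjoin K (Set.range g) := by rw [hgen]; trivial
    induction hz using IntermediateField.adjoin_induction with
    | mem y hy =>
      obtain ⟨i, rfl⟩ := hy
      refine Algebra.subset_adjoin ?_
      exact ⟨MvPolynomial.X i, by simp⟩
    | algebraMap c =>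
      rw [IsScalarTower.algebraMap_apply K K⟮x⟯ F]
      exact S.algebraMap_mem _
    | add y z _ _ hy hz => exact S.add_mem hy hz
    | inv y _ hy => exact inv_mem_of_finiteDimensional S hy
    | mul y z _ _ hy hz => exact S.mul_mem hy hz
  have hStop : S = ⊤ := by
    rw [eq_top_iff]
    intro z _
    exact htop z
  have hVtop : Submodule.span K⟮x⟯ (A : Set F) = ⊤ := by
    rw [← hSV, hStop]
    rfl
  rw [hVtop] at hfd hrank
  constructor
  · exact (LinearEquiv.finiteDimensional (Submodule.topEquiv (R := K⟮x⟯) (M := F)))
  · rwa [finrank_top] at hrank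

end Fermat.Agent.Lib.ModJ
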