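import Mathlib
import Fermat.Prelude.Thm_ModularForm_sturm_bound_Gamma0
import Fermat.Prelude.Thm_CongruenceSubgroup_one_mem_strictPeriods_Gamma0
import Fermat.Agent.S23.Primitive
import Fermat.Agent.Lib.ModJ.QExpKernel

/-!
# Item 68 (S24), F6 part 1: modular forms on `Γ₀(N)` at the level of functions, Sturm bound
-/

set_option autoImplicit false

noncomputable section

open UpperHalfPlane Function Complex ModularForm CongruenceSubgroup Matrix.SpecialLinearGroup
open scoped Manifold MatrixGroups ModularForm Pointwise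

namespace Fermat.Agent.Lib.ModJ

local notation "𝕢" => Periodic.qParam

variable (N : ℕ)

/-- `g` is (the function underlying) a modular form of weight `k` on `Γ₀(N)`. -/
def IsMF (k : ℤ) (g : ℍ → ℂ) : Prop :=
  ∃ f : ModularForm ((Gamma0 N).map (mapGL ℝ)) k, ⇑f = g

variable {N} {k k' : ℤ} {g g' : ℍ → ℂ}

theorem IsMF.cast (h : k = k') (hg : IsMF N k g) : IsMF N k' g := by
  subst h; exact hg

theorem IsMF.congr (hg : IsMF N k g) (h : ∀ z, g z = g' z) : IsMF N k g' := by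
  have : g = g' := funext h
  rwa [← this]

theorem IsMF.add (hg : IsMF N k g) (hg' : IsMF N k g') : IsMF N k (fun z => g z + g' z) := by
  obtain ⟨f, rfl⟩ := hg
  obtain ⟨f', rfl⟩ := hg'
  exact ⟨f + f', rfl⟩

theorem IsMF.const_mul (c : ℂ) (hg : IsMF N k g) : IsMF N k (fun z => c * g z) := by
  obtain ⟨f, rfl⟩ := hg
  exact ⟨c • f, rfl⟩

theorem IsMF.zero : IsMF N k (fun _ => 0) := ⟨0, rfl⟩

theorem IsMF.mul (hg : IsMF N k g) (hg' : IsMF N k' g') :
    IsMF N (k + k') (fun z => g z * g' z) := by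
  obtain ⟨f, rfl⟩ := hg
  obtain ⟨f', rfl⟩ := hg'
  exact ⟨f.mul f', rfl⟩

theorem IsMF.one : IsMF N 0 (fun _ => 1) := ⟨ModularForm.const 1, rfl⟩

theorem IsMF.pow (hg : IsMF N k g) (n : ℕ) : IsMF N (n * k) (fun z => g z ^ n) := by
  induction n with
  | zero => simpa using IsMF.one (N := N)
  | succ n ih =>
    have := ih.mul hg
    refine (this.cast ?_).congr (fun z => ?_)
    · push_cast; ring
    · simp [pow_succ]

theorem IsMF.sum {α : Type*} (s : Finset α) (G : α → ℍ → ℂ) (h : ∀ a ∈ s, IsMF N k (G a)) :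
    IsMF N k (fun z => ∑ a ∈ s, G a z) := by
  classical
  induction s using Finset.induction_on with
  | empty => simpa using IsMF.zero (N := N) (k := k)
  | insert a s ha ih =>
    have h1 := h a (Finset.mem_insert_self a s)
    have h2 := ih (fun b hb => h b (Finset.mem_insert_of_mem hb))
    refine (h1.add h2).congr (fun z => ?_)
    rw [Finset.sum_insert ha]

theorem IsMF.prod {α : Type*} (s : Finset α) (w : α → ℤ) (G : α → ℍ → ℂ)
    (h : ∀ a ∈ s, IsMF N (w a) (G a)) :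
    IsMF N (∑ a ∈ s, w a) (fun z => ∏ a ∈ s, G a z) := by
  classical
  induction s using Finset.induction_on with
  | empty => simpa using IsMF.one (N := N)
  | insert a s ha ih =>
    have h1 := h a (Finset.mem_insert_self a s)
    have h2 := ih (fun b hb => h b (Finset.mem_insert_of_mem hb))
    refine ((h1.mul h2).cast ?_).congr (fun z => ?_)
    · rw [Finset.sum_insert ha]
    · rw [Finset.prod_insert ha]

/-! ### Generators: `z ↦ f (d z)` for a level one form `f` and `d ∣ N` -/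

theorem gamma0_le_of_dvd {d N : ℕ} (h : d ∣ N) : Gamma0 N ≤ Gamma0 d := by
  intro γ hγ
  rw [Gamma0_mem] at hγ ⊢
  have h1 : (N : ℤ) ∣ γ 1 0 := (ZMod.intCast_zmod_eq_zero_iff_dvd _ _).mp hγ
  have h2 : (d : ℤ) ∣ γ 1 0 := (Int.natCast_dvd_natCast.mpr h).trans h1
  exact (ZMod.intCast_zmod_eq_zero_iff_dvd _ _).mpr h2

theorem alphaN_smul (d : ℕ+) (z : ℍ) :
    Fermat.Agent.S23.alphaN (d : ℕ) • z = pnatSMul d z := by
  apply UpperHalfPlane.ext
  rw [Fermat.Agent.S23.alphaN, Fermat.Agent.S22.Sep.coe_upInt_smul, coe_pnatSMul]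
  simp

theorem slash_alphaN_apply (k : ℤ) (f : ℍ → ℂ) (d : ℕ+) (z : ℍ) :
    (f ∣[k] Fermat.Agent.S23.alphaN (d : ℕ)) z
      = ((d : ℕ) : ℂ) ^ (k - 1) * f (pnatSMul d z) := by
  have hdet : 0 < (Fermat.Agent.S23.alphaN (d : ℕ)).det.val :=
    Fermat.Agent.S22.Sep.det_upInt_pos _ _ _ _ _
  rw [Fermat.Agent.S22.Sep.slash_apply_of_det_pos k f hdet, alphaN_smul]
  have e1 : denom (Fermat.Agent.S23.alphaN (d : ℕ)) z = 1 := by
    rw [Fermat.Agent.S23.alphaN, Fermat.Agent.S22.Sep.denom_upInt]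
    simp
  have e2 : ((Fermat.Agent.S23.alphaN (d : ℕ)).det.val : ℝ) = (d : ℕ) := by
    rw [Fermat.Agent.S23.alphaN, Fermat.Agent.S22.Sep.det_upInt]
    simp
  rw [e1, e2]
  simp
  ring

/-- `z ↦ f (d z)` is a modular form on `Γ₀(N)` for `d ∣ N` and `f` of level one. -/
theorem isMF_comp_pnatSMul {N : ℕ} {k : ℤ} {F : Type*} [FunLike F ℍ ℂ]
    [ModularFormClass F 𝒮ℒ k] (f : F) (d : ℕ+)
    (hd : (d : ℕ) ∣ N) : IsMF N k (fun z => f (pnatSMul d z)) := by
  have hle : (Gamma0 N).map (mapGL ℝ) ≤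
      ConjAct.toConjAct (Fermat.Agent.S23.alphaN (d : ℕ))⁻¹ • 𝒮ℒ :=
    (Subgroup.map_mono (gamma0_le_of_dvd hd)).trans (Fermat.Agent.S23.gamma0_le_conj (d : ℕ))
  let T := ModularForm.translate f (Fermat.Agent.S23.alphaN (d : ℕ))
  let F : ModularForm ((Gamma0 N).map (mapGL ℝ)) k :=
    { toFun := (⇑f) ∣[k] Fermat.Agent.S23.alphaN (d : ℕ)
      slash_action_eq' := fun γ hγ => T.slash_action_eq' γ (hle hγ)
      holo' := T.holo'
      bdd_at_cusps' := fun hc => T.bdd_at_cusps' (hc.mono hle) }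
  have hF : IsMF N k ((⇑f) ∣[k] Fermat.Agent.S23.alphaN (d : ℕ)) := ⟨F, rfl⟩
  have hd0 : (((d : ℕ) : ℂ) ^ (k - 1)) ≠ 0 :=
    zpow_ne_zero _ (by exact_mod_cast d.pos.ne')
  refine (hF.const_mul ((((d : ℕ) : ℂ) ^ (k - 1))⁻¹)).congr (fun z => ?_)
  rw [slash_alphaN_apply]
  field_simp

theorem isMF_E4 {N : ℕ} (d : ℕ+) (hd : (d : ℕ) ∣ N) : IsMF N 4 (fun z => E₄ (pnatSMul d z)) :=
  isMF_comp_pnatSMul E₄ d hd

theorem isMF_disc {N : ℕ} (d : ℕ+) (hd : (d : ℕ) ∣ N) :
    IsMF N 12 (fun z => ModularForm.discriminant (pnatSMul d z)) := by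
  have := isMF_comp_pnatSMul (N := N) (k := 12) CuspForm.discriminant d hd
  exact this

/-! ### The Sturm bound at the level of functions and Laurent series -/

/-- **Sturm bound**: if a modular form of weight `k` on `Γ₀(N)` is the sum of the Laurent series
`L` in `q`, and the coefficients of `L` of index `0, …, k · [SL₂(ℤ) : Γ₀(N)] / 12` vanish, then
`L = 0`. -/
theorem eq_zero_of_isMF {N : ℕ} [NeZero N] {k : ℤ} {g : ℍ → ℂ} (hg : IsMF N k g)
    {L : LaurentSeries ℂ} (hL : HasQL 1 g L)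
    (h : ∀ n : ℕ, n ≤ (k * (Gamma0 N).index).toNat / 12 → L.coeff (n : ℤ) = 0) : L = 0 := by
  obtain ⟨f, rfl⟩ := hg
  have hs : HasQ 1 (⇑f) (qExpansion 1 f) := fun τ =>
    ModularForm.hasSum_qExpansion (f := f) one_pos (one_mem_strictPeriods_Gamma0 N) τ
  have hL' : L = HahnSeries.ofPowerSeries ℤ ℂ (qExpansion 1 f) := hL.unique one_pos hs.hasQL
  have hf : f = 0 := by
    refine ModularForm.sturm_bound_Gamma0 N f (fun n hn => ?_)
    have := h n hn
    rwa [hL', HahnSeries.ofPowerSeries_apply_coeff] at this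
  rw [hL.eq_zero_iff one_pos]
  intro τ
  rw [hf]
  rfl

end Fermat.Agent.Lib.ModJ
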