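import Mathlib
import Fermat.Agent.Lib.ModJ.SturmForms

/-!
# Item 68 (S24), F6 part 2: the Sturm bound for polynomial expressions in the `j(d z)`
-/

set_option autoImplicit false

noncomputable section

open UpperHalfPlane Function Complex ModularForm CongruenceSubgroup Matrix.SpecialLinearGroup
open scoped Manifold MatrixGroups ModularForm Pointwise

namespace Fermat.Agent.Lib.ModJ

local notation "𝕢" => Periodic.qParam

/-! ### The formal discriminant -/

/-- the formal discriminant `q ∏ (1 - q^n)^24` over `ℚ` -/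
def deltaQ : LaurentSeries ℚ :=
  HahnSeries.ofPowerSeries ℤ ℚ
    ((PowerSeries.X * ModularCurve.dedekindEtaUnit).map (Int.castRingHom ℚ))

/-- the formal `Δ(q^e)` with coefficients in `K` -/
def deltaK (K : Type*) [Field K] [Algebra ℚ K] (e : ℕ+) : LaurentSeries K :=
  ModularCurve.coeffEmb K (ModularCurve.qExpand ℚ (e : ℕ) deltaQ)

theorem coeffEmb_deltaQ : ModularCurve.coeffEmb ℂ deltaQ
    = HahnSeries.ofPowerSeries ℤ ℂ (toC (PowerSeries.X * ModularCurve.dedekindEtaUnit)) := by
  rw [deltaQ, ModularCurve.coeffEmb]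
  ext n
  rw [ModularCurve.coeffMap_coeff]
  rcases lt_or_ge n 0 with hn | hn
  · rw [ModularCurve.ofPowerSeries_coeff_of_neg _ hn,
      ModularCurve.ofPowerSeries_coeff_of_neg _ hn, map_zero]
  · lift n to ℕ using hn
    rw [HahnSeries.ofPowerSeries_apply_coeff, HahnSeries.ofPowerSeries_apply_coeff,
      toC, PowerSeries.coeff_map, PowerSeries.coeff_map]
    simp

theorem hasQ_disc :
    HasQ 1 (fun τ => ModularForm.discriminant τ)
      (toC (PowerSeries.X * ModularCurve.dedekindEtaUnit)) := by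
  have h := hasQ_X.mul hasQ_eta24
  have e : toC (PowerSeries.X * ModularCurve.dedekindEtaUnit)
      = PowerSeries.X * toC ModularCurve.dedekindEtaUnit := by
    simp [toC]
  rw [e]
  exact h.congr (fun τ => (discriminant_eq τ).symm)

theorem hasQL_disc : HasQL 1 (fun τ => ModularForm.discriminant τ) (ModularCurve.coeffEmb ℂ deltaQ) := by
  rw [coeffEmb_deltaQ]
  exact hasQ_disc.hasQL

variable {K : Type*} [Field K] [Algebra ℚ K] (σ : K →+* ℂ)

theorem coeffMap_deltaK (e : ℕ+) :
    ModularCurve.coeffMap σ (deltaK K e)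
      = ModularCurve.qExpand ℂ (e : ℕ) (ModularCurve.coeffEmb ℂ deltaQ) := by
  rw [deltaK, coeffMap_coeffEmb', ModularCurve.coeffEmb, coeffMap_qExpand]

theorem hasQL_deltaK (e : ℕ+) :
    HasQL 1 (fun τ => ModularForm.discriminant (pnatSMul e τ))
      (ModularCurve.coeffMap σ (deltaK K e)) := by
  rw [coeffMap_deltaK]
  exact hasQL_disc.comp (e : ℕ) (pnatSMul e) (qParam_pnatSMul e)

include σ in
theorem deltaK_ne_zero (e : ℕ+) : deltaK K e ≠ 0 := by
  intro h
  have h1 := (hasQL_deltaK σ e).eq_zero_iff one_pos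
  rw [h, map_zero] at h1
  have := h1.mp rfl (⟨Complex.I, by simp⟩ : ℍ)
  exact discriminant_ne_zero _ this

theorem pow_eq_zero_iff_of_pos' {R : Type*} [MonoidWithZero R] [NoZeroDivisors R] {a : R} {n : ℕ}
    (h : a ^ n = 0) : a = 0 := by
  induction n with
  | zero => 
    rw [pow_zero] at h
    have : a = a * 1 := (mul_one a).symm
    rw [this, h, mul_zero]
  | succ n ih =>
    rw [pow_succ] at h
    rcases mul_eq_zero.mp h with h1 | h1
    · exact ih h1
    · exact h1

theorem HasQL.finset_prod {h : ℝ} {α : Type*} (s : Finset α) (G : α → ℍ → ℂ)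
    (L : α → LaurentSeries ℂ) (hG : ∀ a ∈ s, HasQL h (G a) (L a)) :
    HasQL h (fun z => ∏ a ∈ s, G a z) (∏ a ∈ s, L a) := by
  classical
  induction s using Finset.induction_on with
  | empty => simpa using hasQL_one (h := h)
  | insert a s ha ih =>
    have h1 := hG a (Finset.mem_insert_self a s)
    have h2 := ih (fun b hb => hG b (Finset.mem_insert_of_mem hb))
    rw [Finset.prod_insert ha]
    refine (h1.mul h2).congr (fun z => ?_)
    rw [Finset.prod_insert ha]

variable {ι : Type*} [Fintype ι] (d : ι → ℕ+) {N : ℕ}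

/-- the analytic function `R(j(d_i z)) · ∏ Δ(d_i z)^{b_i}` -/
def GanFun (R : MvPolynomial ι K) (b : ι → ℕ) (z : ℍ) : ℂ :=
  MvPolynomial.eval₂ σ (fun i => jFunD (d i) z) R
    * ∏ i, ModularForm.discriminant (pnatSMul (d i) z) ^ b i

/-- the formal series `R(jq(q^{d_i})) · ∏ Δ(q^{d_i})^{b_i}` -/
def GfSer (R : MvPolynomial ι K) (b : ι → ℕ) : LaurentSeries K :=
  MvPolynomial.aeval (fun i => jqK K (d i)) R * ∏ i, deltaK K (d i) ^ b i

theorem hasQL_GanFun (R : MvPolynomial ι K) (b : ι → ℕ) :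
    HasQL 1 (GanFun σ d R b) (ModularCurve.coeffMap σ (GfSer d R b)) := by
  rw [GfSer, map_mul, map_prod]
  refine (hasQL_eval σ d R).mul ?_
  refine HasQL.finset_prod _ _ _ (fun i _ => ?_)
  rw [map_pow]
  exact (hasQL_deltaK σ (d i)).pow (b i)

theorem isMF_factor (hd : ∀ i, (d i : ℕ) ∣ N) (i : ι) {m n : ℕ} (hmn : m ≤ n) :
    IsMF N (12 * (n : ℤ))
      (fun z => jFunD (d i) z ^ m * ModularForm.discriminant (pnatSMul (d i) z) ^ n) := by
  have h1 := ((isMF_E4 (N := N) (d i) (hd i)).pow 3).pow m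
  have h2 := (isMF_disc (N := N) (d i) (hd i)).pow (n - m)
  refine ((h1.mul h2).cast ?_).congr (fun z => ?_)
  · push_cast [Nat.cast_sub hmn]
    ring
  · have hne := discriminant_ne_zero (pnatSMul (d i) z)
    simp only [jFunD, jFun]
    rw [div_pow, ← Nat.sub_add_cancel hmn, pow_add _ (n - m) m, Nat.sub_add_cancel hmn]
    field_simp

theorem isMF_GanFun (hd : ∀ i, (d i : ℕ) ∣ N) (R : MvPolynomial ι K) (b : ι → ℕ)
    (hb : ∀ i, R.degreeOf i ≤ b i) :
    IsMF N (12 * ∑ i, (b i : ℤ)) (GanFun σ d R b) := by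
  have key : ∀ z, GanFun σ d R b z = ∑ μ ∈ R.support, σ (R.coeff μ) *
      ∏ i, (jFunD (d i) z ^ μ i * ModularForm.discriminant (pnatSMul (d i) z) ^ b i) := by
    intro z
    rw [GanFun, MvPolynomial.eval₂_eq', Finset.sum_mul]
    refine Finset.sum_congr rfl (fun μ _ => ?_)
    rw [Finset.prod_mul_distrib]
    ring
  refine IsMF.congr ?_ (fun z => (key z).symm)
  refine IsMF.sum _ _ (fun μ hμ => ?_)
  refine IsMF.const_mul _ ?_
  have := IsMF.prod (N := N) Finset.univ (fun i => 12 * (b i : ℤ))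
    (fun i z => jFunD (d i) z ^ μ i * ModularForm.discriminant (pnatSMul (d i) z) ^ b i)
    (fun i _ => isMF_factor d hd i ((MvPolynomial.monomial_le_degreeOf i hμ).trans (hb i)))
  refine this.cast ?_
  rw [Finset.mul_sum]

include σ in
/-- **Sturm bound for polynomial expressions in the `jq(q^{d_i})`.** -/
theorem sturm_core [NeZero N] (hd : ∀ i, (d i : ℕ) ∣ N) (R : MvPolynomial ι K) (b : ι → ℕ)
    (hb : ∀ i, R.degreeOf i ≤ b i)
    (h : ∀ n : ℕ, n ≤ (∑ i, b i) * (Gamma0 N).index → (GfSer d R b).coeff (n : ℤ) = 0) :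
    MvPolynomial.aeval (fun i => jqK K (d i)) R = 0 := by
  have h1 := eq_zero_of_isMF (isMF_GanFun σ d hd R b hb) (hasQL_GanFun σ d R b) (fun n hn => by
    rw [ModularCurve.coeffMap_coeff, h n ?_, map_zero]
    have e : (12 * ∑ i, (b i : ℤ)) * ((Gamma0 N).index : ℤ)
        = ((12 * ((∑ i, b i) * (Gamma0 N).index) : ℕ) : ℤ) := by
      push_cast; ring
    rw [e, Int.toNat_natCast, Nat.mul_div_cancel_left _ (by norm_num)] at hn
    exact hn)
  have h2 : GfSer d R b = 0 := coeffMap_injective σ σ.injective (by rw [h1, map_zero])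
  rw [GfSer] at h2
  rcases mul_eq_zero.mp h2 with h3 | h3
  · exact h3
  · exfalso
    rw [Finset.prod_eq_zero_iff] at h3
    obtain ⟨i, _, hi⟩ := h3
    exact deltaK_ne_zero σ (d i) (pow_eq_zero_iff_of_pos' hi)

end Fermat.Agent.Lib.ModJ
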