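import Mathlib
import Fermat.Agent.Lib.ModJ.SturmCore

/-!
# Item 68 (S24), F6 part 3: any `n + 1 > [SL₂(ℤ) : Γ₀(N)]` polynomial expressions in the
`jq(q^d)`, `d ∣ N`, are linearly dependent over `K[jq]`.
-/

set_option autoImplicit false

noncomputable section

open UpperHalfPlane Function Complex ModularForm CongruenceSubgroup Matrix.SpecialLinearGroup
open scoped Manifold MatrixGroups ModularForm Pointwise

namespace Fermat.Agent.Lib.ModJ

variable {K : Type*} [Field K] [Algebra ℚ K] (σ : K →+* ℂ)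
variable {ι : Type*} [Fintype ι] [DecidableEq ι] (d : ι → ℕ+) {N : ℕ}

/-- the family `X_{i₁}^a · Q_k` -/
def depFam (i₁ : ι) {m n : ℕ} (Q : Fin (n + 1) → MvPolynomial ι K) :
    Fin (m + 1) × Fin (n + 1) → MvPolynomial ι K :=
  fun ak => MvPolynomial.X i₁ ^ (ak.1 : ℕ) * Q ak.2

/-- the exponent bounds -/
def depBound (i₁ : ι) (m e : ℕ) : ι → ℕ := fun i => e + if i = i₁ then m else 0

omit [Fintype ι] in
theorem degreeOf_depFam_le (i₁ : ι) {m n e : ℕ} (Q : Fin (n + 1) → MvPolynomial ι K)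
    (he : ∀ k i, (Q k).degreeOf i ≤ e) (ak : Fin (m + 1) × Fin (n + 1)) (i : ι) :
    (depFam i₁ Q ak).degreeOf i ≤ depBound i₁ m e i := by
  rw [depFam, depBound]
  refine (MvPolynomial.degreeOf_mul_le _ _ _).trans ?_
  have h1 : (MvPolynomial.X i₁ ^ (ak.1 : ℕ) : MvPolynomial ι K).degreeOf i
      ≤ if i = i₁ then m else 0 := by
    refine (MvPolynomial.degreeOf_pow_le _ _ _).trans ?_
    rw [MvPolynomial.degreeOf_X]
    by_cases h : i = i₁
    · subst h
      simp only [if_true, mul_one]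
      have := ak.1.2
      omega
    · have h' : ¬ (i₁ = i) := fun e => h e.symm
      simp [h, h']
  have h2 := he ak.2 i
  omega

omit [Fintype ι] in
theorem degreeOf_linearCombination_le (i₁ : ι) {m n e : ℕ} (Q : Fin (n + 1) → MvPolynomial ι K)
    (he : ∀ k i, (Q k).degreeOf i ≤ e) (c : Fin (m + 1) × Fin (n + 1) → K) (i : ι) :
    (∑ ak, c ak • depFam i₁ Q ak).degreeOf i ≤ depBound i₁ m e i := by
  refine (MvPolynomial.degreeOf_sum_le _ _ _).trans ?_
  refine Finset.sup_le (fun ak _ => ?_)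
  rw [MvPolynomial.smul_eq_C_mul]
  exact (MvPolynomial.degreeOf_C_mul_le _ _ _).trans (degreeOf_depFam_le i₁ Q he ak i)

theorem sum_depBound (i₁ : ι) (m e : ℕ) :
    ∑ i, depBound i₁ m e i = Fintype.card ι * e + m := by
  simp [depBound, Finset.sum_add_distrib, Finset.sum_ite_eq']

theorem coeff_algebraMap_mul (a : K) (L : LaurentSeries K) (n : ℤ) :
    (algebraMap K (LaurentSeries K) a * L).coeff n = a * L.coeff n := by
  rw [ModularCurve.algebraMap_laurentSeries_eq_single, HahnSeries.coeff_single_mul, sub_zero]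

theorem GfSer_add (R R' : MvPolynomial ι K) (b : ι → ℕ) :
    GfSer d (R + R') b = GfSer d R b + GfSer d R' b := by
  simp only [GfSer, map_add, add_mul]

theorem GfSer_smul (a : K) (R : MvPolynomial ι K) (b : ι → ℕ) (n : ℤ) :
    (GfSer d (a • R) b).coeff n = a * (GfSer d R b).coeff n := by
  simp only [GfSer]
  rw [MvPolynomial.smul_eq_C_mul, map_mul, MvPolynomial.aeval_C, mul_assoc, coeff_algebraMap_mul]

/-- the linear map `c ↦` first coefficients of `(Σ c_{a,k} x^a θ_k) · ∏ Δ_i^{b_i}` -/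
def depLin (i₁ : ι) (m n e B : ℕ) (Q : Fin (n + 1) → MvPolynomial ι K) :
    (Fin (m + 1) × Fin (n + 1) → K) →ₗ[K] (Fin (B + 1) → K) where
  toFun c := fun n' =>
    (GfSer d (∑ ak, c ak • depFam i₁ Q ak) (depBound i₁ m e)).coeff ((n' : ℕ) : ℤ)
  map_add' c c' := by
    funext n'
    simp only [Pi.add_apply, add_smul, Finset.sum_add_distrib, GfSer_add, HahnSeries.coeff_add]
  map_smul' a c := by
    funext n'
    simp only [Pi.smul_apply, smul_eq_mul, RingHom.id_apply]
    rw [← GfSer_smul, Finset.smul_sum]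
    congr 2
    refine Finset.sum_congr rfl (fun ak _ => ?_)
    rw [smul_smul]

theorem depLin_apply (i₁ : ι) (m n e B : ℕ) (Q : Fin (n + 1) → MvPolynomial ι K)
    (c : Fin (m + 1) × Fin (n + 1) → K) (n' : Fin (B + 1)) :
    depLin d i₁ m n e B Q c n'
      = (GfSer d (∑ ak, c ak • depFam i₁ Q ak) (depBound i₁ m e)).coeff ((n' : ℕ) : ℤ) := rfl

include σ in
/-- **Dependence**: any `n + 1` polynomial expressions `θ_k` in the `jq(q^{d_i})` (`d_i ∣ N`,
`n ≥ [SL₂(ℤ) : Γ₀(N)]`) satisfy a non-trivial relation `Σ c_{a,k} x^a θ_k = 0` with `x = jq(q^{d_{i₁}})`. -/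
theorem exists_dependence_aux [NeZero N] (hd : ∀ i, (d i : ℕ) ∣ N) (i₁ : ι) (n : ℕ)
    (hn : (Gamma0 N).index ≤ n) (Q : Fin (n + 1) → MvPolynomial ι K) :
    ∃ (m : ℕ) (c : Fin (m + 1) × Fin (n + 1) → K), c ≠ 0 ∧
      MvPolynomial.aeval (fun i => jqK K (d i)) (∑ ak, c ak • depFam i₁ Q ak) = 0 := by
  classical
  -- the degree bound `e`
  obtain ⟨e, he⟩ : ∃ e : ℕ, ∀ k i, (Q k).degreeOf i ≤ e := by
    refine ⟨∑ k, (Q k).totalDegree, fun k i => ?_⟩
    refine (MvPolynomial.degreeOf_le_totalDegree _ _).trans ?_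
    exact Finset.single_le_sum (f := fun k => (Q k).totalDegree) (fun _ _ => Nat.zero_le _)
      (Finset.mem_univ k)
  set ψ := (Gamma0 N).index with hψ
  set s₀ := Fintype.card ι with hs₀
  set m := s₀ * e * ψ + 1 with hm
  set B := (s₀ * e + m) * ψ with hB
  have hcount : B + 1 < (m + 1) * (n + 1) := by
    have h1 : (m + 1) * (ψ + 1) ≤ (m + 1) * (n + 1) :=
      Nat.mul_le_mul_left _ (Nat.succ_le_succ hn)
    have h2 : B + 1 < (m + 1) * (ψ + 1) := by
      rw [hB, hm]
      ring_nf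
      omega
    omega
  have hker : LinearMap.ker (depLin d i₁ m n e B Q) ≠ ⊥ := by
    apply LinearMap.ker_ne_bot_of_finrank_lt
    rw [Module.finrank_fintype_fun_eq_card, Module.finrank_fintype_fun_eq_card,
      Fintype.card_prod, Fintype.card_fin, Fintype.card_fin, Fintype.card_fin]
    exact hcount
  obtain ⟨c, hc, hc0⟩ := Submodule.exists_mem_ne_zero_of_ne_bot hker
  refine ⟨m, c, hc0, ?_⟩
  refine sturm_core σ d hd _ (depBound i₁ m e)
    (fun i => degreeOf_linearCombination_le i₁ Q he c i) (fun n' hn' => ?_)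
  rw [sum_depBound] at hn'
  have hlt : n' < B + 1 := Nat.lt_succ_of_le hn'
  have := congrFun (LinearMap.mem_ker.mp hc) ⟨n', hlt⟩
  rw [depLin_apply] at this
  simpa using this

end Fermat.Agent.Lib.ModJ
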