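import Mathlib
import Fermat.Prelude.Def_ModularCurve_ArithmeticGalois
import Fermat.Agent.Lib.Gamma0Count.PrimCount
import Fermat.Agent.Lib.ModJ.SturmDep
import Fermat.Agent.Lib.ModJ.DegreeGlue

/-!
# Item 68 (S24), F6: `[F : K(j)] ≤ ψ(N)` for the function field of `X₀(N)`
-/

set_option autoImplicit false

noncomputable section

open IntermediateField CongruenceSubgroup
open scoped MatrixGroups

namespace Fermat.Agent.Lib.ModJ

variable {K : Type*} [Field K] [Algebra ℚ K]

/-! ### `jq` is transcendental -/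

theorem coeff_jqK_one_pow_self (a : ℕ) : ((jqK K 1) ^ a).coeff (-(a : ℤ)) = 1 := by
  have : (jqK K 1) ^ a = ModularCurve.coeffEmb K (ModularCurve.jq ^ a) := by
    rw [jqK, map_pow]
    congr 2
    exact ModularCurve.qExpand_one_apply _
  rw [this, ModularCurve.coeffEmb_coeff, ModularCurve.coeff_jq_pow_self, map_one]

theorem coeff_jqK_one_pow_of_lt {a : ℕ} {m : ℤ} (hm : m < -(a : ℤ)) :
    ((jqK K 1) ^ a).coeff m = 0 := by
  have : (jqK K 1) ^ a = ModularCurve.coeffEmb K (ModularCurve.jq ^ a) := by
    rw [jqK, map_pow]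
    congr 2
    exact ModularCurve.qExpand_one_apply _
  rw [this, ModularCurve.coeffEmb_coeff, ModularCurve.coeff_jq_pow_of_lt hm, map_zero]

theorem coeff_aeval_jqK (p : Polynomial K) :
    (Polynomial.aeval (jqK K 1) p).coeff (-(p.natDegree : ℤ)) = p.leadingCoeff := by
  rw [Polynomial.aeval_eq_sum_range, ← HahnSeries.coeff.addMonoidHom_apply, map_sum]
  simp only [HahnSeries.coeff.addMonoidHom_apply]
  rw [Finset.sum_eq_single p.natDegree]
  · rw [Algebra.smul_def, coeff_algebraMap_mul, coeff_jqK_one_pow_self, mul_one]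
    rfl
  · intro a ha hne
    rw [Algebra.smul_def, coeff_algebraMap_mul, coeff_jqK_one_pow_of_lt, mul_zero]
    have : a < p.natDegree := lt_of_le_of_ne (Nat.lt_succ_iff.mp (Finset.mem_range.mp ha)) hne
    omega
  · intro h
    exact absurd (Finset.mem_range.mpr (Nat.lt_succ_self _)) h

theorem transcendental_jqK : Transcendental K (jqK K 1) := by
  rw [transcendental_iff]
  intro p hp
  by_contra hne
  have := coeff_aeval_jqK p
  rw [hp] at this
  exact (Polynomial.leadingCoeff_ne_zero.mpr hne) this.symm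

/-! ### Generators of the function field -/

variable (K) (N : ℕ) [NeZero N]

/-- the function field of `X₀(N)` over `K` (for `K = ℚ̄` this is `modularFunctionFieldBar N`) -/
abbrev FFK : IntermediateField K (LaurentSeries K) :=
  ModularCurve.laurentBaseChange K (ModularCurve.modularFunctionFieldFull N)

/-- the index set: divisors of `N` -/
abbrev DivN : Type := {i : ℕ // i ∈ N.divisors}

/-- the divisors as positive integers -/
def divPNat (i : DivN N) : ℕ+ := ⟨i.1, Nat.pos_of_mem_divisors i.2⟩

omit [NeZero N] in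
theorem divPNat_dvd (i : DivN N) : ((divPNat N i : ℕ+) : ℕ) ∣ N := Nat.dvd_of_mem_divisors i.2

/-- the divisor `1` -/
def divOne : DivN N := ⟨1, Nat.one_mem_divisors.mpr (NeZero.ne N)⟩

theorem divPNat_divOne : divPNat N (divOne N) = 1 := rfl

omit [NeZero N] in
theorem jqK_mem (i : DivN N) : jqK K (divPNat N i) ∈ FFK K N :=
  ModularCurve.coeffEmb_mem_laurentBaseChange K
    (ModularCurve.jqd_mem_full N (divPNat_dvd N i))

/-- the generators `jq(q^d)`, `d ∣ N`, as elements of the function field -/
def genFK (i : DivN N) : FFK K N := ⟨jqK K (divPNat N i), jqK_mem K N i⟩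

omit [NeZero N] in
theorem coeffEmb_algebraMap (c : ℚ) :
    ModularCurve.coeffEmb K (algebraMap ℚ (LaurentSeries ℚ) c)
      = algebraMap K (LaurentSeries K) (algebraMap ℚ K c) := by
  rw [ModularCurve.algebraMap_apply_eq_single, ModularCurve.algebraMap_laurentSeries_eq_single,
    ModularCurve.coeffEmb, ModularCurve.coeffMap_single]

theorem coeffEmb_mem_adjoin {y : LaurentSeries ℚ}
    (hy : y ∈ IntermediateField.adjoin ℚ (ModularCurve.divisorExpansions N)) :
    ModularCurve.coeffEmb K y
      ∈ IntermediateField.adjoin K (Set.range fun i : DivN N => jqK K (divPNat N i)) := by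
  induction hy using IntermediateField.adjoin_induction with
  | mem z hz =>
    obtain ⟨e, hne, hdvd, rfl⟩ := hz
    refine IntermediateField.subset_adjoin K _ ?_
    exact ⟨⟨e, Nat.mem_divisors.mpr ⟨hdvd, NeZero.ne N⟩⟩, rfl⟩
  | algebraMap c =>
    rw [coeffEmb_algebraMap]
    exact IntermediateField.algebraMap_mem _ _
  | add y z _ _ hy hz =>
    rw [map_add]
    exact add_mem hy hz
  | inv y _ hy =>
    rw [map_inv₀]
    exact inv_mem hy
  | mul y z _ _ hy hz =>
    rw [map_mul]
    exact mul_mem hy hz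

theorem FFK_le_adjoin :
    FFK K N ≤ IntermediateField.adjoin K (Set.range fun i : DivN N => jqK K (divPNat N i)) := by
  rw [FFK, ModularCurve.laurentBaseChange, IntermediateField.adjoin_le_iff]
  rintro _ ⟨y, hy, rfl⟩
  exact coeffEmb_mem_adjoin K N hy

theorem adjoin_genFK_eq_top : IntermediateField.adjoin K (Set.range (genFK K N)) = ⊤ := by
  rw [eq_top_iff]
  intro z _
  have h1 : ((IntermediateField.adjoin K (Set.range (genFK K N))).map (FFK K N).val)
      = IntermediateField.adjoin K (Set.range fun i : DivN N => jqK K (divPNat N i)) := by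
    rw [IntermediateField.adjoin_map]
    congr 1
    ext w
    constructor
    · rintro ⟨_, ⟨i, rfl⟩, rfl⟩
      exact ⟨i, rfl⟩
    · rintro ⟨i, rfl⟩
      exact ⟨genFK K N i, ⟨i, rfl⟩, rfl⟩
  have h2 : (z : LaurentSeries K) ∈
      (IntermediateField.adjoin K (Set.range (genFK K N))).map (FFK K N).val := by
    rw [h1]
    exact FFK_le_adjoin K N z.2
  obtain ⟨w, hw, hwz⟩ := h2
  have : w = z := Subtype.ext hwz
  rwa [← this]

/-! ### The degree bound -/

omit [NeZero N] in
theorem val_aeval_genFK (Q : MvPolynomial (DivN N) K) :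
    ((MvPolynomial.aeval (genFK K N) Q : FFK K N) : LaurentSeries K)
      = MvPolynomial.aeval (fun i => jqK K (divPNat N i)) Q := by
  have : ((FFK K N).val).comp (MvPolynomial.aeval (genFK K N))
      = MvPolynomial.aeval (fun i => jqK K (divPNat N i)) := by
    refine MvPolynomial.algHom_ext (fun i => ?_)
    simp [genFK]
  exact congrArg (fun f : MvPolynomial (DivN N) K →ₐ[K] LaurentSeries K => f Q) this

omit [NeZero N] in
theorem val_aeval_poly (x : FFK K N) (p : Polynomial K) :
    ((Polynomial.aeval x p : FFK K N) : LaurentSeries K)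
      = Polynomial.aeval (x : LaurentSeries K) p :=
  (Polynomial.aeval_algHom_apply (FFK K N).val x p).symm

theorem index_Gamma0 : (Gamma0 N).index = ModularCurve.dedekindPsi N :=
  Fermat.Agent.Lib.Gamma0Count.card_quotient N

variable {K}

/-- the polynomials `p_k = Σ_a c_{a,k} X^a` -/
def depPoly {m n : ℕ} (c : Fin (m + 1) × Fin (n + 1) → K) (k : Fin (n + 1)) : Polynomial K :=
  ∑ a : Fin (m + 1), Polynomial.monomial (a : ℕ) (c (a, k))

omit [Algebra ℚ K] in
theorem depPoly_coeff {m n : ℕ} (c : Fin (m + 1) × Fin (n + 1) → K) (k : Fin (n + 1))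
    (a : Fin (m + 1)) : (depPoly c k).coeff (a : ℕ) = c (a, k) := by
  rw [depPoly, Polynomial.finsetSum_coeff, Finset.sum_eq_single a]
  · simp
  · intro b _ hb
    rw [Polynomial.coeff_monomial, if_neg]
    exact fun h => hb (Fin.ext h)
  · intro h
    exact absurd (Finset.mem_univ a) h

omit [Algebra ℚ K] in
theorem depPoly_ne_zero {m n : ℕ} {c : Fin (m + 1) × Fin (n + 1) → K} (hc : c ≠ 0) :
    depPoly c ≠ 0 := by
  intro h
  apply hc
  funext ⟨a, k⟩
  have := depPoly_coeff c k a
  rw [h] at this
  simpa using this.symm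

omit [NeZero N] in
theorem aeval_depFam_sum {m n : ℕ} (c : Fin (m + 1) × Fin (n + 1) → K)
    (Q : Fin (n + 1) → MvPolynomial (DivN N) K) (i₁ : DivN N) :
    MvPolynomial.aeval (fun i => jqK K (divPNat N i)) (∑ ak, c ak • depFam i₁ Q ak)
      = ∑ k, Polynomial.aeval (jqK K (divPNat N i₁)) (depPoly c k)
          * MvPolynomial.aeval (fun i => jqK K (divPNat N i)) (Q k) := by
  rw [map_sum, Fintype.sum_prod_type, Finset.sum_comm]
  refine Finset.sum_congr rfl (fun k _ => ?_)
  rw [depPoly, map_sum, Finset.sum_mul]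
  refine Finset.sum_congr rfl (fun a _ => ?_)
  rw [MvPolynomial.smul_eq_C_mul, depFam, map_mul, map_mul, map_pow, MvPolynomial.aeval_C,
    MvPolynomial.aeval_X, Polynomial.aeval_monomial]
  ring

/-- **Dependence** in the function field. -/
theorem exists_dependence (σ : K →+* ℂ) (x : FFK K N) (hx : (x : LaurentSeries K) = jqK K 1)
    (Q : Fin (ModularCurve.dedekindPsi N + 1) → MvPolynomial (DivN N) K) :
    ∃ p : Fin (ModularCurve.dedekindPsi N + 1) → Polynomial K, p ≠ 0 ∧
      ∑ k, Polynomial.aeval x (p k) * MvPolynomial.aeval (genFK K N) (Q k) = 0 := by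
  obtain ⟨m, c, hc, h0⟩ := exists_dependence_aux σ (divPNat N) (divPNat_dvd N) (divOne N)
    (ModularCurve.dedekindPsi N) (index_Gamma0 N).le Q
  refine ⟨depPoly c, depPoly_ne_zero hc, ?_⟩
  apply Subtype.ext
  rw [aeval_depFam_sum, divPNat_divOne] at h0
  rw [ZeroMemClass.coe_zero, ← h0]
  simp only [IntermediateField.coe_sum, IntermediateField.coe_mul, val_aeval_genFK,
    val_aeval_poly, hx]

/-- **F6 (B4')**: `x = jq` is transcendental over `K`, the function field `F` of `X₀(N)` is finite
over `K(x)`, and `[F : K(x)] ≤ ψ(N)`. -/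
theorem finrank_le_dedekindPsi (σ : K →+* ℂ) (x : FFK K N)
    (hx : (x : LaurentSeries K) = ModularCurve.coeffEmb K ModularCurve.jq) :
    Transcendental K x ∧ FiniteDimensional K⟮x⟯ (FFK K N) ∧
      Module.finrank K⟮x⟯ (FFK K N) ≤ ModularCurve.dedekindPsi N := by
  have hx' : (x : LaurentSeries K) = jqK K 1 := by
    rw [hx, jqK]
    congr 1
    exact (ModularCurve.qExpand_one_apply _).symm
  have htr : Transcendental K x := by
    rw [transcendental_iff]
    intro p hp
    have h1 := val_aeval_poly K N x p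
    rw [hp, hx'] at h1
    exact (transcendental_iff.mp transcendental_jqK) p h1.symm
  exact ⟨htr, finrank_le_of_dependence (genFK K N) (adjoin_genFK_eq_top K N) x
    (ModularCurve.dedekindPsi N) htr (exists_dependence N σ x hx')⟩

/-- the same for `K = ℚ̄` and the prelude's `modularFunctionFieldBar N` -/
theorem finrank_le_dedekindPsi_bar (x : ModularCurve.modularFunctionFieldBar N)
    (hx : (x : LaurentSeries (AlgebraicClosure ℚ))
      = ModularCurve.coeffEmb (AlgebraicClosure ℚ) ModularCurve.jq) :
    Transcendental (AlgebraicClosure ℚ) x ∧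
      FiniteDimensional (AlgebraicClosure ℚ)⟮x⟯ (ModularCurve.modularFunctionFieldBar N) ∧
      Module.finrank (AlgebraicClosure ℚ)⟮x⟯ (ModularCurve.modularFunctionFieldBar N)
        ≤ ModularCurve.dedekindPsi N :=
  finrank_le_dedekindPsi N iotaQbar x hx

end Fermat.Agent.Lib.ModJ
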