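import Fermat.Agent.Lib.ModJ.Surj

namespace Fermat.Agent.Lib.ModJ

open UpperHalfPlane hiding I
open ModularForm Complex MatrixGroups CongruenceSubgroup Filter Topology Derivative
open scoped Manifold

local notation "𝕢" => Function.Periodic.qParam

theorem hasDerivAt_qParam_one (w : ℂ) :
    HasDerivAt (𝕢 1) (2 * Real.pi * I * 𝕢 1 w) w := by
  have h1 : HasDerivAt (fun z : ℂ => 2 * Real.pi * I * z / (1 : ℝ)) (2 * Real.pi * I) w := by
    simpa using (hasDerivAt_id w).const_mul (2 * Real.pi * I)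
  have h2 := h1.cexp
  have e : cexp (2 * Real.pi * I * w / ((1 : ℝ) : ℂ)) * (2 * Real.pi * I)
      = 2 * Real.pi * I * 𝕢 1 w := by
    rw [mul_comm]; rfl
  rw [e] at h2
  exact h2

theorem D_eq_qParam_mul_deriv {k : ℤ} (f : ModularForm 𝒮ℒ k) (z : ℍ) :
    D f z = 𝕢 1 z * deriv (cuspFunction 1 f) (𝕢 1 z) := by
  have hq : ‖𝕢 1 (z : ℂ)‖ < 1 := Function.Periodic.norm_qParam_lt_one one_pos z.im_pos
  have hF := (ModularFormClass.differentiableAt_cuspFunction f one_pos
    one_mem_strictPeriods_SL hq).hasDerivAt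
  have hcomp := hF.comp (z : ℂ) (hasDerivAt_qParam_one z)
  have heq : (f ∘ ofComplex) =ᶠ[𝓝 (z : ℂ)] (cuspFunction 1 f ∘ 𝕢 1) := by
    filter_upwards [(isOpen_lt continuous_const Complex.continuous_im).mem_nhds z.im_pos] with w hw
    have := SlashInvariantFormClass.eq_cuspFunction f ⟨w, hw⟩ one_mem_strictPeriods_SL one_ne_zero
    simp only [Function.comp_apply, ofComplex_apply_of_im_pos hw]
    exact this.symm
  have hd : deriv (f ∘ ofComplex) z = _ := (hcomp.congr_of_eventuallyEq heq).deriv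
  rw [normalizedDerivOfComplex, hd]
  have hpi : (2 * Real.pi * I : ℂ) ≠ 0 := by
    simp [Real.pi_ne_zero]
  field_simp

theorem tendsto_deriv_cuspFunction {k : ℤ} (f : ModularForm 𝒮ℒ k) :
    Tendsto (fun z : ℍ => deriv (cuspFunction 1 f) (𝕢 1 z)) atImInfty
      (𝓝 ((qExpansion 1 f).coeff 1)) := by
  have han := ModularFormClass.analyticAt_cuspFunction_zero f one_pos one_mem_strictPeriods_SL
  have hc : ContinuousAt (deriv (cuspFunction 1 f)) 0 := han.deriv.continuousAt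
  have h1 : (qExpansion 1 f).coeff 1 = deriv (cuspFunction 1 f) 0 := by
    simp [qExpansion_coeff]
  rw [h1]
  exact hc.tendsto.comp (qParam_tendsto_atImInfty (h := 1) one_pos)

/-- The Wronskian-type combination `3 (D E₄) E₆ − 2 E₄ (D E₆)`. -/
noncomputable def wFun (z : ℍ) : ℂ := 3 * D E₄ z * E₆ z - 2 * E₄ z * D E₆ z

theorem tendsto_wFun_div_q :
    Tendsto (fun z : ℍ => wFun z / 𝕢 1 z) atImInfty (𝓝 1728) := by
  have h4 := tendsto_deriv_cuspFunction E₄
  have h6 := tendsto_deriv_cuspFunction E₆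
  rw [E₄_qExpansion_coeff_one] at h4
  rw [E₆_qExpansion_coeff_one] at h6
  have := ((h4.const_mul 3).mul tendsto_E₆_atImInfty).sub
    ((tendsto_E₄_atImInfty.const_mul 2).mul h6)
  have e : (3 * 240 * 1 - 2 * 1 * (-504) : ℂ) = 1728 := by norm_num
  rw [e] at this
  refine this.congr fun z => ?_
  have hq : 𝕢 1 (z : ℂ) ≠ 0 := Function.Periodic.qParam_ne_zero _
  rw [wFun, D_eq_qParam_mul_deriv, D_eq_qParam_mul_deriv]
  field_simp

theorem tendsto_discriminant_div_q :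
    Tendsto (fun z : ℍ => ModularForm.discriminant z / 𝕢 1 z) atImInfty (𝓝 1) := by
  refine tendsto_atImInfty_tprod_one_sub_eta_q_pow.congr fun z => ?_
  have hq : 𝕢 1 (z : ℂ) ≠ 0 := Function.Periodic.qParam_ne_zero _
  rw [discriminant_eq_q_prod]
  field_simp

theorem tendsto_wFun_atImInfty : Tendsto wFun atImInfty (𝓝 0) := by
  have := tendsto_wFun_div_q.mul (qParam_tendsto_atImInfty (h := 1) one_pos)
  rw [mul_zero] at this
  refine this.congr fun z => ?_
  have hq : 𝕢 1 (z : ℂ) ≠ 0 := Function.Periodic.qParam_ne_zero _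
  field_simp



theorem levelOne_slash {k : ℤ} (f : ModularForm 𝒮ℒ k) (γ : SL(2, ℤ)) :
    (f : ℍ → ℂ) ∣[k] γ = f := by
  have := SlashInvariantFormClass.slash_action_eq f (Matrix.SpecialLinearGroup.mapGL ℝ γ)
    (MonoidHom.mem_range.mpr ⟨γ, rfl⟩)
  exact this

theorem D_slash_levelOne {k : ℤ} (f : ModularForm 𝒮ℒ k) (γ : SL(2, ℤ)) (z : ℍ) :
    (D f ∣[k + 2] γ) z = D f z + (k : ℂ) * (2 * Real.pi * I)⁻¹ *
      ((γ 1 0 : ℂ) / denom γ z) * f z := by
  have h := congrFun (normalizedDerivOfComplex_SL_slash (k := k) (F := f)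
    (ModularFormClass.holo f) (γ := γ)) z
  rw [levelOne_slash] at h
  simp only [Pi.sub_apply] at h
  rw [h]; ring

theorem wFun_eq : wFun = (3 : ℂ) • (D E₄ * E₆) - (2 : ℂ) • (E₄ * D E₆) := by
  funext z
  simp [wFun]
  ring

theorem wFun_slash (γ : SL(2, ℤ)) : wFun ∣[(12 : ℤ)] γ = wFun := by
  have e1 : (D E₄ * (E₆ : ℍ → ℂ)) ∣[(12 : ℤ)] γ
      = (D E₄ ∣[(4 : ℤ) + 2] γ) * ((E₆ : ℍ → ℂ) ∣[(6 : ℤ)] γ) := by
    rw [show (12 : ℤ) = ((4 : ℤ) + 2) + 6 by norm_num]
    exact mul_slash_SL2 _ _ γ _ _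
  have e2 : ((E₄ : ℍ → ℂ) * D E₆) ∣[(12 : ℤ)] γ
      = ((E₄ : ℍ → ℂ) ∣[(4 : ℤ)] γ) * (D E₆ ∣[(6 : ℤ) + 2] γ) := by
    rw [show (12 : ℤ) = (4 : ℤ) + (6 + 2) by norm_num]
    exact mul_slash_SL2 _ _ γ _ _
  rw [wFun_eq, sub_eq_add_neg, SlashAction.add_slash, SlashAction.neg_slash, SL_smul_slash,
    SL_smul_slash, e1, e2, levelOne_slash, levelOne_slash]
  funext z
  simp only [Pi.add_apply, Pi.neg_apply, Pi.smul_apply, Pi.mul_apply, smul_eq_mul]
  rw [D_slash_levelOne, D_slash_levelOne]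
  push_cast
  ring


theorem wFun_mdiff : MDiff wFun := by
  have h4 : MDiff (E₄ : ℍ → ℂ) := ModularFormClass.holo E₄
  have h6 : MDiff (E₆ : ℍ → ℂ) := ModularFormClass.holo E₆
  have hD4 := normalizedDerivOfComplex_mdifferentiable h4
  have hD6 := normalizedDerivOfComplex_mdifferentiable h6
  have h := ((mdifferentiable_const (c := (3 : ℂ))).mul (hD4.mul h6)).sub
    ((mdifferentiable_const (c := (2 : ℂ))).mul (h4.mul hD6))
  have e : wFun = fun z => (3 : ℂ) * (D E₄ z * E₆ z) - 2 * (E₄ z * D E₆ z) := by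
    funext z; simp [wFun]; ring
  rw [e]
  exact h

/-- `wFun` as a cusp form of weight 12 and level one. -/
noncomputable def wCusp : CuspForm 𝒮ℒ 12 where
  toFun := wFun
  slash_action_eq' A hA := by
    obtain ⟨A, rfl⟩ := hA
    exact wFun_slash A
  holo' := wFun_mdiff
  zero_at_cusps' hc := by
    rw [Subgroup.IsArithmetic.isCusp_iff_isCusp_SL2Z] at hc
    rw [OnePoint.isZeroAt_iff_forall_SL2Z hc]
    intro γ _
    rw [wFun_slash]
    exact tendsto_wFun_atImInfty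

/-- **B2, the key identity**: `3 (D E₄) E₆ − 2 E₄ (D E₆) = 1728 Δ`. -/
theorem wFun_eq_discriminant (z : ℍ) :
    3 * D E₄ z * E₆ z - 2 * E₄ z * D E₆ z = 1728 * ModularForm.discriminant z := by
  obtain ⟨c, hc⟩ := CuspForm.exists_smul_discriminant_of_weight_eq_twelve wCusp
  have hpt : ∀ w : ℍ, c * ModularForm.discriminant w = wFun w := fun w => by
    have := congrArg (fun f : CuspForm 𝒮ℒ 12 => f w) hc
    have e : wCusp w = wFun w := rfl
    simp only [e] at this
    simpa using this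
  have hlim : Tendsto (fun w : ℍ => wFun w / 𝕢 1 w) atImInfty (𝓝 (c * 1)) := by
    refine (tendsto_discriminant_div_q.const_mul c).congr fun w => ?_
    rw [← hpt w]; ring
  have hc1728 : c * 1 = 1728 := tendsto_nhds_unique hlim tendsto_wFun_div_q
  rw [mul_one] at hc1728
  have := hpt z
  rw [hc1728] at this
  rw [this, wFun]

end Fermat.Agent.Lib.ModJ
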