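import Fermat.Agent.Lib.ModJ.Order

namespace Fermat.Agent.Lib.ModJ

open UpperHalfPlane hiding I
open Complex MatrixGroups Filter Topology

/-- trailing coefficient of `φ - φ x` at `x` is `φ'(x)` when the latter is nonzero. -/
theorem trailingCoeff_sub_of_deriv_ne_zero {φ : ℂ → ℂ} {x : ℂ} (hφ : AnalyticAt ℂ φ x)
    (hd : deriv φ x ≠ 0) :
    meromorphicTrailingCoeffAt (fun w => φ w - φ x) x = deriv φ x := by
  have h1 : (fun w => φ w - φ x) =ᶠ[𝓝[≠] x] fun w => (w - x) ^ (1 : ℤ) • dslope φ x w := by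
    refine Filter.Eventually.of_forall fun w => ?_
    simp only [zpow_one, smul_eq_mul]
    rw [← smul_eq_mul, sub_smul_dslope]
  have han : AnalyticAt ℂ (dslope φ x) x := by
    obtain ⟨p, hp⟩ := hφ
    exact ⟨_, hp.has_fpower_series_dslope_fslope⟩
  have hne : dslope φ x x ≠ 0 := by
    rw [dslope_same]; exact hd
  rw [han.meromorphicTrailingCoeffAt_of_ne_zero_of_eq_nhdsNE hne h1, dslope_same]

/-- **Rotation lemma, core form.** If `f` is meromorphic at a fixed point `x` of the analytic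
map `φ`, `φ'(x) = ζ` is a primitive `s`-th root of unity, and `f ∘ φ = f` on a punctured
neighbourhood of `x`, then `s` divides the order of `f` at `x`. -/
theorem rotation_general {f φ : ℂ → ℂ} {x : ℂ} (hf : MeromorphicAt f x) (hφ : AnalyticAt ℂ φ x)
    (hx : φ x = x) {ζ : ℂ} {s : ℕ} (hζ : IsPrimitiveRoot ζ s) (hd : deriv φ x = ζ) (hs : s ≠ 0)
    (hinv : f ∘ φ =ᶠ[𝓝[≠] x] f) (hne : meromorphicOrderAt f x ≠ ⊤) :
    (s : ℤ) ∣ (meromorphicOrderAt f x).untop₀ := by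
  have hζ0 : ζ ≠ 0 := hζ.ne_zero hs
  have hd0 : deriv φ x ≠ 0 := by rw [hd]; exact hζ0
  have hnc : ¬ EventuallyConst φ (𝓝 x) := by
    intro hc
    rw [eventuallyConst_iff_analyticOrderAt_sub_eq_top] at hc
    have := hφ.analyticOrderAt_sub_eq_one_of_deriv_ne_zero hd0
    rw [hc] at this
    exact absurd this (by simp)
  have hf' : MeromorphicAt f (φ x) := by rw [hx]; exact hf
  have h1 := hf'.meromorphicTrailingCoeffAt_comp hφ hnc
  rw [trailingCoeff_sub_of_deriv_ne_zero hφ hd0, hd, hx,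
    meromorphicTrailingCoeffAt_congr_nhdsNE hinv] at h1
  have h2 : meromorphicTrailingCoeffAt f x ≠ 0 := hf.meromorphicTrailingCoeffAt_ne_zero hne
  have h3 : ζ ^ (meromorphicOrderAt f x).untop₀ = 1 := by
    have : (ζ ^ (meromorphicOrderAt f x).untop₀ - 1) * meromorphicTrailingCoeffAt f x = 0 := by
      rw [sub_mul, one_mul, ← smul_eq_mul, ← h1, sub_self]
    rcases mul_eq_zero.mp this with h | h
    · exact sub_eq_zero.mp h
    · exact absurd h h2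
  exact (hζ.zpow_eq_one_iff_dvd _).mp h3

/-- **Rotation lemma in helper8's shape** (rotation `u ↦ ζ u` about `0`). -/
theorem rotation_core (G : ℂ → ℂ) (hG : MeromorphicAt G 0) (ζ : ℂ) (s : ℕ) (hs : s ≠ 0)
    (hζ : IsPrimitiveRoot ζ s) (hinv : ∀ᶠ u in 𝓝[≠] (0 : ℂ), G (ζ * u) = G u)
    (hne : meromorphicOrderAt G 0 ≠ ⊤) : (s : ℤ) ∣ (meromorphicOrderAt G 0).untop₀ := by
  have hφ : AnalyticAt ℂ (fun u : ℂ => ζ * u) 0 := by fun_prop
  refine rotation_general (φ := fun u => ζ * u) hG hφ (by simp) hζ ?_ hs hinv hne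
  simp


theorem isPrimitiveRoot_of_cube {ζ : ℂ} (h : ζ ^ 3 = 1) (h1 : ζ ≠ 1) : IsPrimitiveRoot ζ 3 := by
  have : orderOf ζ = 3 := orderOf_eq_prime h h1
  exact this ▸ IsPrimitiveRoot.orderOf ζ

theorem isPrimitiveRoot_of_sq {ζ : ℂ} (h : ζ ^ 2 = 1) (h1 : ζ ≠ 1) : IsPrimitiveRoot ζ 2 := by
  have : orderOf ζ = 2 := orderOf_eq_prime h h1
  exact this ▸ IsPrimitiveRoot.orderOf ζ

theorem det_mapGL_pos' (γ : SL(2, ℤ)) :
    0 < (Matrix.SpecialLinearGroup.mapGL ℝ γ : GL (Fin 2) ℝ).val.det := by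
  rw [← Matrix.GeneralLinearGroup.val_det_apply]
  simp

/-- derivative of the Möbius action of `γ : SL(2,ℤ)` at `z`. -/
theorem deriv_mob (γ : SL(2, ℤ)) (z : ℍ) :
    deriv (fun w : ℂ => ((Matrix.SpecialLinearGroup.mapGL ℝ γ • ofComplex w : ℍ) : ℂ)) z
      = 1 / (((γ 1 0 : ℤ) : ℂ) * z + ((γ 1 1 : ℤ) : ℂ)) ^ 2 := by
  have h := (UpperHalfPlane.hasStrictDerivAt_smul (det_mapGL_pos' γ) z).hasDerivAt.deriv
  rw [h]
  have hdet : ((Matrix.SpecialLinearGroup.mapGL ℝ γ : GL (Fin 2) ℝ).val.det : ℝ) = 1 := by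
    rw [← Matrix.GeneralLinearGroup.val_det_apply]
    simp
  rw [hdet]
  simp [UpperHalfPlane.denom]

theorem S_inv_entries : ((ModularGroup.S⁻¹ : SL(2, ℤ)) 1 0 : ℤ) = -1 ∧
    ((ModularGroup.S⁻¹ : SL(2, ℤ)) 1 1 : ℤ) = 0 := by
  constructor <;> simp [ModularGroup.coe_S, Matrix.SpecialLinearGroup.coe_inv, Matrix.adjugate_fin_two]

theorem ST_inv_entries : (((ModularGroup.S * ModularGroup.T)⁻¹ : SL(2, ℤ)) 1 0 : ℤ) = -1 ∧
    (((ModularGroup.S * ModularGroup.T)⁻¹ : SL(2, ℤ)) 1 1 : ℤ) = 0 := by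
  constructor <;>
    simp [ModularGroup.coe_S, Matrix.SpecialLinearGroup.coe_inv, Matrix.adjugate_fin_two]

/-- **R1**: the multiplier of `S⁻¹` at `i` is `-1`. -/
theorem deriv_S_inv_I :
    deriv (fun w : ℂ => ((Matrix.SpecialLinearGroup.mapGL ℝ ModularGroup.S⁻¹ • ofComplex w : ℍ) : ℂ))
      (UpperHalfPlane.I : ℍ) = -1 := by
  rw [deriv_mob, S_inv_entries.1, S_inv_entries.2]
  simp [Complex.I_sq]

theorem isPrimitiveRoot_deriv_S_inv_I :
    IsPrimitiveRoot (deriv (fun w : ℂ =>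
      ((Matrix.SpecialLinearGroup.mapGL ℝ ModularGroup.S⁻¹ • ofComplex w : ℍ) : ℂ))
      (UpperHalfPlane.I : ℍ)) 2 := by
  rw [deriv_S_inv_I]
  exact isPrimitiveRoot_of_sq (by norm_num) (by norm_num)

/-- **R2**: the multiplier of `(S*T)⁻¹` at `ρ` is `ρ`, a primitive cube root of unity. -/
theorem deriv_ST_inv_rho :
    deriv (fun w : ℂ =>
      ((Matrix.SpecialLinearGroup.mapGL ℝ (ModularGroup.S * ModularGroup.T)⁻¹ • ofComplex w : ℍ) : ℂ))
      (ρ : ℍ) = (ρ : ℂ) := by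
  rw [deriv_mob, ST_inv_entries.1, ST_inv_entries.2]
  have h3 := rho_cube
  have hne : (ρ : ℂ) ≠ 0 := ρ.ne_zero
  have e : ((((-1 : ℤ) : ℂ)) * (ρ : ℂ) + ((0 : ℤ) : ℂ)) ^ 2 = (ρ : ℂ) ^ 2 := by
    push_cast; ring
  rw [e, div_eq_iff (pow_ne_zero 2 hne)]
  linear_combination -h3

theorem isPrimitiveRoot_rho : IsPrimitiveRoot (ρ : ℂ) 3 := by
  refine isPrimitiveRoot_of_cube rho_cube fun h => ?_
  have := congrArg Complex.im h
  simp at this
  exact ρ.im_pos.ne' this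

theorem isPrimitiveRoot_deriv_ST_inv_rho :
    IsPrimitiveRoot (deriv (fun w : ℂ =>
      ((Matrix.SpecialLinearGroup.mapGL ℝ (ModularGroup.S * ModularGroup.T)⁻¹ • ofComplex w : ℍ) : ℂ))
      (ρ : ℍ)) 3 := by
  rw [deriv_ST_inv_rho]
  exact isPrimitiveRoot_rho

end Fermat.Agent.Lib.ModJ
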