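import Mathlib
import Fermat.Agent.Lib.ModJ.SturmDep
import Fermat.Agent.Lib.ModJ.DegreeGlue
import Fermat.Agent.Lib.ModJ.Degree

/-!
# S20 bridge, B3 core: Sturm dependence for formal fractions of modular forms

`FracData σ N ι`: a finite family of formal fractions `a i / b i`, where `a i`, `b i` are the
`q`-expansions (with coefficients in `K`) of modular forms `A i`, `B i ≠ 0` of the same weight `w i`
on `Γ₀(N)`.  Any `n + 1 > [SL₂(ℤ) : Γ₀(N)]` polynomial expressions in the `a i / b i` satisfy a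
non-trivial linear relation over `K[x]`, `x = a i₁ / b i₁` of weight `12`.
-/

set_option autoImplicit false
set_option linter.unusedSectionVars false

noncomputable section

open UpperHalfPlane Function Complex ModularForm CongruenceSubgroup
open scoped Manifold MatrixGroups ModularForm

namespace Fermat.Agent.Lib.ModJ

/-- Formal fractions `a i / b i` of `q`-expansions of modular forms `A i`, `B i` of weight `w i`
on `Γ₀(N)`. -/
structure FracData (K : Type*) [Field K] [Algebra ℚ K] (σ : K →+* ℂ) (N : ℕ) (ι : Type*) where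
  w : ι → ℕ
  A : ι → ℍ → ℂ
  B : ι → ℍ → ℂ
  a : ι → LaurentSeries K
  b : ι → LaurentSeries K
  isMF_A : ∀ i, IsMF N (w i) (A i)
  isMF_B : ∀ i, IsMF N (w i) (B i)
  hasQL_A : ∀ i, HasQL 1 (A i) (ModularCurve.coeffMap σ (a i))
  hasQL_B : ∀ i, HasQL 1 (B i) (ModularCurve.coeffMap σ (b i))
  b_ne : ∀ i, b i ≠ 0

theorem HasQL.finset_sum {h : ℝ} {α : Type*} (s : Finset α) (G : α → ℍ → ℂ)
    (L : α → LaurentSeries ℂ) (hG : ∀ a ∈ s, HasQL h (G a) (L a)) :
    HasQL h (fun z => ∑ a ∈ s, G a z) (∑ a ∈ s, L a) := by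
  classical
  induction s using Finset.induction_on with
  | empty => simpa using hasQL_zero (h := h)
  | insert a s ha ih =>
    have h1 := hG a (Finset.mem_insert_self a s)
    have h2 := ih (fun b hb => hG b (Finset.mem_insert_of_mem hb))
    rw [Finset.sum_insert ha]
    refine (h1.add h2).congr (fun z => ?_)
    rw [Finset.sum_insert ha]

variable {K : Type*} [Field K] [Algebra ℚ K] {σ : K →+* ℂ} {N : ℕ} {ι : Type*} [Fintype ι]
  (𝒟 : FracData K σ N ι)

namespace FracData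

/-- the formal fraction -/
def gen (i : ι) : LaurentSeries K := 𝒟.a i / 𝒟.b i

/-- the analytic monomial `∏ A_i^{μ_i} B_i^{β_i - μ_i}` -/
def monoAn (μ : ι →₀ ℕ) (β : ι → ℕ) (z : ℍ) : ℂ :=
  ∏ i, (𝒟.A i z ^ μ i * 𝒟.B i z ^ (β i - μ i))

/-- the formal monomial `∏ a_i^{μ_i} b_i^{β_i - μ_i}` -/
def monoSer (μ : ι →₀ ℕ) (β : ι → ℕ) : LaurentSeries K :=
  ∏ i, (𝒟.a i ^ μ i * 𝒟.b i ^ (β i - μ i))

theorem isMF_monoAn (μ : ι →₀ ℕ) (β : ι → ℕ) (hμ : ∀ i, μ i ≤ β i) :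
    IsMF N (∑ i, (𝒟.w i : ℤ) * β i) (𝒟.monoAn μ β) := by
  have := IsMF.prod (N := N) Finset.univ (fun i => (𝒟.w i : ℤ) * β i)
    (fun i z => 𝒟.A i z ^ μ i * 𝒟.B i z ^ (β i - μ i))
    (fun i _ => by
      have h1 := (𝒟.isMF_A i).pow (μ i)
      have h2 := (𝒟.isMF_B i).pow (β i - μ i)
      refine (h1.mul h2).cast ?_
      have := hμ i
      push_cast [Nat.cast_sub this]
      ring)
  exact this

theorem hasQL_monoAn (μ : ι →₀ ℕ) (β : ι → ℕ) :
    HasQL 1 (𝒟.monoAn μ β) (ModularCurve.coeffMap σ (𝒟.monoSer μ β)) := by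
  rw [monoSer, map_prod]
  refine HasQL.finset_prod _ _ _ (fun i _ => ?_)
  rw [map_mul, map_pow, map_pow]
  exact ((𝒟.hasQL_A i).pow _).mul ((𝒟.hasQL_B i).pow _)

theorem gen_pow_mul (i : ι) {m n : ℕ} (hmn : m ≤ n) :
    𝒟.gen i ^ m * 𝒟.b i ^ n = 𝒟.a i ^ m * 𝒟.b i ^ (n - m) := by
  have hb := 𝒟.b_ne i
  have hbm : 𝒟.b i ^ m ≠ 0 := pow_ne_zero _ hb
  rw [gen, div_pow, ← Nat.sub_add_cancel hmn, pow_add _ (n - m) m, Nat.sub_add_cancel hmn]
  field_simp

/-- the analytic function attached to a polynomial `R` and exponents `β` -/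
def GanFun (R : MvPolynomial ι K) (β : ι → ℕ) (z : ℍ) : ℂ :=
  ∑ μ ∈ R.support, σ (R.coeff μ) * 𝒟.monoAn μ β z

/-- the formal series `R(a_i / b_i) · ∏ b_i^{β_i}` -/
def GfSer (R : MvPolynomial ι K) (β : ι → ℕ) : LaurentSeries K :=
  MvPolynomial.aeval 𝒟.gen R * ∏ i, 𝒟.b i ^ β i

theorem GfSer_eq_sum (R : MvPolynomial ι K) (β : ι → ℕ) (hβ : ∀ i, R.degreeOf i ≤ β i) :
    𝒟.GfSer R β = ∑ μ ∈ R.support, algebraMap K (LaurentSeries K) (R.coeff μ) * 𝒟.monoSer μ β := by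
  rw [GfSer, MvPolynomial.aeval_def, MvPolynomial.eval₂_eq', Finset.sum_mul]
  refine Finset.sum_congr rfl (fun μ hμ => ?_)
  rw [mul_assoc, ← Finset.prod_mul_distrib, monoSer]
  congr 1
  refine Finset.prod_congr rfl (fun i _ => ?_)
  exact 𝒟.gen_pow_mul i ((MvPolynomial.monomial_le_degreeOf i hμ).trans (hβ i))

theorem isMF_GanFun (R : MvPolynomial ι K) (β : ι → ℕ) (hβ : ∀ i, R.degreeOf i ≤ β i) :
    IsMF N (∑ i, (𝒟.w i : ℤ) * β i) (𝒟.GanFun R β) := by
  refine IsMF.sum _ _ (fun μ hμ => ?_)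
  refine IsMF.const_mul _ ?_
  exact 𝒟.isMF_monoAn μ β (fun i => (MvPolynomial.monomial_le_degreeOf i hμ).trans (hβ i))

theorem hasQL_GanFun (R : MvPolynomial ι K) (β : ι → ℕ) (hβ : ∀ i, R.degreeOf i ≤ β i) :
    HasQL 1 (𝒟.GanFun R β) (ModularCurve.coeffMap σ (𝒟.GfSer R β)) := by
  rw [𝒟.GfSer_eq_sum R β hβ, map_sum]
  refine HasQL.finset_sum _ _ _ (fun μ _ => ?_)
  rw [map_mul, coeffMap_algebraMap']
  exact (hasQL_C _).mul (𝒟.hasQL_monoAn μ β)

/-- **Sturm bound for polynomial expressions in the fractions.** -/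
theorem sturm_core [NeZero N] (R : MvPolynomial ι K) (β : ι → ℕ)
    (hβ : ∀ i, R.degreeOf i ≤ β i)
    (h : ∀ n : ℕ, n ≤ ((∑ i, (𝒟.w i : ℤ) * β i) * (Gamma0 N).index).toNat / 12 →
      (𝒟.GfSer R β).coeff (n : ℤ) = 0) :
    MvPolynomial.aeval 𝒟.gen R = 0 := by
  have h1 := eq_zero_of_isMF (𝒟.isMF_GanFun R β hβ) (𝒟.hasQL_GanFun R β hβ) (fun n hn => by
    rw [ModularCurve.coeffMap_coeff, h n hn, map_zero])
  have h2 : 𝒟.GfSer R β = 0 := coeffMap_injective σ σ.injective (by rw [h1, map_zero])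
  rw [GfSer] at h2
  rcases mul_eq_zero.mp h2 with h3 | h3
  · exact h3
  · exfalso
    rw [Finset.prod_eq_zero_iff] at h3
    obtain ⟨i, _, hi⟩ := h3
    exact 𝒟.b_ne i (pow_eq_zero_iff_of_pos' hi)

theorem GfSer_add (R R' : MvPolynomial ι K) (β : ι → ℕ) :
    𝒟.GfSer (R + R') β = 𝒟.GfSer R β + 𝒟.GfSer R' β := by
  simp only [GfSer, map_add, add_mul]

theorem GfSer_smul (c : K) (R : MvPolynomial ι K) (β : ι → ℕ) (n : ℤ) :
    (𝒟.GfSer (c • R) β).coeff n = c * (𝒟.GfSer R β).coeff n := by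
  simp only [GfSer]
  rw [MvPolynomial.smul_eq_C_mul, map_mul, MvPolynomial.aeval_C, mul_assoc, coeff_algebraMap_mul]

variable [DecidableEq ι]

/-- the linear map `c ↦` first coefficients of `(Σ c_{a,k} x^a θ_k) · ∏ b_i^{β_i}` -/
def depLin (i₁ : ι) (m n e B : ℕ) (Q : Fin (n + 1) → MvPolynomial ι K) :
    (Fin (m + 1) × Fin (n + 1) → K) →ₗ[K] (Fin (B + 1) → K) where
  toFun c := fun n' =>
    (𝒟.GfSer (∑ ak, c ak • depFam i₁ Q ak) (depBound i₁ m e)).coeff ((n' : ℕ) : ℤ)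
  map_add' c c' := by
    funext n'
    simp only [Pi.add_apply, add_smul, Finset.sum_add_distrib, GfSer_add, HahnSeries.coeff_add]
  map_smul' a c := by
    funext n'
    simp only [Pi.smul_apply, smul_eq_mul, RingHom.id_apply]
    rw [← GfSer_smul, Finset.smul_sum]
    congr 2
    refine Finset.sum_congr rfl (fun ak _ => ?_)
    rw [smul_smul]

theorem depLin_apply (i₁ : ι) (m n e B : ℕ) (Q : Fin (n + 1) → MvPolynomial ι K)
    (c : Fin (m + 1) × Fin (n + 1) → K) (n' : Fin (B + 1)) :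
    𝒟.depLin i₁ m n e B Q c n'
      = (𝒟.GfSer (∑ ak, c ak • depFam i₁ Q ak) (depBound i₁ m e)).coeff ((n' : ℕ) : ℤ) := rfl

theorem sum_weight_depBound (i₁ : ι) (m e : ℕ) :
    ∑ i, (𝒟.w i : ℤ) * (depBound i₁ m e i : ℕ) = (∑ i, (𝒟.w i : ℤ)) * e + 𝒟.w i₁ * m := by
  simp only [depBound, Nat.cast_add, mul_add, Finset.sum_add_distrib, ← Finset.sum_mul]
  congr 1
  rw [Finset.sum_eq_single i₁]
  · simp
  · intro i _ hi
    simp [hi]
  · intro h
    exact absurd (Finset.mem_univ _) h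

/-- **Dependence**: any `n + 1` polynomial expressions `θ_k` in the fractions
(`n ≥ [SL₂(ℤ) : Γ₀(N)]`) satisfy a non-trivial relation `Σ c_{a,k} x^a θ_k = 0`, where
`x = a_{i₁} / b_{i₁}` has weight `12`. -/
theorem exists_dependence_aux [NeZero N] (i₁ : ι) (hw : 𝒟.w i₁ = 12) (n : ℕ)
    (hn : (Gamma0 N).index ≤ n) (Q : Fin (n + 1) → MvPolynomial ι K) :
    ∃ (m : ℕ) (c : Fin (m + 1) × Fin (n + 1) → K), c ≠ 0 ∧
      MvPolynomial.aeval 𝒟.gen (∑ ak, c ak • depFam i₁ Q ak) = 0 := by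
  classical
  obtain ⟨e, he⟩ : ∃ e : ℕ, ∀ k i, (Q k).degreeOf i ≤ e := by
    refine ⟨∑ k, (Q k).totalDegree, fun k i => ?_⟩
    refine (MvPolynomial.degreeOf_le_totalDegree _ _).trans ?_
    exact Finset.single_le_sum (f := fun k => (Q k).totalDegree) (fun _ _ => Nat.zero_le _)
      (Finset.mem_univ k)
  set ψ := (Gamma0 N).index with hψ
  set W₀ := ∑ i, 𝒟.w i with hW₀
  set m := W₀ * e * ψ + 1 with hm
  set B := (W₀ * e + m) * ψ with hB
  have hcount : B + 1 < (m + 1) * (n + 1) := by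
    have h1 : (m + 1) * (ψ + 1) ≤ (m + 1) * (n + 1) :=
      Nat.mul_le_mul_left _ (Nat.succ_le_succ hn)
    have h2 : B + 1 < (m + 1) * (ψ + 1) := by
      rw [hB, hm]
      ring_nf
      omega
    omega
  have hker : LinearMap.ker (𝒟.depLin i₁ m n e B Q) ≠ ⊥ := by
    apply LinearMap.ker_ne_bot_of_finrank_lt
    rw [Module.finrank_fintype_fun_eq_card, Module.finrank_fintype_fun_eq_card,
      Fintype.card_prod, Fintype.card_fin, Fintype.card_fin, Fintype.card_fin]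
    exact hcount
  obtain ⟨c, hc, hc0⟩ := Submodule.exists_mem_ne_zero_of_ne_bot hker
  refine ⟨m, c, hc0, ?_⟩
  refine 𝒟.sturm_core _ (depBound i₁ m e)
    (fun i => degreeOf_linearCombination_le i₁ Q he c i) (fun n' hn' => ?_)
  rw [sum_weight_depBound, hw] at hn'
  have hle : n' ≤ B := by
    refine hn'.trans ?_
    have e1 : ((∑ i, (𝒟.w i : ℤ)) * (e : ℤ) + ((12 : ℕ) : ℤ) * (m : ℤ)) * ((Gamma0 N).index : ℤ)
        = ((((W₀ * e + 12 * m) * ψ : ℕ)) : ℤ) := by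
      rw [hW₀, hψ]
      push_cast
      ring
    rw [e1, Int.toNat_natCast]
    rw [hB]
    apply Nat.div_le_of_le_mul
    have : (W₀ * e + 12 * m) * ψ ≤ 12 * ((W₀ * e + m) * ψ) := by
      have h1 : W₀ * e + 12 * m ≤ 12 * (W₀ * e + m) := by omega
      calc (W₀ * e + 12 * m) * ψ ≤ (12 * (W₀ * e + m)) * ψ := Nat.mul_le_mul_right _ h1
        _ = 12 * ((W₀ * e + m) * ψ) := by ring
    exact this
  have hlt : n' < B + 1 := Nat.lt_succ_of_le hle
  have := congrFun (LinearMap.mem_ker.mp hc) ⟨n', hlt⟩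
  rw [depLin_apply] at this
  simpa using this

end FracData

/-! ### the dependence in terms of polynomials in `x` -/

section Alg

variable {K : Type*} [Field K] {L : Type*} [Field L] [Algebra K L] {ι : Type*} [Fintype ι]

theorem aeval_depFam_sum' [DecidableEq ι] (g : ι → L) {m n : ℕ} (c : Fin (m + 1) × Fin (n + 1) → K)
    (Q : Fin (n + 1) → MvPolynomial ι K) (i₁ : ι) :
    MvPolynomial.aeval g (∑ ak, c ak • depFam i₁ Q ak)
      = ∑ k, Polynomial.aeval (g i₁) (depPoly c k) * MvPolynomial.aeval g (Q k) := by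
  rw [map_sum, Fintype.sum_prod_type, Finset.sum_comm]
  refine Finset.sum_congr rfl (fun k _ => ?_)
  rw [depPoly, map_sum, Finset.sum_mul]
  refine Finset.sum_congr rfl (fun a _ => ?_)
  rw [MvPolynomial.smul_eq_C_mul, depFam, map_mul, map_mul, map_pow, MvPolynomial.aeval_C,
    MvPolynomial.aeval_X, Polynomial.aeval_monomial]
  ring

end Alg

end Fermat.Agent.Lib.ModJ
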